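import Fermat.Agent.LT.Asai.LocalFactor
import Mathlib.Data.Nat.Factorization.Basic

/-!
# The coefficients of the Asai series of an eigenform on `ℚ(√-3)`

`ev p`, `ev' p` are the normalised eigenvalues at the places above `p` (only `ev` is used at an
inert prime); the primes dividing the bad modulus are left out.
-/

set_option autoImplicit false

open Filter Finset
open scoped Topology

noncomputable section

namespace Fermat.Agent.LT.Asai

/-- The coefficient at `p ^ k`. -/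
def asaiLocal (M : ℕ) (ev ev' : ℕ → ℝ) (p k : ℕ) : ℝ :=
  if p ∣ M then (if k = 0 then 1 else 0)
  else if p % 3 = 1 then heckeSeq (ev p) k * heckeSeq (ev' p) k else heckeSeq (ev p) k

lemma asaiLocal_zero (M : ℕ) (ev ev' : ℕ → ℝ) (p : ℕ) : asaiLocal M ev ev' p 0 = 1 := by
  by_cases h : p ∣ M
  · simp [asaiLocal, h]
  · by_cases h3 : p % 3 = 1 <;> simp [asaiLocal, h, h3, heckeSeq]

/-- The coefficient at `n`. -/
def eulerCoeff (M : ℕ) (ev ev' : ℕ → ℝ) (n : ℕ) : ℝ :=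
  if n = 0 then 0 else n.factorization.prod (asaiLocal M ev ev')

variable {M : ℕ} {ev ev' : ℕ → ℝ}

/-- The Euler coefficient at `0` is `0`. -/
@[simp] lemma eulerCoeff_zero : eulerCoeff M ev ev' 0 = 0 := if_pos rfl

/-- The Euler coefficient at `1` is `1`. -/
@[simp] lemma eulerCoeff_one : eulerCoeff M ev ev' 1 = 1 := by simp [eulerCoeff]

/-- The Euler coefficients are multiplicative. -/
lemma eulerCoeff_mul (m n : ℕ) (h : Nat.Coprime m n) :
    eulerCoeff M ev ev' (m * n) = eulerCoeff M ev ev' m * eulerCoeff M ev ev' n := by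
  rcases eq_or_ne m 0 with rfl | hm
  · simp
  rcases eq_or_ne n 0 with rfl | hn
  · simp
  rw [eulerCoeff, if_neg (mul_ne_zero hm hn), eulerCoeff, if_neg hm, eulerCoeff, if_neg hn,
    Nat.factorization_mul_of_coprime h, Finsupp.prod_add_index_of_disjoint]
  simpa [Nat.support_factorization] using h.disjoint_primeFactors

/-- At a prime power the Euler coefficient is the local Asai coefficient. -/
lemma eulerCoeff_prime_pow {p : ℕ} (hp : p.Prime) (k : ℕ) :
    eulerCoeff M ev ev' (p ^ k) = asaiLocal M ev ev' p k := by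
  rw [eulerCoeff, if_neg (pow_ne_zero _ hp.ne_zero), hp.factorization_pow,
    Finsupp.prod_single_index (asaiLocal_zero M ev ev' p)]

/-- The weight at `p`: a lower bound for the coefficient at `p`. -/
def asaiWeight (M : ℕ) (ev ev' : ℕ → ℝ) (p : ℕ) : ℝ :=
  if p.Prime ∧ ¬ p ∣ M then
    (if p % 3 = 1 then min ((ev p + ev' p) ^ 2 / 2) 8 else max (min (ev p) 2) 0)
  else 0

lemma asaiWeight_mem (p : ℕ) : 0 ≤ asaiWeight M ev ev' p ∧ asaiWeight M ev ev' p ≤ 8 := by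
  unfold asaiWeight
  split_ifs
  · exact ⟨le_min (by positivity) (by norm_num), min_le_right _ _⟩
  · exact ⟨le_max_right _ _, max_le ((min_le_right _ _).trans (by norm_num)) (by norm_num)⟩
  · norm_num

lemma one_sub_sq_le_one (p : ℕ) {s : ℝ} :
    (1 + 0 * (p : ℝ) ^ (-s)) * (1 - ((p : ℝ) ^ (-s)) ^ 2) ≤ 1 := by
  nlinarith [sq_nonneg ((p : ℝ) ^ (-s))]

/-- The eigenvalues at the split primes satisfy the trivial bound. -/
def IsTrivialBound (M : ℕ) (ev : ℕ → ℝ) : Prop :=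
  ∀ p : ℕ, p.Prime → ¬ p ∣ M → p % 3 = 1 → |ev p| ≤ Real.sqrt p + (Real.sqrt p)⁻¹

/-- The symmetric squares at the split primes sum to at most `log (1 / (s - 1)) + O(1)`. -/
def HasSquareBound (M : ℕ) (ev ev' : ℕ → ℝ) : Prop :=
  ∃ C : ℝ, ∀ s ∈ Set.Ioc (1 : ℝ) 2, ∀ S : Finset Nat.Primes,
    (∀ p ∈ S, ¬ (p : ℕ) ∣ M ∧ (p : ℕ) % 3 = 1) →
      ∑ p ∈ S, (pairSum (ev p) (ev p) (((p : ℕ) : ℝ) ^ (-s)) +
        pairSum (ev' p) (ev' p) (((p : ℕ) : ℝ) ^ (-s))) ≤ Real.log (1 / (s - 1)) + C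

/-- The loss at `p`. -/
def asaiLoss (M : ℕ) (ev ev' : ℕ → ℝ) (s : ℝ) (p : ℕ) : ℝ :=
  if ¬ p ∣ M ∧ p % 3 = 1 then
    (pairSum (ev p) (ev p) ((p : ℝ) ^ (-s)) + pairSum (ev' p) (ev' p) ((p : ℝ) ^ (-s))) / 2
  else 0

/-- The Euler factors are bounded below. -/
lemma asaiLocal_factor_ge (hinert : ∀ p : ℕ, p.Prime → ¬ p ∣ M → p % 3 ≠ 1 → ev p = 0 ∨ ev p = 2)
    (htriv : IsTrivialBound M ev) (htriv' : IsTrivialBound M ev')
    (hsum : ∀ s : ℝ, 1 < s → Summable fun n => |dTerm (eulerCoeff M ev ev') s n|)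
    (p : ℕ) (hp : p.Prime) (s : ℝ) (hs : 1 < s) :
    (1 + asaiWeight M ev ev' p * (p : ℝ) ^ (-s)) * (1 - ((p : ℝ) ^ (-s)) ^ 2) *
        Real.exp (-asaiLoss M ev ev' s p) ≤
      ∑' k, dTerm (eulerCoeff M ev ev') s (p ^ k) := by
  have hf : ∀ k, eulerCoeff M ev ev' (p ^ k) = asaiLocal M ev ev' p k := eulerCoeff_prime_pow hp
  by_cases hsplit : ¬ p ∣ M ∧ p % 3 = 1
  · rw [asaiLoss, if_pos hsplit]
    obtain ⟨hM, h3⟩ := hsplit
    refine local_split hp.two_le hs (a := ev p) (b := ev' p) (fun k => ?_) (htriv p hp hM h3)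
      (htriv' p hp hM h3) ?_ (hsum s hs)
    · rw [hf, asaiLocal, if_neg hM, if_pos h3]
    · rw [asaiWeight, if_pos ⟨hp, hM⟩, if_pos h3]
      exact min_le_left _ _
  rw [asaiLoss, if_neg hsplit, neg_zero, Real.exp_zero, mul_one]
  by_cases hM : p ∣ M
  · have h1 : ∑' k, dTerm (eulerCoeff M ev ev') s (p ^ k) = 1 := by
      rw [tsum_eq_single 0 fun k hk => by simp [dTerm, hf, asaiLocal, hM, hk]]
      simp [dTerm]
    rw [h1, asaiWeight, if_neg fun h => h.2 hM]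
    exact one_sub_sq_le_one p
  have h3 : ¬ p % 3 = 1 := fun h => hsplit ⟨hM, h⟩
  have hf' : ∀ k, eulerCoeff M ev ev' (p ^ k) = heckeSeq (ev p) k := fun k => by
    rw [hf, asaiLocal, if_neg hM, if_neg h3]
  rcases hinert p hp hM h3 with h | h
  · rw [asaiWeight, if_pos ⟨hp, hM⟩, if_neg h3, h,
      show max (min (0 : ℝ) 2) 0 = 0 by norm_num, zero_mul, add_zero, one_mul]
    exact local_inert_zero hp.two_le (fun k => by rw [hf', h]) (hsum s hs)
  · refine local_inert_two hp.two_le (fun k => by rw [hf', h]) (asaiWeight_mem p).1 ?_ (hsum s hs)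
    rw [asaiWeight, if_pos ⟨hp, hM⟩, if_neg h3, h]
    norm_num

/-- The series tends to infinity when the weights beat half of `log (1 / (s - 1))`. -/
theorem tendsto_asai (hinert : ∀ p : ℕ, p.Prime → ¬ p ∣ M → p % 3 ≠ 1 → ev p = 0 ∨ ev p = 2)
    (htriv : IsTrivialBound M ev) (htriv' : IsTrivialBound M ev')
    (hsq : HasSquareBound M ev ev')
    (hsum : ∀ s : ℝ, 1 < s → Summable fun n => |dTerm (eulerCoeff M ev ev') s n|)
    {c B : ℝ} (hc : 1 / 2 < c)
    (hlow : ∀ s ∈ Set.Ioc (1 : ℝ) 2, ∃ T : Finset ℕ, (∀ p ∈ T, p.Prime) ∧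
      c * Real.log (1 / (s - 1)) - B ≤ ∑ p ∈ T, asaiWeight M ev ev' p * (p : ℝ) ^ (-s)) :
    Tendsto (dSum (eulerCoeff M ev ev')) (𝓝[>] 1) atTop := by
  obtain ⟨C, hC⟩ := hsq
  refine tendsto_dSum (asaiWeight M ev ev') eulerCoeff_zero eulerCoeff_one eulerCoeff_mul hsum
    asaiWeight_mem (asaiLoss M ev ev') (asaiLocal_factor_ge hinert htriv htriv' hsum)
    (c' := 1 / 2) (B' := C / 2) (fun s hs S => ?_) hc hlow
  rw [show (1 : ℝ) / 2 * Real.log (1 / (s - 1)) + C / 2 =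
    (Real.log (1 / (s - 1)) + C) / 2 by ring]
  simp only [asaiLoss]
  rw [← Finset.sum_filter, ← Finset.sum_div]
  exact div_le_div_of_nonneg_right
    (hC s hs _ fun p hp => (Finset.mem_filter.mp hp).2) two_pos.le

end Fermat.Agent.LT.Asai
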