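import Fermat.Agent.LT.Asai.Restrict.Coeff
import Fermat.Agent.LT.Asai.Restrict.Field
import Mathlib.NumberTheory.NumberField.Cyclotomic.Ideal

/-!
# The places of `ℚ(ζ₃)` over a rational prime

Over `p ≡ 1 (mod 3)` there are two places of norm `p`, over `p ≡ 2 (mod 3)` one place of norm
`p ^ 2`, each unramified.
-/

set_option autoImplicit false

noncomputable section

open NumberField WithZero Fermat.Agent.LT.Places

namespace Fermat.Agent.LT.Asai

variable {p : ℕ}

theorem three_not_dvd (hp : p.Prime) (h3 : p ≠ 3) : ¬ p ∣ 3 := fun h =>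
  (Nat.prime_three.eq_one_or_self_of_dvd p h).elim hp.ne_one h3

theorem liesOver_of_mem (hp : p.Prime) (P : Ideal (𝓞 EisField)) [hP : P.IsPrime]
    (h : (p : 𝓞 EisField) ∈ P) : P.LiesOver (Ideal.span {(p : ℤ)}) := by
  have hmax : (Ideal.span {(p : ℤ)}).IsMaximal :=
    PrincipalIdealRing.isMaximal_of_irreducible (Nat.prime_iff_prime_int.mp hp).irreducible
  refine ⟨hmax.eq_of_le ?_ ?_⟩
  · exact Ideal.comap_ne_top _ hP.ne_top
  · rw [Ideal.span_singleton_le_iff_mem, Ideal.under_def, Ideal.mem_comap, map_natCast]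
    exact h

theorem absNorm_of_mem (hp : p.Prime) (h3 : p ≠ 3) (v : FinPlace EisField)
    (h : (p : 𝓞 EisField) ∈ v.asIdeal) :
    Ideal.absNorm v.asIdeal = p ^ orderOf (p : ZMod 3) := by
  have : Fact p.Prime := ⟨hp⟩
  have := liesOver_of_mem hp v.asIdeal h
  have := v.isMaximal
  have : (Ideal.span {(p : ℤ)}).IsMaximal :=
    PrincipalIdealRing.isMaximal_of_irreducible (Nat.prime_iff_prime_int.mp hp).irreducible
  rw [Ideal.absNorm_eq_pow_inertiaDeg' v.asIdeal hp, Ideal.inertiaDeg'_eq_inertiaDeg,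
    IsCyclotomicExtension.Rat.inertiaDeg_eq_of_not_dvd (m := 3) p EisField v.asIdeal
      (three_not_dvd hp h3)]

theorem exists_finset_places (hp : p.Prime) (h3 : p ≠ 3) :
    ∃ S : Finset (FinPlace EisField), (∀ v, v ∈ S ↔ (p : 𝓞 EisField) ∈ v.asIdeal) ∧
      S.card * orderOf (p : ZMod 3) = 2 := by
  classical
  have : Fact p.Prime := ⟨hp⟩
  have : (Ideal.span {(p : ℤ)}).IsMaximal :=
    PrincipalIdealRing.isMaximal_of_irreducible (Nat.prime_iff_prime_int.mp hp).irreducible
  have : Fintype ((Ideal.span {(p : ℤ)}).primesOver (𝓞 EisField)) :=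
    (Algebra.QuasiFinite.finite_primesOver _).fintype
  have hsum := Ideal.sum_ramification_inertia_eq_finrank (Ideal.span {(p : ℤ)}) (𝓞 EisField)
  rw [RingOfIntegers.rank, finrank_eisField] at hsum
  have hone : ∀ q : (Ideal.span {(p : ℤ)}).primesOver (𝓞 EisField),
      q.1.ramificationIdx ℤ * q.1.inertiaDeg ℤ = orderOf (p : ZMod 3) := fun q => by
    have := q.2.1
    have := q.2.2
    rw [IsCyclotomicExtension.Rat.inertiaDeg_eq_of_not_dvd (m := 3) p EisField q.1
      (three_not_dvd hp h3), IsCyclotomicExtension.Rat.ramificationIdx_eq_of_not_dvd (m := 3) p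
      EisField q.1 (three_not_dvd hp h3), one_mul]
  rw [Finset.sum_congr rfl fun q _ => hone q, Finset.sum_const, Finset.card_univ,
    smul_eq_mul] at hsum
  let toFin : (Ideal.span {(p : ℤ)}).primesOver (𝓞 EisField) → FinPlace EisField := fun q =>
    ⟨q.1, q.2.1, fun hbot => by
      have := q.2.2
      have h : (p : ℤ) ∈ q.1.under ℤ := by
        rw [← Ideal.LiesOver.over (P := q.1) (p := Ideal.span {(p : ℤ)})]
        exact Ideal.mem_span_singleton_self _
      rw [Ideal.under_def, Ideal.mem_comap, map_natCast, hbot, Ideal.mem_bot,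
        Nat.cast_eq_zero] at h
      exact hp.ne_zero h⟩
  have hinj : Function.Injective toFin := fun a b h =>
    Subtype.ext (congrArg IsDedekindDomain.HeightOneSpectrum.asIdeal h)
  refine ⟨Finset.univ.image toFin, fun v => ?_, ?_⟩
  · constructor
    · intro hv
      obtain ⟨q, -, rfl⟩ := Finset.mem_image.mp hv
      have := q.2.2
      have h : (p : ℤ) ∈ q.1.under ℤ := by
        rw [← Ideal.LiesOver.over (P := q.1) (p := Ideal.span {(p : ℤ)})]
        exact Ideal.mem_span_singleton_self _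
      rwa [Ideal.under_def, Ideal.mem_comap, map_natCast] at h
    · intro hv
      exact Finset.mem_image.mpr
        ⟨⟨v.asIdeal, v.isPrime, liesOver_of_mem hp v.asIdeal hv⟩, Finset.mem_univ _, rfl⟩
  · rw [Finset.card_image_of_injective _ hinj, Finset.card_univ, hsum]

theorem orderOf_natCast_three (h1 : p % 3 = 1) : orderOf (p : ZMod 3) = 1 := by
  rw [orderOf_eq_one_iff, ← ZMod.natCast_mod p 3, h1, Nat.cast_one]

theorem orderOf_natCast_three' (h2 : p % 3 = 2) : orderOf (p : ZMod 3) = 2 := by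
  have : Fact (Nat.Prime 2) := ⟨Nat.prime_two⟩
  rw [← ZMod.natCast_mod p 3, h2]
  exact orderOf_eq_prime (by decide) (by decide)

/-- Unramifiedness, from the norms. -/
theorem placeExp_eq_one (hp : p.Prime) {v : FinPlace EisField}
    (hv : (p : 𝓞 EisField) ∈ v.asIdeal) {J : Ideal (𝓞 EisField)} (hJ : ¬ v.asIdeal ∣ J)
    (hle : Ideal.span {(p : 𝓞 EisField)} ≤ v.asIdeal * J)
    (hnorm : Ideal.absNorm (v.asIdeal * J) = p ^ 2) : placeExp v p = 1 := by
  have hspan : Ideal.absNorm (Ideal.span {(p : 𝓞 EisField)}) = p ^ 2 := by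
    rw [Ideal.absNorm_span_singleton, ← map_natCast (algebraMap ℤ (𝓞 EisField)),
      Algebra.norm_algebraMap, RingOfIntegers.rank, finrank_eisField, Int.natAbs_pow,
      Int.natAbs_natCast]
  obtain ⟨c, hc⟩ := Ideal.dvd_iff_le.mpr hle
  have hc1 : Ideal.absNorm c = 1 := by
    have h := congrArg Ideal.absNorm hc
    rw [map_mul, hspan, hnorm] at h
    exact (mul_eq_left₀ (pow_ne_zero 2 hp.ne_zero)).mp h.symm
  rw [Ideal.absNorm_eq_one_iff.mp hc1, Ideal.mul_top] at hc
  refine le_antisymm ?_ ?_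
  · by_contra h
    have h2 : v.intValuation (p : 𝓞 EisField) ≤ exp (-((2 : ℕ) : ℤ)) := by
      have e := valuation_eq_exp_placeExp v hp.pos
      rw [← map_natCast (algebraMap (𝓞 EisField) EisField), v.valuation_of_algebraMap] at e
      rw [e, exp_le_exp]
      omega
    rw [v.intValuation_le_pow_iff_dvd, hc, pow_two,
      mul_dvd_mul_iff_left (show v.asIdeal ≠ 0 from v.ne_bot)] at h2
    exact hJ h2
  · exact Nat.one_le_iff_ne_zero.mpr fun h => (placeExp_eq_zero_iff v hp.pos).mp h hv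

/-- The two places over `p ≡ 1 (mod 3)`. -/
theorem exists_split_places (hp : p.Prime) (h1 : p % 3 = 1) :
    ∃ v w : FinPlace EisField, v ≠ w ∧
      (∀ u : FinPlace EisField, (p : 𝓞 EisField) ∈ u.asIdeal ↔ u = v ∨ u = w) ∧
      Ideal.absNorm v.asIdeal = p ∧ Ideal.absNorm w.asIdeal = p ∧
      placeExp v p = 1 ∧ placeExp w p = 1 := by
  classical
  have h3 : p ≠ 3 := by omega
  obtain ⟨S, hS, hcard⟩ := exists_finset_places hp h3
  rw [orderOf_natCast_three h1, mul_one, Finset.card_eq_two] at hcard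
  obtain ⟨v, w, hvw, rfl⟩ := hcard
  have hv : (p : 𝓞 EisField) ∈ v.asIdeal := (hS v).mp (by simp)
  have hw : (p : 𝓞 EisField) ∈ w.asIdeal := (hS w).mp (by simp)
  have nv := absNorm_of_mem hp h3 v hv
  have nw := absNorm_of_mem hp h3 w hw
  rw [orderOf_natCast_three h1, pow_one] at nv nw
  have hndvd : ∀ a b : FinPlace EisField, a ≠ b → ¬ a.asIdeal ∣ b.asIdeal := fun a b hab h =>
    hab (IsDedekindDomain.HeightOneSpectrum.ext
      (b.isMaximal.eq_of_le a.isPrime.ne_top (Ideal.dvd_iff_le.mp h)).symm)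
  have hmul : Ideal.span {(p : 𝓞 EisField)} ≤ v.asIdeal * w.asIdeal := by
    rw [Ideal.mul_eq_inf_of_coprime (Ideal.IsMaximal.coprime_of_ne v.isMaximal w.isMaximal
      fun h => hvw (IsDedekindDomain.HeightOneSpectrum.ext h)), Ideal.span_singleton_le_iff_mem]
    exact ⟨hv, hw⟩
  refine ⟨v, w, hvw, fun u => ?_, nv, nw,
    placeExp_eq_one hp hv (hndvd v w hvw) hmul (by rw [map_mul, nv, nw, sq]),
    placeExp_eq_one hp hw (hndvd w v hvw.symm) (by rwa [mul_comm] at hmul)
      (by rw [map_mul, nv, nw, sq])⟩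
  rw [← hS u]
  simp

/-- The place over `p ≡ 2 (mod 3)`. -/
theorem exists_inert_place (hp : p.Prime) (h2 : p % 3 = 2) :
    ∃ v : FinPlace EisField, (∀ u : FinPlace EisField, (p : 𝓞 EisField) ∈ u.asIdeal ↔ u = v) ∧
      Ideal.absNorm v.asIdeal = p ^ 2 ∧ placeExp v p = 1 := by
  classical
  have h3 : p ≠ 3 := by omega
  obtain ⟨S, hS, hcard⟩ := exists_finset_places hp h3
  rw [orderOf_natCast_three' h2] at hcard
  obtain ⟨v, rfl⟩ := Finset.card_eq_one.mp (show S.card = 1 by omega)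
  have hv : (p : 𝓞 EisField) ∈ v.asIdeal := (hS v).mp (by simp)
  have nv := absNorm_of_mem hp h3 v hv
  rw [orderOf_natCast_three' h2] at nv
  refine ⟨v, fun u => ?_, nv, placeExp_eq_one hp hv (J := ⊤) (fun h => ?_) ?_ ?_⟩
  · rw [← hS u]
    simp
  · exact v.isPrime.ne_top (top_le_iff.mp (Ideal.dvd_iff_le.mp h))
  · rw [Ideal.mul_top, Ideal.span_singleton_le_iff_mem]
    exact hv
  · rw [Ideal.mul_top, nv]

end Fermat.Agent.LT.Asai
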