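import Fermat.Agent.LT.Epstein.Sum
import Fermat.Agent.ClassLSeries.TestFun
import Mathlib.NumberTheory.Modular
import Mathlib.LinearAlgebra.Complex.Module
import Mathlib.MeasureTheory.Measure.Lebesgue.Complex
import Mathlib.MeasureTheory.Group.FundamentalDomain

/-!
# Uniform bound for the Eisenstein series of weight zero on the standard fundamental domain

For a residue class of pairs `(c, d)` modulo `N`, the sum of `(Im τ / |c τ + d|²) ^ s` over the
class is `κ s + O((Im τ) ^ 9)`, uniformly for `τ` in the fundamental domain and `1 < s ≤ 3/2`,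
where `κ` depends only on `N`.
-/

set_option autoImplicit false

open MeasureTheory Module Set
open scoped Modular UpperHalfPlane

noncomputable section

namespace Fermat.Agent.LT.Asai

open Fermat.Agent.LT.Epstein

lemma finrank_complex_cast : (finrank ℝ ℂ : ℝ) = 2 := by rw [Complex.finrank_real_complex]; norm_num

lemma mem_expRange {e : ℝ} : e ∈ expRange ℂ ↔ 2 ≤ e ∧ e ≤ 3 := by
  rw [expRange, finrank_complex_cast, Set.mem_Icc]
  norm_num

/-- The kernel `‖v‖ ^ (-e)` on `ℂ`. -/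
def powKernel : Kernel ℂ where
  f e v := ‖v‖ ^ (-e)
  A := 1
  B := 48
  A_nonneg := zero_le_one
  B_nonneg := by norm_num
  zero e he := by
    rw [norm_zero, Real.zero_rpow]
    linarith [(mem_expRange.mp he).1]
  bound e he v hv := by
    rw [one_mul, abs_of_nonneg (Real.rpow_nonneg (norm_nonneg _) _)]
  lip e he v w hv hw := by
    obtain ⟨he2, he3⟩ := mem_expRange.mp he
    have hv' : 0 < ‖v‖ := norm_pos_iff.mpr hv
    have hwlow : ‖v‖ / 2 ≤ ‖w‖ := by
      have := norm_sub_norm_le v w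
      rw [norm_sub_rev] at this
      linarith
    have hw' : 0 < ‖w‖ := lt_of_lt_of_le (by linarith) hwlow
    set m := ‖v‖ / 2 with hm
    have hm0 : 0 < m := by positivity
    rw [Real.rpow_def_of_pos hv', Real.rpow_def_of_pos hw']
    refine (ClassLSeries.abs_exp_sub_exp_le _ _ (c := Real.log m * -e) ?_ ?_).trans ?_
    · exact mul_le_mul_of_nonpos_right (Real.log_le_log hm0 (by linarith)) (by linarith)
    · exact mul_le_mul_of_nonpos_right (Real.log_le_log hm0 hwlow) (by linarith)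
    rw [← Real.rpow_def_of_pos hm0,
      show Real.log ‖v‖ * -e - Real.log ‖w‖ * -e = -e * (Real.log ‖v‖ - Real.log ‖w‖) by ring,
      abs_mul, abs_neg, abs_of_pos (show 0 < e by linarith)]
    have hd : |Real.log ‖v‖ - Real.log ‖w‖| ≤ ‖w - v‖ / m := by
      refine (ClassLSeries.abs_log_sub_log_le hm0 (by linarith) hwlow).trans ?_
      gcongr
      rw [norm_sub_rev w v]
      exact abs_norm_sub_norm_le v w
    have hmpow : m ^ (-e) / m ≤ 16 * ‖v‖ ^ (-e - 1) := by
      rw [← Real.rpow_sub_one hm0.ne', hm, Real.div_rpow hv'.le two_pos.le, div_eq_mul_inv,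
        ← Real.rpow_neg two_pos.le, mul_comm]
      refine mul_le_mul_of_nonneg_right ?_ (Real.rpow_nonneg hv'.le _)
      calc (2 : ℝ) ^ (-(-e - 1)) ≤ (2 : ℝ) ^ (4 : ℝ) :=
            Real.rpow_le_rpow_of_exponent_le (by norm_num) (by linarith)
        _ = 16 := by norm_num
    calc m ^ (-e) * (e * |Real.log ‖v‖ - Real.log ‖w‖|)
        ≤ m ^ (-e) * (3 * (‖w - v‖ / m)) := by
          gcongr
      _ = 3 * ‖w - v‖ * (m ^ (-e) / m) := by ring
      _ ≤ 3 * ‖w - v‖ * (16 * ‖v‖ ^ (-e - 1)) :=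
          mul_le_mul_of_nonneg_left hmpow (by positivity)
      _ = 48 * ‖w - v‖ * ‖v‖ ^ (-e - 1) := by ring
  scale e he t ht v := by
    rw [norm_smul, Real.norm_eq_abs, abs_of_pos ht, Real.mul_rpow ht.le (norm_nonneg _)]
  meas e := by fun_prop
  cont v hv := by
    refine ContinuousOn.rpow continuousOn_const continuous_neg.continuousOn fun e he => ?_
    exact Or.inl (norm_ne_zero_iff.mpr hv)

/-- The term of the Eisenstein series at a pair of integers. -/
def eisTerm (τ : ℍ) (s : ℝ) (p : ℤ × ℤ) : ℝ :=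
  (τ.im / ‖(p.1 : ℂ) * τ + (p.2 : ℂ)‖ ^ 2) ^ s

/-- The terms of the real analytic Eisenstein series are nonnegative. -/
lemma eisTerm_nonneg (τ : ℍ) (s : ℝ) (p : ℤ × ℤ) : 0 ≤ eisTerm τ s p :=
  Real.rpow_nonneg (div_nonneg τ.im_pos.le (sq_nonneg _)) _

/-- The scaled lattice vector of a pair. -/
def scaledVec (τ : ℍ) (p : ℤ × ℤ) : ℂ :=
  ((Real.sqrt τ.im)⁻¹ : ℝ) • ((p.1 : ℂ) * τ + (p.2 : ℂ))

lemma powKernel_scaledVec (τ : ℍ) {s : ℝ} (hs : 0 < s) (p : ℤ × ℤ) :
    powKernel.f (2 * s) (scaledVec τ p) = eisTerm τ s p := by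
  set z : ℂ := (p.1 : ℂ) * τ + (p.2 : ℂ)
  show ‖scaledVec τ p‖ ^ (-(2 * s)) = (τ.im / ‖z‖ ^ 2) ^ s
  rw [scaledVec, norm_smul, Real.norm_eq_abs, abs_of_nonneg (by positivity)]
  rcases eq_or_ne z 0 with hz | hz
  · rw [show ((p.1 : ℂ) * τ + (p.2 : ℂ)) = z from rfl, hz, norm_zero, mul_zero,
      zero_pow two_ne_zero, div_zero, Real.zero_rpow (by linarith), Real.zero_rpow hs.ne']
  · have hz' : 0 < ‖z‖ := norm_pos_iff.mpr hz
    have hy := Real.sqrt_pos.mpr τ.im_pos
    rw [show τ.im / ‖z‖ ^ 2 = ((Real.sqrt τ.im)⁻¹ * ‖z‖) ^ (-2 : ℝ) by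
      rw [Real.rpow_neg (by positivity), Real.rpow_two, mul_pow, inv_pow,
        Real.sq_sqrt τ.im_pos.le, mul_inv, inv_inv, div_eq_mul_inv],
      ← Real.rpow_mul (by positivity)]
    simp only [z]
    ring_nf

lemma half_le_norm_of_mem_fd {τ : ℍ} (hτ : τ ∈ 𝒟) {p : ℤ × ℤ} (hp : p ≠ 0) :
    1 / 2 ≤ ‖(p.1 : ℂ) * τ + (p.2 : ℂ)‖ := by
  have hy := ModularGroup.three_le_four_mul_im_sq_of_mem_fd hτ
  by_cases h1 : p.1 = 0
  · have h2 : p.2 ≠ 0 := fun h => hp (Prod.ext h1 h)
    rw [h1, Int.cast_zero, zero_mul, zero_add, Complex.norm_intCast]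
    have : (1 : ℝ) ≤ |(p.2 : ℝ)| := by exact_mod_cast Int.one_le_abs h2
    linarith
  · refine le_trans ?_ (Complex.abs_im_le_norm _)
    simp only [Complex.add_im, Complex.mul_im, Complex.intCast_re, Complex.intCast_im, zero_mul,
      add_zero, UpperHalfPlane.coe_im, abs_mul, abs_of_pos τ.im_pos]
    have : (1 : ℝ) ≤ |(p.1 : ℝ)| := by exact_mod_cast Int.one_le_abs h1
    have hy' : 1 / 2 ≤ τ.im := by nlinarith [τ.im_pos]
    nlinarith

section lattice

variable (N : ℕ) [NeZero N] (τ : ℍ)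

/-- The change of coordinates sending the basis `1, I` to `N τ / √y, N / √y`. -/
def latticeMap : ℂ →ₗ[ℝ] ℂ :=
  Complex.basisOneI.constr ℝ ![scaledVec τ ((N : ℤ), 0), scaledVec τ (0, (N : ℤ))]

omit [NeZero N] in
lemma latticeMap_basis (i : Fin 2) :
    latticeMap N τ (Complex.basisOneI i) =
      ![scaledVec τ ((N : ℤ), 0), scaledVec τ (0, (N : ℤ))] i :=
  Basis.constr_basis _ _ _ i

omit [NeZero N] in
lemma det_latticeMap : LinearMap.det (latticeMap N τ) = -((N : ℝ) ^ 2) := by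
  rw [← LinearMap.det_toMatrix Complex.basisOneI, Matrix.det_fin_two]
  simp only [LinearMap.toMatrix_apply, latticeMap_basis, Complex.coe_basisOneI_repr,
    Matrix.cons_val_zero, Matrix.cons_val_one, Matrix.cons_val_fin_one]
  simp only [scaledVec, Complex.real_smul, Complex.mul_re, Complex.mul_im, Complex.ofReal_re,
    Complex.ofReal_im, Complex.add_re, Complex.add_im, Int.cast_natCast, Int.cast_zero,
    Complex.natCast_re, Complex.natCast_im, Complex.zero_re, Complex.zero_im,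
    UpperHalfPlane.coe_re, UpperHalfPlane.coe_im]
  have hy := Real.sqrt_pos.mpr τ.im_pos
  field_simp
  ring_nf
  rw [Real.sq_sqrt τ.im_pos.le]

/-- The basis `N τ / √y, N / √y`. -/
def latticeBasis : Basis (Fin 2) ℝ ℂ :=
  Complex.basisOneI.map (LinearMap.equivOfDetNeZero (latticeMap N τ) (by
    rw [det_latticeMap]
    exact neg_ne_zero.mpr (pow_ne_zero _ (Nat.cast_ne_zero.mpr (NeZero.ne N)))))

lemma latticeBasis_apply (i : Fin 2) :
    latticeBasis N τ i = ![scaledVec τ ((N : ℤ), 0), scaledVec τ (0, (N : ℤ))] i := by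
  rw [latticeBasis, Basis.map_apply]
  exact latticeMap_basis N τ i

lemma covol_latticeBasis :
    covol (volume : Measure ℂ) (latticeBasis N τ) =
      (N : ℝ) ^ 2 * (volume : Measure ℂ).real (ZSpan.fundamentalDomain Complex.basisOneI) := by
  rw [covol, measureReal_def, measureReal_def,
    ZSpan.measure_fundamentalDomain (μ := volume) (latticeBasis N τ) Complex.basisOneI,
    ENNReal.toReal_mul, ENNReal.toReal_ofReal (abs_nonneg _)]
  congr 1
  have : Complex.basisOneI.toMatrix (latticeBasis N τ) =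
      LinearMap.toMatrix Complex.basisOneI Complex.basisOneI (latticeMap N τ) := by
    ext i j
    rw [Basis.toMatrix_apply, LinearMap.toMatrix_apply, latticeBasis, Basis.map_apply]
    rfl
  rw [Basis.det_apply, this, LinearMap.det_toMatrix, det_latticeMap, abs_neg,
    abs_of_nonneg (sq_nonneg _)]

lemma scaledVec_add_lattice (a b : ℤ) (j : ℤ × ℤ) :
    scaledVec τ (a + (N : ℤ) * j.1, b + (N : ℤ) * j.2) =
      scaledVec τ (a, b) + (j.1 • latticeBasis N τ 0 + j.2 • latticeBasis N τ 1) := by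
  simp only [latticeBasis_apply, Matrix.cons_val_zero, Matrix.cons_val_one,
    Matrix.cons_val_fin_one, scaledVec, Complex.real_smul, zsmul_eq_mul]
  push_cast
  ring

/-- Pairs of integers as lattice points. -/
def latticeEquiv : ℤ × ℤ ≃ lat (latticeBasis N τ) :=
  (finTwoArrowEquiv ℤ).symm.trans
    ((latticeBasis N τ).restrictScalars ℤ).equivFun.symm.toEquiv

lemma latticeEquiv_apply (j : ℤ × ℤ) :
    (latticeEquiv N τ j : ℂ) = j.1 • latticeBasis N τ 0 + j.2 • latticeBasis N τ 1 := by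
  simp [latticeEquiv, Basis.equivFun_symm_apply, Fin.sum_univ_two, finTwoArrowEquiv]

lemma lat_eq_scaledVec (l : lat (latticeBasis N τ)) :
    ∃ j : ℤ × ℤ, (l : ℂ) = scaledVec τ ((N : ℤ) * j.1, (N : ℤ) * j.2) := by
  obtain ⟨j, rfl⟩ := (latticeEquiv N τ).surjective l
  refine ⟨j, ?_⟩
  have := scaledVec_add_lattice N τ 0 0 j
  simp only [zero_add] at this
  rw [this, latticeEquiv_apply]
  simp [scaledVec]

end lattice

/-- The leading term, independent of the class and of the point. -/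
def kappa (N : ℕ) (s : ℝ) : ℝ :=
  powKernel.tail volume (2 * s) 1 /
    ((N : ℝ) ^ 2 * (volume : Measure ℂ).real (ZSpan.fundamentalDomain Complex.basisOneI))

/-- **The Eisenstein bound.** -/
theorem exists_eisenstein_bound (N : ℕ) [NeZero N] :
    ∃ C : ℝ, 0 ≤ C ∧ ∀ τ ∈ (𝒟 : Set ℍ), ∀ a b : ℤ, ∀ s : ℝ, 1 < s → s ≤ 3 / 2 →
      Summable (fun j : ℤ × ℤ => eisTerm τ s (a + (N : ℤ) * j.1, b + (N : ℤ) * j.2)) ∧
      |∑' j : ℤ × ℤ, eisTerm τ s (a + (N : ℤ) * j.1, b + (N : ℤ) * j.2) - kappa N s| ≤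
        C * τ.im ^ 9 := by
  set κ0 := (volume : Measure ℂ).real (ZSpan.fundamentalDomain Complex.basisOneI)
  have hκ0 : 0 < κ0 := by
    have h := ZSpan.measure_fundamentalDomain_ne_zero (μ := (volume : Measure ℂ)) Complex.basisOneI
    exact ENNReal.toReal_pos h (fundamentalDomain_measure_lt_top volume Complex.basisOneI).ne
  have hN : (0 : ℝ) < N := Nat.cast_pos.mpr (Nat.pos_of_ne_zero (NeZero.ne N))
  set cst := powKernel.sumConst (volume : Measure ℂ)
  refine ⟨|cst| / ((N : ℝ) ^ 2 * κ0) * (20 * (N : ℝ)) ^ 9, by positivity,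
    fun τ hτ a b s hs hs' => ?_⟩
  have hy : 1 / 2 ≤ τ.im := by
    nlinarith [ModularGroup.three_le_four_mul_im_sq_of_mem_fd hτ, τ.im_pos]
  set r := Real.sqrt τ.im
  have hr : 0 < r := Real.sqrt_pos.mpr τ.im_pos
  set lam := (2 * r)⁻¹
  have hlam : 0 < lam := by positivity
  have hlow : ∀ p : ℤ × ℤ, p ≠ 0 → lam ≤ ‖scaledVec τ p‖ := fun p hp => by
    rw [scaledVec, norm_smul, Real.norm_eq_abs, abs_of_pos (inv_pos.mpr hr)]
    calc lam = r⁻¹ * (1 / 2) := by simp only [lam, mul_inv]; ring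
      _ ≤ _ := mul_le_mul_of_nonneg_left (half_le_norm_of_mem_fd hτ hp) (inv_pos.mpr hr).le
  have hzero : scaledVec τ 0 = 0 := by simp [scaledVec]
  set bas := latticeBasis N τ
  have hsep : ∀ l : lat bas, l ≠ 0 → lam ≤ ‖(l : ℂ)‖ := by
    intro l hl
    obtain ⟨j, hj⟩ := lat_eq_scaledVec N τ l
    rw [hj]
    refine hlow _ fun h => hl (Subtype.ext ?_)
    rw [hj, h, hzero]
    rfl
  have hmin : ∀ l : lat bas, scaledVec τ (a, b) + l ≠ 0 → lam ≤ ‖scaledVec τ (a, b) + l‖ := by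
    intro l hl
    obtain ⟨j, rfl⟩ := (latticeEquiv N τ).surjective l
    rw [latticeEquiv_apply, ← scaledVec_add_lattice] at hl ⊢
    exact hlow _ fun h => hl (by rw [h, hzero])
  obtain ⟨hsum, hbd⟩ := powKernel.abs_sum_sub_le (volume : Measure ℂ) bas (e := 2 * s)
    (lam := lam) (mem_expRange.mpr ⟨by linarith, by linarith⟩)
    (by rw [finrank_complex_cast]; linarith) (scaledVec τ (a, b)) hlam hsep hmin
  have hterm : ∀ j : ℤ × ℤ, powKernel.f (2 * s) (scaledVec τ (a, b) + latticeEquiv N τ j) =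
      eisTerm τ s (a + (N : ℤ) * j.1, b + (N : ℤ) * j.2) := fun j => by
    rw [latticeEquiv_apply, ← scaledVec_add_lattice, powKernel_scaledVec τ (by linarith)]
  refine ⟨((latticeEquiv N τ).summable_iff.mpr hsum).congr hterm, ?_⟩
  rw [← tsum_congr hterm, (latticeEquiv N τ).tsum_eq
    (fun l => powKernel.f (2 * s) (scaledVec τ (a, b) + (l : ℂ)))]
  rw [covol_latticeBasis, Complex.finrank_real_complex] at hbd
  have hD : 0 < (N : ℝ) ^ 2 * κ0 := by positivity
  set S := ∑' l : lat bas, powKernel.f (2 * s) (scaledVec τ (a, b) + (l : ℂ))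
  have hH : 1 + rho bas + lam⁻¹ ≤ 20 * (N : ℝ) * τ.im := by
    have hρ : rho bas ≤ (N : ℝ) * (τ.im + 2) / r := by
      rw [rho, Fin.sum_univ_two, latticeBasis_apply, latticeBasis_apply]
      simp only [Matrix.cons_val_zero, Matrix.cons_val_one, Matrix.cons_val_fin_one, scaledVec,
        norm_smul, Real.norm_eq_abs]
      rw [show |(Real.sqrt τ.im)⁻¹| = r⁻¹ from abs_of_pos (inv_pos.mpr hr)]
      simp only [Int.cast_natCast, Int.cast_zero, zero_mul, add_zero, zero_add, norm_mul,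
        Complex.norm_natCast]
      have hτn : ‖(τ : ℂ)‖ ≤ τ.im + 1 := by
        refine (Complex.norm_le_abs_re_add_abs_im _).trans ?_
        have := hτ.2
        simp only [UpperHalfPlane.coe_re, UpperHalfPlane.coe_im, abs_of_pos τ.im_pos]
        linarith
      rw [div_eq_inv_mul, ← mul_add]
      refine mul_le_mul_of_nonneg_left ?_ (inv_pos.mpr hr).le
      nlinarith
    have hr2 : r ^ 2 = τ.im := Real.sq_sqrt τ.im_pos.le
    have hN1 : (1 : ℝ) ≤ N := Nat.one_le_cast.mpr (Nat.pos_of_ne_zero (NeZero.ne N))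
    have hrlo : 1 / 2 ≤ r := by nlinarith
    have hrhi : r ≤ 2 * τ.im := by nlinarith
    have : (N : ℝ) * (τ.im + 2) / r ≤ (N : ℝ) * (τ.im + 2) * 2 := by
      rw [div_le_iff₀ hr]; nlinarith [mul_nonneg hN.le (by linarith : (0:ℝ) ≤ τ.im + 2)]
    simp only [lam, inv_inv]
    nlinarith
  have hkey : |S - kappa N s| = |(N : ℝ) ^ 2 * κ0 * S - powKernel.tail volume (2 * s) 1| /
      ((N : ℝ) ^ 2 * κ0) := by
    rw [kappa, ← abs_of_pos hD, ← abs_div, abs_of_pos hD, sub_div,
      mul_div_cancel_left₀ _ hD.ne']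
  rw [hkey, div_le_iff₀ hD]
  refine hbd.trans ?_
  have hρ0 := rho_nonneg bas
  calc cst * (1 + rho bas + lam⁻¹) ^ (4 * 2 + 1)
      ≤ |cst| * (20 * (N : ℝ) * τ.im) ^ 9 :=
        mul_le_mul (le_abs_self _) (pow_le_pow_left₀ (by positivity) hH _) (by positivity)
          (abs_nonneg _)
    _ = _ := by field_simp

end Fermat.Agent.LT.Asai
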