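import Mathlib.NumberTheory.EulerProduct.Basic
import Mathlib.Analysis.SpecialFunctions.Log.Basic
import Mathlib.Analysis.PSeries

/-!
# Positivity for Euler products

A Dirichlet series with a multiplicative coefficient function whose local factors are at least
`(1 + g p p^(-s)) (1 - p^(-2s))`, where `g ≥ 0` is bounded and `∑ g p p^(-s)` grows at least like
`c log (1/(s-1))`, tends to infinity as `s → 1+`.  The local bound may lose `exp (u s p)` when the
sums of `u s` stay below `c' log (1/(s-1))` with `c' < c`.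
-/

set_option autoImplicit false

open Filter Finset
open scoped Topology

noncomputable section

namespace Fermat.Agent.LT.Asai

/-- The term of the Dirichlet series. -/
def dTerm (f : ℕ → ℝ) (s : ℝ) (n : ℕ) : ℝ := f n * (n : ℝ) ^ (-s)

/-- The Dirichlet series. -/
def dSum (f : ℕ → ℝ) (s : ℝ) : ℝ := ∑' n, dTerm f s n

lemma exp_le_one_add {y : ℝ} (hy : 0 ≤ y) : Real.exp (y - y ^ 2) ≤ 1 + y := by
  have h1 : y - y ^ 2 ≤ Real.log (1 + y) := by
    have h2 := Real.one_sub_inv_le_log_of_pos (show (0 : ℝ) < 1 + y by linarith)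
    refine le_trans ?_ h2
    rw [le_sub_iff_add_le, ← le_sub_iff_add_le', ← one_div, div_le_iff₀ (by linarith)]
    nlinarith [mul_nonneg (sq_nonneg y) hy]
  calc Real.exp (y - y ^ 2) ≤ Real.exp (Real.log (1 + y)) := Real.exp_le_exp.mpr h1
    _ = 1 + y := Real.exp_log (by linarith)

lemma exp_le_one_sub {y : ℝ} (hy : 0 ≤ y) (hy' : y ≤ 1 / 2) : Real.exp (-(2 * y)) ≤ 1 - y := by
  have h1 : 2 * y + 1 ≤ Real.exp (2 * y) := Real.add_one_le_exp _
  rw [Real.exp_neg, inv_le_iff_one_le_mul₀ (Real.exp_pos _)]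
  calc (1 : ℝ) ≤ (1 - y) * (2 * y + 1) := by nlinarith
    _ ≤ (1 - y) * Real.exp (2 * y) := mul_le_mul_of_nonneg_left h1 (by linarith)

/-- For `s ≥ 1` one has `p ^ (-s) ≤ p⁻¹`. -/
lemma rpow_neg_le_inv {p : ℕ} (hp : 2 ≤ p) {s : ℝ} (hs : 1 ≤ s) :
    (p : ℝ) ^ (-s) ≤ (p : ℝ)⁻¹ := by
  rw [← Real.rpow_neg_one]
  exact Real.rpow_le_rpow_of_exponent_le (by exact_mod_cast (show 1 ≤ p by omega)) (by linarith)

variable {f : ℕ → ℝ} (g : ℕ → ℝ)

/-- **Positivity**: the Dirichlet series tends to infinity at `1`. -/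
theorem tendsto_dSum (hf0 : f 0 = 0) (hf1 : f 1 = 1)
    (hmul : ∀ m n : ℕ, Nat.Coprime m n → f (m * n) = f m * f n)
    (hsum : ∀ s : ℝ, 1 < s → Summable fun n => |dTerm f s n|)
    {G : ℝ} (hg : ∀ p, 0 ≤ g p ∧ g p ≤ G)
    (u : ℝ → ℕ → ℝ)
    (hloc : ∀ p : ℕ, p.Prime → ∀ s : ℝ, 1 < s →
      (1 + g p * (p : ℝ) ^ (-s)) * (1 - ((p : ℝ) ^ (-s)) ^ 2) * Real.exp (-u s p) ≤
        ∑' k, dTerm f s (p ^ k))
    {c' B' : ℝ} (hu : ∀ s ∈ Set.Ioc (1 : ℝ) 2, ∀ S : Finset Nat.Primes,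
      ∑ p ∈ S, u s (p : ℕ) ≤ c' * Real.log (1 / (s - 1)) + B')
    {c B : ℝ} (hc : c' < c)
    (hlow : ∀ s ∈ Set.Ioc (1 : ℝ) 2, ∃ T : Finset ℕ, (∀ p ∈ T, p.Prime) ∧
      c * Real.log (1 / (s - 1)) - B ≤ ∑ p ∈ T, g p * (p : ℝ) ^ (-s)) :
    Tendsto (dSum f) (𝓝[>] 1) atTop := by
  classical
  set Z : ℝ := ∑' n : ℕ, ((n : ℝ) ^ 2)⁻¹
  have hZsum : Summable fun n : ℕ => ((n : ℝ) ^ 2)⁻¹ := Real.summable_nat_pow_inv.mpr one_lt_two
  have hG : 0 ≤ G := (hg 0).1.trans (hg 0).2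
  set K := B + B' + G ^ 2 * Z + 2 * Z
  have key : ∀ᶠ s in 𝓝[>] (1 : ℝ), Real.exp ((c - c') * Real.log (1 / (s - 1)) - K) ≤ dSum f s := by
    filter_upwards [Ioc_mem_nhdsGT (show (1 : ℝ) < 2 by norm_num)] with s hs
    have hs1 : 1 < s := hs.1
    obtain ⟨T, hT, hTsum⟩ := hlow s hs
    have hprod : HasProd (fun p : Nat.Primes => ∑' k, dTerm f s ((p : ℕ) ^ k)) (dSum f s) := by
      refine EulerProduct.eulerProduct_hasProd ?_ ?_ ?_ ?_
      · simp [dTerm, hf1]
      · intro m n hmn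
        simp only [dTerm, hmul m n hmn, Nat.cast_mul,
          Real.mul_rpow (Nat.cast_nonneg _) (Nat.cast_nonneg _)]
        ring
      · simpa only [Real.norm_eq_abs] using hsum s hs1
      · simp [dTerm, hf0]
    let T' : Finset Nat.Primes := T.subtype Nat.Prime
    refine ge_of_tendsto hprod ?_
    filter_upwards [eventually_ge_atTop T'] with S hS
    set x : Nat.Primes → ℝ := fun p => ((p : ℕ) : ℝ) ^ (-s)
    have hx0 : ∀ p, 0 ≤ x p := fun p => Real.rpow_nonneg (Nat.cast_nonneg _) _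
    have hx2 : ∀ p, x p ≤ ((p : ℕ) : ℝ)⁻¹ := fun p => rpow_neg_le_inv p.2.two_le hs1.le
    have hxsq : ∀ p, (x p) ^ 2 ≤ (((p : ℕ) : ℝ) ^ 2)⁻¹ := fun p => by
      rw [← inv_pow]; exact pow_le_pow_left₀ (hx0 p) (hx2 p) 2
    have hxh : ∀ p, (x p) ^ 2 ≤ 1 / 2 := fun p => by
      refine (hxsq p).trans ?_
      rw [one_div]
      refine inv_anti₀ two_pos ?_
      have : (2 : ℝ) ≤ ((p : ℕ) : ℝ) := by exact_mod_cast p.2.two_le
      nlinarith
    have hg' : ∀ p : Nat.Primes, 0 ≤ g p * x p := fun p => mul_nonneg (hg p).1 (hx0 p)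
    have hexp : ∀ p : Nat.Primes,
        Real.exp ((if p ∈ T' then g p * x p - (g p * x p) ^ 2 else 0) - 2 * (x p) ^ 2 - u s p) ≤
          ∑' k, dTerm f s ((p : ℕ) ^ k) := by
      intro p
      refine le_trans ?_ (hloc p p.2 s hs1)
      rw [sub_eq_add_neg, Real.exp_add, sub_eq_add_neg, Real.exp_add]
      refine mul_le_mul_of_nonneg_right ?_ (Real.exp_pos _).le
      refine mul_le_mul ?_ (exp_le_one_sub (sq_nonneg _) (hxh p)) (Real.exp_pos _).le
        (by linarith [hg' p])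
      split_ifs
      · exact exp_le_one_add (hg' p)
      · rw [Real.exp_zero]; linarith [hg' p]
    refine le_trans ?_ (Finset.prod_le_prod (fun p _ => (Real.exp_pos _).le) fun p _ => hexp p)
    rw [← Real.exp_sum]
    refine Real.exp_le_exp.mpr ?_
    have hsq : ∀ U : Finset Nat.Primes, ∑ p ∈ U, (x p) ^ 2 ≤ Z := fun U =>
      (Finset.sum_le_sum fun p _ => hxsq p).trans (by
        rw [← Finset.sum_image (f := fun n : ℕ => ((n : ℝ) ^ 2)⁻¹)
          (g := fun p : Nat.Primes => (p : ℕ)) (fun a _ b _ h => Subtype.ext h)]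
        exact hZsum.sum_le_tsum _ fun n _ => by positivity)
    rw [Finset.sum_sub_distrib, Finset.sum_sub_distrib, ← Finset.mul_sum, Finset.sum_ite_mem,
      Finset.inter_eq_right.mpr hS, Finset.sum_sub_distrib]
    have h1 : ∑ p ∈ T', g p * x p = ∑ p ∈ T, g p * (p : ℝ) ^ (-s) :=
      (Finset.sum_subtype_eq_sum_filter (s := T) (p := Nat.Prime)
        fun n : ℕ => g n * (n : ℝ) ^ (-s)).trans (by rw [Finset.filter_true_of_mem hT])
    have h2 : ∑ p ∈ T', (g p * x p) ^ 2 ≤ G ^ 2 * Z := by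
      refine le_trans (Finset.sum_le_sum fun p _ => ?_)
        ((Finset.mul_sum T' (fun p => (x p) ^ 2) (G ^ 2)).symm.trans_le
          (mul_le_mul_of_nonneg_left (hsq T') (sq_nonneg G)))
      rw [mul_pow]
      exact mul_le_mul_of_nonneg_right (pow_le_pow_left₀ (hg p).1 (hg p).2 2) (sq_nonneg _)
    have h3 := hsq S
    have h4 := hu s hs S
    simp only [K]
    linarith
  refine tendsto_atTop_mono' _ key (Real.tendsto_exp_atTop.comp ?_)
  refine tendsto_atTop_add_const_right _ _ (Tendsto.const_mul_atTop (sub_pos.mpr hc)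
    (Real.tendsto_log_atTop.comp ?_))
  have h0 : Tendsto (fun s : ℝ => s - 1) (𝓝[>] 1) (𝓝[>] 0) :=
    tendsto_nhdsWithin_of_tendsto_nhds_of_eventually_within _
      (by simpa using ((continuous_sub_right (1 : ℝ)).tendsto 1).mono_left nhdsWithin_le_nhds)
      (eventually_nhdsWithin_of_forall fun s hs => sub_pos.mpr (Set.mem_Ioi.mp hs))
  simp only [one_div]
  exact tendsto_inv_nhdsGT_zero.comp h0

end Fermat.Agent.LT.Asai
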