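import Fermat.Agent.LT.Asai.Summable
import Fermat.Agent.LT.Setup.Contracts
import Fermat.Agent.LT.Final.Galois
import Fermat.Agent.ChebotarevFull.Main
import Fermat.Agent.GaloisBasics.Galois

/-!
# The Asai weights on the Frobenius classes

For eigenvalues with the traces of `Ψ ∘ ρ` at the places split in the cubic field, the weights
have mean `5/6`, which beats the loss `1/2` at the split primes.
-/

set_option autoImplicit false

open Filter Fermat.Agent.GaloisBasics
open scoped Topology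

noncomputable section

namespace Fermat.Agent.LT.Asai

local notation "Γℚ" => (AlgebraicClosure ℚ ≃ₐ[ℚ] AlgebraicClosure ℚ)
local notation "GF3" => GL (Fin 2) (ZMod 3)

variable {ρ : Γℚ →* GL (Fin 2) (ZMod 3)}
  {Ψ : GL (Fin 2) (ZMod 3) →* GL (Fin 2) (ℤ√(-2))}

/-- All but finitely many primes are unramified for `ρ`. -/
theorem exists_ramified_modulus (hρ : IsSupersingularRep ρ) :
    ∃ R : ℕ, 0 < R ∧ ∀ p : ℕ, p.Prime → ¬ p ∣ R →
      ∀ A : ValuationSubring (AlgebraicClosure ℚ), A.LiesOverPrime p →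
        ∀ τ ∈ A.inertiaSubgroupIn ℚ, ρ τ = 1 := by
  obtain ⟨L, hL, hLρ⟩ := Final.factorsThroughFiniteLevel_of_continuous hρ.continuous
  let M : IntermediateField ℚ Qbar := IntermediateField.normalClosure ℚ L Qbar
  have hLM : L ≤ M := L.le_normalClosure
  have : NumberField M := {}
  have : Normal ℚ M := normalClosure.normal ℚ L Qbar
  have : IsGalois ℚ M := ⟨⟩
  obtain ⟨T, hT⟩ := ChebotarevFull.exists_finset_frobenius_lift M
  refine ⟨∏ q ∈ T, (q : ℕ), Finset.prod_pos fun q _ => q.2.pos, fun p hp hpR A hA τ hτ => ?_⟩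
  have hpT : (⟨p, hp⟩ : Nat.Primes) ∉ T := fun h =>
    hpR (Finset.dvd_prod_of_mem (fun q : Nat.Primes => (q : ℕ)) h)
  have h1 := (hT ⟨p, hp⟩ hpT).1 A hA τ hτ
  refine hLρ τ fun x hx => ?_
  have := AlgEquiv.restrictNormal_commutes τ M ⟨x, hLM hx⟩
  rw [show τ.restrictNormal M = 1 from h1] at this
  exact this.symm

/-- A matrix of determinant `-1` in `GL₂(𝔽₃)` has `g ^ 8 = 1`, and `g ^ 2 = 1` or `g ^ 4 = -1`. -/
theorem pow_eight_of_det_ne_one (g : GF3) (h : Matrix.GeneralLinearGroup.det g ≠ 1) :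
    g ^ 8 = 1 ∧ (g ^ 2 = 1 ∨ g ^ 4 = -1) := by
  have key : ∀ m : Matrix (Fin 2) (Fin 2) (ZMod 3), m.det = 2 →
      (m * m) * (m * m) * ((m * m) * (m * m)) = 1 ∧
        (m * m = 1 ∨ (m * m) * (m * m) = -1) := by decide +kernel
  have hdet : (g : Matrix (Fin 2) (Fin 2) (ZMod 3)).det = 2 := by
    have h' : ∀ u : (ZMod 3)ˣ, u ≠ 1 → (u : ZMod 3) = 2 := by decide
    exact h' _ h
  obtain ⟨k8, k24⟩ := key _ hdet
  simp only [Units.ext_iff, Units.val_pow_eq_pow_val, Units.val_one, Units.val_neg]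
  refine ⟨?_, ?_⟩
  · rw [show (8 : ℕ) = (2 + 2) + (2 + 2) from rfl, pow_add, pow_add, pow_two]
    exact k8
  · rw [show (4 : ℕ) = 2 + 2 from rfl, pow_add, pow_two]
    exact k24

theorem det_eq_one_iff_val (g : GF3) :
    (Matrix.GeneralLinearGroup.det g = 1 ↔
      (g : Matrix (Fin 2) (Fin 2) (ZMod 3)).det = 1) := by
  rw [Units.ext_iff, Matrix.GeneralLinearGroup.val_det_apply, Units.val_one]

theorem inQuaternion_sq {g : GF3} (h : Matrix.GeneralLinearGroup.det g ≠ 1) :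
    Final.InQuaternion (g ^ 2) := by
  refine ⟨?_, by rw [← pow_mul]; exact (pow_eight_of_det_ne_one g h).1⟩
  rw [map_pow]
  have : ∀ u : (ZMod 3)ˣ, u ^ 2 = 1 := by decide
  exact this _

/-- The trace of the lift on the square of an element of determinant `-1`. -/
theorem trace_lift_sq (hΨ : ∀ g, Matrix.GeneralLinearGroup.map FLT.ExplicitLift.red (Ψ g) = g)
    (g : GF3) (h : Matrix.GeneralLinearGroup.det g ≠ 1) :
    ((Ψ (g ^ 2) : GL (Fin 2) (ℤ√(-2))) : Matrix (Fin 2) (Fin 2) (ℤ√(-2))).trace =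
      if g ^ 2 = 1 then 2 else 0 := by
  split_ifs with h2
  · rw [h2, map_one, Units.val_one, Matrix.trace_one]
    simp
  have h4 := ((pow_eight_of_det_ne_one g h).2).resolve_left h2
  set A := ((Ψ (g ^ 2) : GL (Fin 2) (ℤ√(-2))) : Matrix (Fin 2) (Fin 2) (ℤ√(-2))) with hA
  have hsq : A * A = -1 := by
    rw [hA, ← Units.val_mul, ← map_mul, ← pow_add]
    show ((Ψ (g ^ 4) : GL (Fin 2) (ℤ√(-2))) : Matrix (Fin 2) (Fin 2) (ℤ√(-2))) = -1
    rw [h4, Final.lift_neg_one hΨ, Units.val_neg, Units.val_one]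
  have hd : A.det = 1 := by
    rw [hA, Final.det_lift hΨ, if_pos (inQuaternion_sq h).1]
  have h00 := congrFun (congrFun hsq 0) 0
  have h01 := congrFun (congrFun hsq 0) 1
  have h10 := congrFun (congrFun hsq 1) 0
  simp only [Matrix.mul_apply, Fin.sum_univ_two, Matrix.neg_apply, Matrix.one_apply,
    if_pos, zero_ne_one, one_ne_zero, if_false, neg_zero] at h00 h01 h10
  rw [Matrix.det_fin_two] at hd
  rw [Matrix.trace_fin_two]
  have : NoZeroDivisors (ℤ√(-2)) := ⟨fun {a b} h => by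
    have h' := congrArg Zsqrtd.norm h
    rw [Zsqrtd.norm_mul, Zsqrtd.norm_zero, mul_eq_zero] at h'
    exact h'.imp (Zsqrtd.norm_eq_zero_iff (by norm_num) a).mp
      (Zsqrtd.norm_eq_zero_iff (by norm_num) b).mp⟩
  by_contra ht
  have hb : A 0 1 = 0 := (mul_eq_zero.mp (show A 0 1 * (A 0 0 + A 1 1) = 0 by
    linear_combination h01)).resolve_right ht
  have h : A 0 0 * (A 0 0 + A 1 1) = 0 := by linear_combination h00 + hd
  have ha : A 0 0 = 0 := (mul_eq_zero.mp h).resolve_right ht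
  rw [ha, hb] at hd
  simp at hd

variable {M : ℕ} {ev ev' : ℕ → ℝ} {ι : ℤ√(-2) →+* ℂ}

/-- `ev` has the traces of `Ψ ∘ ρ` at the places split in the cubic field. -/
structure HasTraces (ρ : Γℚ →* GL (Fin 2) (ZMod 3))
    (Ψ : GL (Fin 2) (ZMod 3) →* GL (Fin 2) (ℤ√(-2))) (ι : ℤ√(-2) →+* ℂ) (M : ℕ)
    (ev ev' : ℕ → ℝ) :
    Prop where
  three_dvd : 3 ∣ M
  pos : 0 < M
  unramified : ∀ p : ℕ, p.Prime → ¬ p ∣ M →
    ∀ A : ValuationSubring (AlgebraicClosure ℚ), A.LiesOverPrime p →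
      ∀ τ ∈ A.inertiaSubgroupIn ℚ, ρ τ = 1
  split : ∀ p : ℕ, p.Prime → ¬ p ∣ M → p % 3 = 1 →
    ∀ A : ValuationSubring (AlgebraicClosure ℚ), A.LiesOverPrime p →
      ∀ σ : Γℚ, A.IsFrobeniusAt σ p → Final.InQuaternion (ρ σ) →
        (ev p : ℂ) = ι ((Ψ (ρ σ) : GL (Fin 2) (ℤ√(-2))) : Matrix (Fin 2) (Fin 2) (ℤ√(-2))).trace ∧
          ev' p = ev p
  inert : ∀ p : ℕ, p.Prime → ¬ p ∣ M → p % 3 = 2 →
    ∀ A : ValuationSubring (AlgebraicClosure ℚ), A.LiesOverPrime p →
      ∀ σ : Γℚ, A.IsFrobeniusAt σ p → Final.InQuaternion (ρ σ ^ 2) →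
        (ev p : ℂ) =
          ι ((Ψ (ρ σ ^ 2) : GL (Fin 2) (ℤ√(-2))) : Matrix (Fin 2) (Fin 2) (ℤ√(-2))).trace

variable (hρ : IsSupersingularRep ρ)
  (hΨ : ∀ g, Matrix.GeneralLinearGroup.map FLT.ExplicitLift.red (Ψ g) = g)
  (hev : HasTraces ρ Ψ ι M ev ev')

include hρ hev in
theorem det_iff {p : ℕ} (hp : p.Prime) (hpM : ¬ p ∣ M)
    {A : ValuationSubring (AlgebraicClosure ℚ)} (hA : A.LiesOverPrime p) {σ : Γℚ}
    (hσ : A.IsFrobeniusAt σ p) :
    (Matrix.GeneralLinearGroup.det (ρ σ) = 1 ↔ p % 3 = 1) ∧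
      (¬ p % 3 = 1 → p % 3 = 2) := by
  have h3 : ¬ p ∣ 3 := fun h => hpM (h.trans hev.three_dvd)
  have h0 : p % 3 ≠ 0 := fun h => h3 (by
    rcases hp.eq_one_or_self_of_dvd 3 (Nat.dvd_of_mod_eq_zero h) with e | e
    · omega
    · exact e ▸ dvd_rfl)
  refine ⟨?_, fun h => by omega⟩
  have h := Final.det_frobenius hρ.det hp h3 hA hσ
  simp only [EisensteinWeightOne.chiNegThree] at h
  by_cases hd : Matrix.GeneralLinearGroup.det (ρ σ) = 1
  · rw [if_pos hd] at h
    refine iff_of_true hd ?_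
    by_contra h1
    rw [if_neg h1, if_pos (by omega)] at h
    omega
  · rw [if_neg hd] at h
    refine iff_of_false hd fun h1 => ?_
    rw [if_pos h1] at h
    omega

include hρ hΨ hev in
theorem classWeight_le_asaiWeight {p : ℕ} (hp : p.Prime) (hpM : ¬ p ∣ M)
    {A : ValuationSubring (AlgebraicClosure ℚ)} (hA : A.LiesOverPrime p) {σ : Γℚ}
    (hσ : A.IsFrobeniusAt σ p) :
    classWeight (ρ σ) ≤ asaiWeight M ev ev' p := by
  obtain ⟨hdet, h2⟩ := det_iff hρ hev hp hpM hA hσ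
  rw [asaiWeight, if_pos ⟨hp, hpM⟩]
  by_cases h3 : p % 3 = 1
  · rw [if_pos h3, classWeight, if_pos ((det_eq_one_iff_val _).mp (hdet.mpr h3))]
    split_ifs with h
    · refine le_min ?_ le_rfl
      have hQ : Final.InQuaternion (ρ σ) := by
        rcases h with h | h <;> rw [h]
        · exact ⟨map_one _, one_pow _⟩
        · exact ⟨by apply Units.ext; decide, by apply Units.ext; decide⟩
      obtain ⟨he, he'⟩ := hev.split p hp hpM h3 A hA σ hσ hQ
      have : (ev p : ℂ) = 2 ∨ (ev p : ℂ) = -2 := by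
        rcases h with h | h
        · left; rw [he, h, map_one, Units.val_one, Matrix.trace_one]; simp [map_ofNat]
        · right
          rw [he, h, Final.lift_neg_one hΨ, Units.val_neg, Units.val_one, Matrix.trace_neg,
            Matrix.trace_one]
          simp [map_ofNat]
      rw [he']
      rcases this with e | e
      · rw [show ev p = 2 by exact_mod_cast e]; norm_num
      · rw [show ev p = -2 by exact_mod_cast e]; norm_num
    · exact le_min (by positivity) (by norm_num)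
  · rw [if_neg h3, classWeight,
      if_neg fun h => h3 (hdet.mp ((det_eq_one_iff_val _).mpr h))]
    split_ifs with h
    · have hd : Matrix.GeneralLinearGroup.det (ρ σ) ≠ 1 := fun e => h3 (hdet.mp e)
      have he := hev.inert p hp hpM (h2 h3) A hA σ hσ (inQuaternion_sq hd)
      rw [trace_lift_sq hΨ _ hd, if_pos h] at he
      rw [show ev p = 2 by simp [map_ofNat] at he; exact_mod_cast he]
      norm_num
    · exact le_max_right _ _

include hρ hΨ hev in
/-- At the inert primes the eigenvalue is `0` or `2`. -/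
theorem ev_inert (p : ℕ) (hp : p.Prime) (hpM : ¬ p ∣ M) (h3 : p % 3 ≠ 1) :
    ev p = 0 ∨ ev p = 2 := by
  obtain ⟨A, σ, hA, hσ⟩ := exists_place_isFrobeniusAt hp
  obtain ⟨hdet, h2⟩ := det_iff hρ hev hp hpM hA hσ
  have hd : Matrix.GeneralLinearGroup.det (ρ σ) ≠ 1 := fun e => h3 (hdet.mp e)
  have he := hev.inert p hp hpM (h2 h3) A hA σ hσ (inQuaternion_sq hd)
  rw [trace_lift_sq hΨ _ hd] at he
  split_ifs at he <;> simp [map_ofNat] at he
  · right; exact_mod_cast he
  · left; exact_mod_cast he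

include hρ hΨ hev in
/-- **The series tends to infinity.** -/
theorem tendsto_asai_of_traces
    (htriv : IsTrivialBound M ev) (htriv' : IsTrivialBound M ev') (hsq : HasSquareBound M ev ev') :
    Tendsto (dSum (eulerCoeff M ev ev')) (𝓝[>] 1) atTop := by
  have hsum := summable_eulerCoeff (ev_inert hρ hΨ hev) htriv htriv' hsq
  have hfin := Final.factorsThroughFiniteLevel_of_continuous hρ.continuous
  obtain ⟨B, hB⟩ := ChebotarevFull.exists_sum_frob_ge ρ hfin hρ.surjective classWeight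
    classWeight_nonneg classWeight_conj classWeight_inv M.primeFactors
    (show (0 : ℝ) < 1 / 6 by norm_num)
  refine tendsto_asai (ev_inert hρ hΨ hev) htriv htriv' hsq hsum (c := 2 / 3) (B := B)
    (by norm_num) fun s hs => ?_
  obtain ⟨T, hT, a, ha, hle⟩ := hB s hs
  refine ⟨T, fun p hp => (hT p hp).1, ?_⟩
  rw [mean_classWeight] at hle
  refine (le_of_eq (by ring)).trans (hle.trans (Finset.sum_le_sum fun p hp => ?_))
  refine mul_le_mul_of_nonneg_right ?_ (Real.rpow_nonneg (Nat.cast_nonneg _) _)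
  obtain ⟨hpp, hpex⟩ := hT p hp
  obtain ⟨-, A, hA, σ, hσ, hσa⟩ := ha p hp
  rw [← hσa]
  exact classWeight_le_asaiWeight hρ hΨ hev hpp
    (fun h => hpex (Nat.mem_primeFactors.mpr ⟨hpp, h, hev.pos.ne'⟩)) hA hσ

end Fermat.Agent.LT.Asai
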