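import Fermat.Agent.LT.Asai.EisPrimes
import Fermat.Agent.LT.Asai.Galois
import Fermat.Agent.LT.Places.CosetList

/-!
# The coefficients of the restricted descent form

The coefficients `asaiCoeff M lam` are those of the Euler series, so for the data of
`HasDescentForm` the series converges absolutely for `s > 1` and tends to infinity at `1`, given
the square bound.
-/

set_option autoImplicit false

noncomputable section

open Filter NumberField Fermat.Agent.LT.Places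
open scoped Topology

namespace Fermat.Agent.LT.Asai

local notation "Γℚ" => (AlgebraicClosure ℚ ≃ₐ[ℚ] AlgebraicClosure ℚ)

open Classical in
/-- The eigenvalue at the first place over `p`. -/
def evFst (lam : Ideal (𝓞 EisField) → ℂ) (p : ℕ) : ℝ :=
  if h : p.Prime ∧ p % 3 = 1 then asaiEig lam (exists_split_places h.1 h.2).choose
  else if h : p.Prime ∧ p % 3 = 2 then asaiEig lam (exists_inert_place h.1 h.2).choose
  else 0

open Classical in
/-- The eigenvalue at the second place over `p`. -/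
def evSnd (lam : Ideal (𝓞 EisField) → ℂ) (p : ℕ) : ℝ :=
  if h : p.Prime ∧ p % 3 = 1 then
    asaiEig lam (exists_split_places h.1 h.2).choose_spec.choose
  else 0

variable (lam : Ideal (𝓞 EisField) → ℂ)

theorem evFst_split {p : ℕ} (hp : p.Prime) (h1 : p % 3 = 1) :
    ∃ v w : FinPlace EisField, v ≠ w ∧
      (∀ u : FinPlace EisField, (p : 𝓞 EisField) ∈ u.asIdeal ↔ u = v ∨ u = w) ∧
      Ideal.absNorm v.asIdeal = p ∧ Ideal.absNorm w.asIdeal = p ∧
      placeExp v p = 1 ∧ placeExp w p = 1 ∧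
      evFst lam p = asaiEig lam v ∧ evSnd lam p = asaiEig lam w := by
  have h := (exists_split_places hp h1).choose_spec.choose_spec
  refine ⟨_, _, h.1, h.2.1, h.2.2.1, h.2.2.2.1, h.2.2.2.2.1, h.2.2.2.2.2, ?_, ?_⟩
  · rw [evFst, dif_pos ⟨hp, h1⟩]
  · rw [evSnd, dif_pos ⟨hp, h1⟩]

theorem evFst_inert {p : ℕ} (hp : p.Prime) (h2 : p % 3 = 2) :
    ∃ v : FinPlace EisField, (∀ u : FinPlace EisField, (p : 𝓞 EisField) ∈ u.asIdeal ↔ u = v) ∧
      Ideal.absNorm v.asIdeal = p ^ 2 ∧ placeExp v p = 1 ∧ evFst lam p = asaiEig lam v := by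
  have h := (exists_inert_place hp h2).choose_spec
  refine ⟨_, h.1, h.2.1, h.2.2, ?_⟩
  rw [evFst, dif_neg (fun hc => by omega), dif_pos ⟨hp, h2⟩]

theorem mod_three_cases {p M : ℕ} (hp : p.Prime) (h3 : 3 ∣ M) (hpM : ¬ p ∣ M) :
    p % 3 = 1 ∨ p % 3 = 2 := by
  have : p % 3 ≠ 0 := fun h => hpM (by
    rcases hp.eq_one_or_self_of_dvd 3 (Nat.dvd_of_mod_eq_zero h) with e | e
    · omega
    · exact e ▸ h3)
  omega

/-- **The coefficients are those of the Euler series.** -/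
theorem asaiCoeff_eq_eulerCoeff {M : ℕ} (h3 : 3 ∣ M) (n : ℕ) :
    asaiCoeff M lam n = eulerCoeff M (evFst lam) (evSnd lam) n := by
  induction n using Nat.recOnPosPrimePosCoprime with
  | zero => rw [asaiCoeff_zero, eulerCoeff_zero]
  | one => rw [asaiCoeff_one, eulerCoeff_one]
  | coprime a b ha hb hab iha ihb =>
    rw [asaiCoeff_mul M lam a b hab, eulerCoeff_mul a b hab, iha, ihb]
  | prime_pow p k hp hk =>
    rw [eulerCoeff_prime_pow hp]
    by_cases hpM : p ∣ M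
    · rw [asaiLocal, if_pos hpM, if_neg (by omega), asaiCoeff, if_neg]
      rintro ⟨-, hco⟩
      exact hp.coprime_iff_not_dvd.mp ((Nat.coprime_pow_left_iff (by omega) p M).mp hco) hpM
    have hco : p.Coprime M := hp.coprime_iff_not_dvd.mpr hpM
    rw [asaiLocal, if_neg hpM]
    classical
    rcases mod_three_cases hp h3 hpM with h1 | h2
    · obtain ⟨v, w, hvw, hmem, -, -, ev, ew, efst, esnd⟩ := evFst_split lam hp h1
      rw [if_pos h1, asaiCoeff_prime_pow M lam hp hco k (S := {v, w}) (fun u hu => by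
        rcases (hmem u).mp hu with rfl | rfl <;> simp), Finset.prod_pair hvw, ev, ew, mul_one, efst,
        esnd]
    · obtain ⟨v, hmem, -, ev, efst⟩ := evFst_inert lam hp h2
      rw [if_neg (by omega), asaiCoeff_prime_pow M lam hp hco k (S := {v}) (fun u hu => by
        rw [(hmem u).mp hu]; simp), Finset.prod_singleton, ev, mul_one, efst]

/-- The trivial bound for the Hecke eigenvalue of a bounded nonzero eigenfunction. -/
theorem norm_eigenvalue_le {N : ℕ} (hN : 0 < N) {φ : Y (Level.principal EisField N hN) → ℂ}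
    (hb : ∃ C : ℝ, ∀ y, ‖φ y‖ ≤ C) (hne : ∃ y, φ y ≠ 0) {v : FinPlace EisField}
    (hv : (N : 𝓞 EisField) ∉ v.asIdeal) {c : ℂ} (heig : IsHeckeEigenAt N φ v.asIdeal c) :
    ‖c‖ ≤ (Ideal.absNorm v.asIdeal : ℝ) + 1 := by
  classical
  obtain ⟨C, hC⟩ := hb
  obtain ⟨y₀, hy₀⟩ := hne
  have ha := isUniformiserAt_piUnit hN hv
  have hlist := isCosetList_principal hN hv ha
  have : Nonempty (Y (Level.principal EisField N hN)) := ⟨y₀⟩
  have hbdd : BddAbove (Set.range fun y => ‖φ y‖) := ⟨C, by rintro _ ⟨y, rfl⟩; exact hC y⟩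
  set m := ⨆ y, ‖φ y‖
  have hle : ∀ y, ‖φ y‖ ≤ m := le_ciSup hbdd
  have hpos : 0 < m := lt_of_lt_of_le (norm_pos_iff.mpr hy₀) (hle y₀)
  have : Finite (Residue v) := (Nat.finite_of_card_ne_zero (by
    rw [card_residue]; exact (Ideal.absNorm_eq_zero_iff.not.mpr v.ne_bot)))
  let _ := Fintype.ofFinite (Residue v)
  have hkey : ∀ y, ‖c‖ * ‖φ y‖ ≤ ((Ideal.absNorm v.asIdeal : ℝ) + 1) * m := by
    rintro ⟨P, q⟩
    induction q using QuotientGroup.induction_on with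
    | H g =>
      rw [← norm_mul, ← heig _ ha (P, _), Whittaker.doubleOp_eq_sum hlist]
      refine (norm_sum_le _ _).trans ((Finset.sum_le_card_nsmul _ _ m fun o _ => hle _).trans_eq ?_)
      rw [Finset.card_univ, Fintype.card_option, ← Nat.card_eq_fintype_card, card_residue,
        nsmul_eq_mul, Nat.cast_add, Nat.cast_one]
  have hsup : m ≤ ((Ideal.absNorm v.asIdeal : ℝ) + 1) * m / ‖c‖ ∨ ‖c‖ = 0 := by
    rcases eq_or_ne ‖c‖ 0 with h | h
    · exact Or.inr h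
    · exact Or.inl (ciSup_le fun y => (le_div_iff₀' (lt_of_le_of_ne (norm_nonneg c) h.symm)).mpr
        (hkey y))
  rcases hsup with h | h
  · rcases eq_or_ne ‖c‖ 0 with h0 | h0
    · rw [h0]; positivity
    · rw [le_div_iff₀ (lt_of_le_of_ne (norm_nonneg c) h0.symm)] at h
      exact le_of_mul_le_mul_left (by linarith) hpos
  · rw [h]; positivity

theorem abs_asaiEig_le {N : ℕ} (hN : 0 < N) {φ : Y (Level.principal EisField N hN) → ℂ}
    (hcusp : IsSphericalCuspForm φ) (hne : ∃ y, φ y ≠ 0) (hsys : IsHeckeEigenSystem N φ lam)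
    {v : FinPlace EisField} (hv : (N : 𝓞 EisField) ∉ v.asIdeal) :
    |asaiEig lam v| ≤ Real.sqrt (Ideal.absNorm v.asIdeal) +
      (Real.sqrt (Ideal.absNorm v.asIdeal))⁻¹ := by
  have h := norm_eigenvalue_le hN hcusp.cuspEigen.bounded hne hv
    (hsys v.asIdeal v.isPrime v.ne_bot hv)
  have hq : (0 : ℝ) < Ideal.absNorm v.asIdeal := by
    exact_mod_cast Nat.pos_of_ne_zero (Ideal.absNorm_eq_zero_iff.not.mpr v.ne_bot)
  set q : ℝ := (Ideal.absNorm v.asIdeal : ℝ)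
  have hs := Real.sqrt_pos.mpr hq
  rw [asaiEig, abs_div, abs_of_pos hs, div_le_iff₀ hs, add_mul, Real.mul_self_sqrt hq.le,
    inv_mul_cancel₀ hs.ne']
  exact (Complex.abs_re_le_norm _).trans h

/-- The symmetric squares at the places not dividing `M` sum to at most
`log (1 / (s - 1)) + O(1)`. -/
def HasPlaceSquareBound (M : ℕ) : Prop :=
  ∃ C : ℝ, ∀ s ∈ Set.Ioc (1 : ℝ) 2, ∀ S : Finset (FinPlace EisField),
    (∀ v ∈ S, (M : 𝓞 EisField) ∉ v.asIdeal) →
      ∑ v ∈ S, pairSum (asaiEig lam v) (asaiEig lam v)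
          ((Ideal.absNorm v.asIdeal : ℝ) ^ (-s)) ≤ Real.log (1 / (s - 1)) + C

theorem natCast_notMem {M p : ℕ} (hp : p.Prime) (hpM : ¬ p ∣ M) {v : FinPlace EisField}
    (hv : (p : 𝓞 EisField) ∈ v.asIdeal) : (M : 𝓞 EisField) ∉ v.asIdeal := fun hM => by
  rcases Nat.eq_zero_or_pos M with rfl | hMpos
  · exact hpM (dvd_zero p)
  rcases placeExp_coprime v hp.pos hMpos (hp.coprime_iff_not_dvd.mpr hpM) with h | h
  · exact (placeExp_eq_zero_iff v hp.pos).mp h hv
  · exact (placeExp_eq_zero_iff v hMpos).mp h hM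

theorem prime_eq_of_mem {p q : ℕ} (hp : p.Prime) (hq : q.Prime) {v : FinPlace EisField}
    (hv : (p : 𝓞 EisField) ∈ v.asIdeal) (hv' : (q : 𝓞 EisField) ∈ v.asIdeal) : p = q := by
  by_contra hne
  exact natCast_notMem (M := q) hp (fun h => hne ((Nat.prime_dvd_prime_iff_eq hp hq).mp h)) hv hv'

theorem hasSquareBound_of_places {M : ℕ} (h : HasPlaceSquareBound lam M) :
    HasSquareBound M (evFst lam) (evSnd lam) := by
  classical
  obtain ⟨C, hC⟩ := h
  refine ⟨C, fun s hs S hS => ?_⟩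
  choose v w hvw hmem hnv hnw hev hew efst esnd using fun p : {p // p ∈ S} =>
    evFst_split lam p.1.2 (hS p.1 p.2).2
  have hv : ∀ p, ((p : {p // p ∈ S}).1.1 : 𝓞 EisField) ∈ (v p).asIdeal := fun p =>
    (hmem p _).mpr (Or.inl rfl)
  have hw : ∀ p, ((p : {p // p ∈ S}).1.1 : 𝓞 EisField) ∈ (w p).asIdeal := fun p =>
    (hmem p _).mpr (Or.inr rfl)
  have hle := hC s hs (S.attach.biUnion fun p => {v p, w p}) fun u hu => by
    obtain ⟨p, -, hp⟩ := Finset.mem_biUnion.mp hu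
    rcases Finset.mem_insert.mp hp with rfl | hp'
    · exact natCast_notMem p.1.2 (hS p.1 p.2).1 (hv p)
    · rw [Finset.mem_singleton.mp hp']
      exact natCast_notMem p.1.2 (hS p.1 p.2).1 (hw p)
  refine le_trans (le_of_eq ?_) hle
  rw [Finset.sum_biUnion, ← Finset.sum_attach S]
  · refine Finset.sum_congr rfl fun p _ => ?_
    rw [Finset.sum_pair (hvw p), efst p, esnd p, hnv p, hnw p]
  · intro p _ q _ hpq
    rw [Function.onFun, Finset.disjoint_left]
    intro u hu hu'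
    apply hpq
    have h1 : (p.1.1 : 𝓞 EisField) ∈ u.asIdeal := (hmem p u).mpr (by simpa using hu)
    have h2 : (q.1.1 : 𝓞 EisField) ∈ u.asIdeal := (hmem q u).mpr (by simpa using hu')
    exact Subtype.ext (Subtype.ext (prime_eq_of_mem p.1.2 q.1.2 h1 h2))

variable {lam}

theorem eig_eq_of_value {v : FinPlace EisField} {p f : ℕ} {z : ℂ} (hp : p.Prime)
    (hn : Ideal.absNorm v.asIdeal = p ^ f) (him : (lam v.asIdeal).im = 0)
    (h : lam v.asIdeal = (Real.sqrt p : ℂ) ^ f * z) : ((asaiEig lam v : ℝ) : ℂ) = z := by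
  have hs : (0 : ℝ) < Real.sqrt p := Real.sqrt_pos.mpr (by exact_mod_cast hp.pos)
  have e : lam v.asIdeal = (((lam v.asIdeal).re : ℝ) : ℂ) :=
    Complex.ext (by simp) (by simp [him])
  rw [e] at h
  rw [asaiEig, hn, Nat.cast_pow, Real.sqrt_eq_rpow, ← Real.rpow_natCast_mul (Nat.cast_nonneg p),
    mul_comm (f : ℝ), Real.rpow_mul_natCast (Nat.cast_nonneg p), ← Real.sqrt_eq_rpow]
  push_cast
  rw [h, mul_div_cancel_left₀ _ (pow_ne_zero _ (Complex.ofReal_ne_zero.mpr hs.ne'))]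

/-- **The series of the descent form.** For every multiple `M` of some modulus `R`: absolute
convergence and divergence at `1`, given the square bound. -/
theorem exists_modulus_series {ρ : Γℚ →* GL (Fin 2) (ZMod 3)} (hρ : IsSupersingularRep ρ)
    {Ψ : GL (Fin 2) (ZMod 3) →* GL (Fin 2) (ℤ√(-2))}
    (hΨ : ∀ g, Matrix.GeneralLinearGroup.map FLT.ExplicitLift.red (Ψ g) = g)
    {N : ℕ} (hN : 0 < N) (ι : ℤ√(-2) →+* ℂ) {φ : Y (Level.principal EisField N hN) → ℂ}
    {lam : Ideal (𝓞 EisField) → ℂ} (T : Finset ℕ) (hcusp : IsSphericalCuspForm φ)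
    (hne : ∃ y, φ y ≠ 0) (hsys : IsHeckeEigenSystem N φ lam)
    (hreal : ∀ 𝔭 : Ideal (𝓞 EisField), 𝔭.IsPrime → 𝔭 ≠ ⊥ → (N : 𝓞 EisField) ∉ 𝔭 →
      (lam 𝔭).im = 0)
    (hval : ∀ p : ℕ, p.Prime → p ∉ T → ¬ p ∣ 3 * N →
      ∀ A : ValuationSubring (AlgebraicClosure ℚ), A.LiesOverPrime p →
        (∀ τ ∈ A.inertiaSubgroupIn ℚ, ρ τ = 1) →
        ∀ σ : Γℚ, A.IsFrobeniusAt σ p →
          ∀ (𝔭 : Ideal (𝓞 EisField)) (f : ℕ), 𝔭.IsPrime → Ideal.absNorm 𝔭 = p ^ f →
            Final.InQuaternion (ρ σ ^ f) →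
            lam 𝔭 = (Real.sqrt p : ℂ) ^ f *
              ι ((Ψ (ρ σ ^ f) : GL (Fin 2) (ℤ√(-2))) : Matrix (Fin 2) (Fin 2) (ℤ√(-2))).trace) :
    ∃ R : ℕ, 0 < R ∧ 3 * N ∣ R ∧ ∀ M : ℕ, 0 < M → R ∣ M → HasPlaceSquareBound lam M →
      (∀ s : ℝ, 1 < s → Summable fun n => |dTerm (asaiCoeff M lam) s n|) ∧
        Tendsto (dSum (asaiCoeff M lam)) (𝓝[>] 1) atTop := by
  classical
  obtain ⟨R₀, hR₀, hunr⟩ := exists_ramified_modulus hρ
  set Tp := T.filter Nat.Prime
  have hTp : 0 < ∏ q ∈ Tp, q := Finset.prod_pos fun q hq => (Finset.mem_filter.mp hq).2.pos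
  refine ⟨3 * N * (R₀ * ∏ q ∈ Tp, q), by positivity, dvd_mul_right _ _, fun M hM hRM hsq => ?_⟩
  have h3N : 3 * N ∣ M := (dvd_mul_right _ _).trans hRM
  have h3 : 3 ∣ M := (dvd_mul_right 3 N).trans h3N
  have hgood : ∀ p : ℕ, p.Prime → ¬ p ∣ M → p ∉ T ∧ ¬ p ∣ 3 * N := fun p hp hpM =>
    ⟨fun h => hpM (((Finset.dvd_prod_of_mem _ (Finset.mem_filter.mpr ⟨h, hp⟩ : p ∈ Tp)).trans
      (dvd_mul_left _ R₀)).trans ((dvd_mul_left _ _).trans hRM)), fun h => hpM (h.trans h3N)⟩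
  have hNv : ∀ {p : ℕ}, p.Prime → ¬ p ∣ M → ∀ v : FinPlace EisField,
      (p : 𝓞 EisField) ∈ v.asIdeal → (N : 𝓞 EisField) ∉ v.asIdeal := fun {p} hp hpM v hv =>
    natCast_notMem hp (fun h => (hgood p hp hpM).2 (h.mul_left 3)) hv
  have hun : ∀ p : ℕ, p.Prime → ¬ p ∣ M →
      ∀ A : ValuationSubring (AlgebraicClosure ℚ), A.LiesOverPrime p →
        ∀ τ ∈ A.inertiaSubgroupIn ℚ, ρ τ = 1 := fun p hp hpM =>
    hunr p hp fun h => hpM ((h.trans (dvd_mul_right R₀ _)).trans ((dvd_mul_left _ _).trans hRM))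
  have hval' : ∀ (p f : ℕ), p.Prime → ¬ p ∣ M → ∀ v : FinPlace EisField,
      (p : 𝓞 EisField) ∈ v.asIdeal → Ideal.absNorm v.asIdeal = p ^ f →
      ∀ A : ValuationSubring (AlgebraicClosure ℚ), A.LiesOverPrime p →
        ∀ σ : Γℚ, A.IsFrobeniusAt σ p → Final.InQuaternion (ρ σ ^ f) →
          ((asaiEig lam v : ℝ) : ℂ) =
            ι ((Ψ (ρ σ ^ f) : GL (Fin 2) (ℤ√(-2))) : Matrix (Fin 2) (Fin 2) (ℤ√(-2))).trace :=
    fun p f hp hpM v hv hn A hA σ hσ hQ => eig_eq_of_value hp hn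
      (hreal v.asIdeal v.isPrime v.ne_bot (hNv hp hpM v hv))
      (hval p hp (hgood p hp hpM).1 (hgood p hp hpM).2 A hA (hun p hp hpM A hA) σ hσ v.asIdeal f
        v.isPrime hn hQ)
  have hev : HasTraces ρ Ψ ι M (evFst lam) (evSnd lam) := by
    refine ⟨h3, hM, hun, fun p hp hpM h1 A hA σ hσ hQ => ?_, fun p hp hpM h2 A hA σ hσ hQ => ?_⟩
    · obtain ⟨v, w, -, hmem, nv, nw, -, -, efst, esnd⟩ := evFst_split lam hp h1
      rw [← pow_one (ρ σ)] at hQ
      have hv := hval' p 1 hp hpM v ((hmem v).mpr (Or.inl rfl)) (by rw [nv, pow_one]) A hA σ hσ hQ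
      have hw := hval' p 1 hp hpM w ((hmem w).mpr (Or.inr rfl)) (by rw [nw, pow_one]) A hA σ hσ hQ
      rw [pow_one] at hv hw
      rw [efst, esnd]
      exact ⟨hv, Complex.ofReal_injective (hw.trans hv.symm)⟩
    · obtain ⟨v, hmem, nv, -, efst⟩ := evFst_inert lam hp h2
      rw [efst]
      exact hval' p 2 hp hpM v ((hmem v).mpr rfl) nv A hA σ hσ hQ
  have htriv : IsTrivialBound M (evFst lam) ∧ IsTrivialBound M (evSnd lam) := by
    constructor <;> intro p hp hpM h1 <;>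
      obtain ⟨v, w, -, hmem, nv, nw, -, -, efst, esnd⟩ := evFst_split lam hp h1
    · rw [efst, ← nv]
      exact abs_asaiEig_le lam hN hcusp hne hsys (hNv hp hpM v ((hmem v).mpr (Or.inl rfl)))
    · rw [esnd, ← nw]
      exact abs_asaiEig_le lam hN hcusp hne hsys (hNv hp hpM w ((hmem w).mpr (Or.inr rfl)))
  have hsq' := hasSquareBound_of_places lam hsq
  have e : asaiCoeff M lam = eulerCoeff M (evFst lam) (evSnd lam) :=
    funext (asaiCoeff_eq_eulerCoeff lam h3)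
  rw [e]
  exact ⟨summable_eulerCoeff (ev_inert hρ hΨ hev) htriv.1 htriv.2 hsq',
    tendsto_asai_of_traces hρ hΨ hev htriv.1 htriv.2 hsq'⟩

end Fermat.Agent.LT.Asai
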