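import Fermat.Agent.LT.Asai.EulerBound
import Fermat.Agent.ChebotarevFull.Main
import Mathlib.Analysis.SpecialFunctions.Complex.LogBounds

/-!
# Local factors of the Asai series and the Galois weights

`heckeSeq a` is the sequence of normalised Hecke eigenvalues at powers of a place with eigenvalue
`a`.  At a split prime the Asai coefficient at `p^k` is `heckeSeq a k * heckeSeq b k`; at an inert
prime it is `heckeSeq a k`, with `a ∈ {0, 2}`.  `classWeight` is the gain at `p` read on the image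
of Frobenius in `GL₂(𝔽₃)`; its mean is `5/6`, and the symmetric squares at the split primes cost at
most `1/2`.
-/

set_option autoImplicit false

open Filter Finset
open scoped Topology

noncomputable section

namespace Fermat.Agent.LT.Asai

/-- Normalised Hecke eigenvalues at the powers of a place. -/
def heckeSeq (a : ℝ) : ℕ → ℝ
  | 0 => 1
  | 1 => a
  | k + 2 => a * heckeSeq a (k + 1) - heckeSeq a k

lemma heckeSeq_two (k : ℕ) : heckeSeq 2 k = (k : ℝ) + 1 := by
  induction k using Nat.twoStepInduction with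
  | zero => simp [heckeSeq]
  | one => norm_num [heckeSeq]
  | more k ih1 ih2 =>
    simp only [heckeSeq, ih1, ih2]
    push_cast
    ring

lemma heckeSeq_zero_add_two (k : ℕ) : heckeSeq 0 (k + 2) = -heckeSeq 0 k := by
  simp [heckeSeq]

/-- The term of a Dirichlet series at a prime power. -/
lemma dTerm_pow (f : ℕ → ℝ) (s : ℝ) (p k : ℕ) :
    dTerm f s (p ^ k) = f (p ^ k) * ((p : ℝ) ^ (-s)) ^ k := by
  rw [dTerm, Nat.cast_pow, ← Real.rpow_natCast_mul (Nat.cast_nonneg p),
    ← Real.rpow_mul_natCast (Nat.cast_nonneg p)]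
  ring_nf

/-- A series with nonnegative terms dominates its first two terms. -/
lemma two_terms_le_tsum {u : ℕ → ℝ} (hu : ∀ k, 0 ≤ u k) (hs : Summable u) :
    u 0 + u 1 ≤ ∑' k, u k := by
  have := hs.sum_le_tsum (Finset.range 2) fun k _ => hu k
  simpa [Finset.sum_range_succ] using this

lemma weight_mul_le {g a x : ℝ} (hg : 0 ≤ g) (hga : g ≤ a) (hx : 0 ≤ x) :
    (1 + g * x) * (1 - x ^ 2) ≤ 1 + a * x := by
  calc (1 + g * x) * (1 - x ^ 2) ≤ 1 + g * x :=
        mul_le_of_le_one_right (by positivity) (by nlinarith)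
    _ ≤ 1 + a * x := by nlinarith

/-- The power sums `α ^ k + α ^ (-k)` for `a = α + α⁻¹`. -/
def powSum (a : ℝ) : ℕ → ℝ
  | 0 => 2
  | 1 => a
  | k + 2 => a * powSum a (k + 1) - powSum a k

/-- `∑ b_k b'_k x^k / k`, the logarithm of the `L`-factor of a pair. -/
def pairSum (a b x : ℝ) : ℝ := ∑' k : ℕ, powSum a k * powSum b k * x ^ k / k

/-- `a = z + z⁻¹` with `|z|`, `|z⁻¹|` at most `r` as soon as `|a| ≤ r + r⁻¹`. -/
lemma exists_root {a r : ℝ} (hr : 1 ≤ r) (ha : |a| ≤ r + r⁻¹) :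
    ∃ z : ℂ, z ≠ 0 ∧ z + z⁻¹ = (a : ℂ) ∧ ‖z‖ ≤ r ∧ ‖z⁻¹‖ ≤ r := by
  obtain ⟨q, hq⟩ := IsAlgClosed.exists_eq_mul_self ((a : ℂ) ^ 2 - 4)
  set z := ((a : ℂ) + q) / 2
  have hz : z * ((a : ℂ) - z) = 1 := by
    simp only [z]
    linear_combination (1 / 4 : ℂ) * hq
  have hz0 : z ≠ 0 := left_ne_zero_of_mul_eq_one hz
  have hza : z + z⁻¹ = (a : ℂ) := by rw [inv_eq_of_mul_eq_one_right hz]; ring
  refine ⟨z, hz0, hza, ?_⟩
  have hr0 : 0 < r := by linarith
  have hn : 0 < ‖z‖ := norm_pos_iff.mpr hz0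
  have him := congrArg Complex.im hza
  rw [Complex.add_im, Complex.inv_im, Complex.ofReal_im, Complex.normSq_eq_norm_sq] at him
  have key : ‖z‖ + ‖z‖⁻¹ ≤ r + r⁻¹ := by
    rcases eq_or_ne z.im 0 with h | h
    · have hre : z = ((z.re : ℝ) : ℂ) := Complex.ext (by simp) (by simp [h])
      have ht : z.re ≠ 0 := fun h0 => hz0 (by rw [hre, h0, Complex.ofReal_zero])
      have hsum : |z.re + z.re⁻¹| ≤ r + r⁻¹ := by
        have he : z.re + z.re⁻¹ = a := by
          have := hza
          rw [hre, ← Complex.ofReal_inv, ← Complex.ofReal_add] at this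
          exact Complex.ofReal_injective this
        rwa [he]
      rw [hre, Complex.norm_real, Real.norm_eq_abs]
      refine le_trans (le_of_eq ?_) hsum
      rcases lt_or_gt_of_ne ht with hlt | hgt
      · have := inv_lt_zero.mpr hlt
        rw [abs_of_neg hlt, abs_of_neg (by linarith), inv_neg]; ring
      · have := inv_pos.mpr hgt
        rw [abs_of_pos hgt, abs_of_pos (by linarith)]
    · have h1 : ‖z‖ ^ 2 = 1 := by
        field_simp at him
        have : z.im * (‖z‖ ^ 2 - 1) = 0 := by linear_combination him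
        have := (mul_eq_zero.mp this).resolve_left h
        linarith
      have h2 : ‖z‖ = 1 := by nlinarith
      rw [h2, inv_one]
      nlinarith [mul_nonneg (sub_nonneg.mpr hr) (sub_nonneg.mpr hr), mul_inv_cancel₀ hr0.ne',
        inv_pos.mpr hr0]
  have hfac : (‖z‖ - r) * (‖z‖ * r - 1) ≤ 0 := by
    have := mul_le_mul_of_nonneg_right key (mul_pos hn hr0).le
    rw [add_mul, add_mul] at this
    field_simp at this
    nlinarith
  rw [norm_inv, inv_le_iff_one_le_mul₀ hn]
  constructor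
  · by_contra h
    have h' := not_le.mp h
    nlinarith [mul_pos (sub_pos.mpr h') (show 0 < ‖z‖ * r - 1 by nlinarith)]
  · by_contra h
    have h' := not_le.mp h
    nlinarith [mul_pos (show 0 < r - ‖z‖ by nlinarith) (show 0 < 1 - r * ‖z‖ by linarith)]

/-- `powSum a k` is the power sum `α ^ k + β ^ k` of the roots of `X ^ 2 - a X + 1`. -/
lemma ofReal_powSum (a : ℝ) {α β : ℂ} (hs : α + β = (a : ℂ)) (hp : α * β = 1) (k : ℕ) :
    (powSum a k : ℂ) = α ^ k + β ^ k := by
  induction k using Nat.twoStepInduction with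
  | zero => simp [powSum]; norm_num
  | one => simp [powSum, hs]
  | more k h0 h1 =>
    simp only [powSum, Complex.ofReal_sub, Complex.ofReal_mul, h0, h1]
    linear_combination (α ^ k + β ^ k) * hp - (α ^ (k + 1) + β ^ (k + 1)) * hs

/-- The denominator of the factor of a pair is the exponential of minus the pair sum. -/
lemma exp_neg_pairSum {a b r x : ℝ} (hr : 1 ≤ r) (ha : |a| ≤ r + r⁻¹) (hb : |b| ≤ r + r⁻¹)
    (hx : 0 ≤ x) (hrx : r ^ 2 * x < 1) :
    (Summable fun k : ℕ => powSum a k * powSum b k * x ^ k / k) ∧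
      1 - a * b * x + (a ^ 2 + b ^ 2 - 2) * x ^ 2 - a * b * x ^ 3 + x ^ 4 =
        Real.exp (-pairSum a b x) := by
  obtain ⟨z, hz, hza, hzr, hzr'⟩ := exists_root hr ha
  obtain ⟨w, hw, hwb, hwr, hwr'⟩ := exists_root hr hb
  have hlt : ∀ u v : ℂ, ‖u‖ ≤ r → ‖v‖ ≤ r → ‖u * v * x‖ < 1 := fun u v hu hv => by
    rw [norm_mul, norm_mul, Complex.norm_real, Real.norm_eq_abs, abs_of_nonneg hx]
    refine lt_of_le_of_lt (mul_le_mul_of_nonneg_right ?_ hx) hrx
    rw [sq]
    exact mul_le_mul hu hv (norm_nonneg _) (by linarith)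
  have hs := fun u v hu hv => Complex.hasSum_taylorSeries_neg_log (hlt u v hu hv)
  have hS := ((hs z w hzr hwr).add (hs z w⁻¹ hzr hwr')).add
    ((hs z⁻¹ w hzr' hwr).add (hs z⁻¹ w⁻¹ hzr' hwr'))
  have hS' := hS.congr_fun
    (f := _) (g := fun k : ℕ => ((powSum a k * powSum b k * x ^ k / k : ℝ) : ℂ)) fun k => by
      push_cast
      rw [ofReal_powSum a hza (mul_inv_cancel₀ hz), ofReal_powSum b hwb (mul_inv_cancel₀ hw)]
      simp only [mul_pow]
      ring
  have hre := Complex.hasSum_re hS'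
  simp only [Complex.ofReal_re] at hre
  refine ⟨hre.summable, ?_⟩
  have htot := hS'.tsum_eq
  rw [← Complex.ofReal_tsum] at htot
  apply Complex.ofReal_injective
  rw [Complex.ofReal_exp, Complex.ofReal_neg, pairSum, htot]
  have hne : ∀ u v : ℂ, ‖u‖ ≤ r → ‖v‖ ≤ r → 1 - u * v * x ≠ 0 := fun u v hu hv h => by
    have := hlt u v hu hv
    rw [← sub_eq_zero.mp h, norm_one] at this
    exact lt_irrefl _ this
  simp only [neg_add, neg_neg, Complex.exp_add, Complex.exp_log (hne _ _ hzr hwr),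
    Complex.exp_log (hne _ _ hzr hwr'), Complex.exp_log (hne _ _ hzr' hwr),
    Complex.exp_log (hne _ _ hzr' hwr')]
  push_cast
  rw [← hza, ← hwb]
  field_simp
  ring

/-- The generating series of products of Hecke eigenvalues. -/
lemma tsum_heckeSeq_mul (a b x : ℝ)
    (hsum : Summable fun k : ℕ => heckeSeq a k * heckeSeq b k * x ^ k) :
    (∑' k, heckeSeq a k * heckeSeq b k * x ^ k) *
      (1 - a * b * x + (a ^ 2 + b ^ 2 - 2) * x ^ 2 - a * b * x ^ 3 + x ^ 4) = 1 - x ^ 2 := by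
  set g := fun k : ℕ => heckeSeq a k * heckeSeq b k * x ^ k with hg
  set S := ∑' k, g k
  have hj : ∀ j : ℕ, ∑' k, g (k + j) = S - ∑ i ∈ Finset.range j, g i := fun j =>
    eq_sub_of_add_eq' (hsum.sum_add_tsum_nat_add j)
  have hs : ∀ j : ℕ, Summable fun k => g (k + j) := fun j => (summable_nat_add_iff j).mpr hsum
  have hrec : ∀ k, g (k + 4) - a * b * x * g (k + 3) + (a ^ 2 + b ^ 2 - 2) * x ^ 2 * g (k + 2) -
      a * b * x ^ 3 * g (k + 1) + x ^ 4 * g k = 0 := fun k => by
    simp only [hg, heckeSeq]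
    ring
  have htot := (((((hs 4).hasSum.sub ((hs 3).hasSum.mul_left (a * b * x))).add
    ((hs 2).hasSum.mul_left ((a ^ 2 + b ^ 2 - 2) * x ^ 2))).sub
    ((hs 1).hasSum.mul_left (a * b * x ^ 3))).add (hsum.hasSum.mul_left (x ^ 4))).congr_fun
    (g := fun _ => 0) fun k => (hrec k).symm
  have h0 := htot.unique hasSum_zero
  rw [hj 4, hj 3, hj 2, hj 1] at h0
  simp only [Finset.sum_range_succ, Finset.sum_range_zero, hg, heckeSeq] at h0
  linear_combination h0

/-- Split primes: the factor loses at most the mean of the two symmetric squares. -/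
lemma local_split {f : ℕ → ℝ} {p : ℕ} {a b g s : ℝ} (hp : 2 ≤ p) (hs : 1 < s)
    (hf : ∀ k, f (p ^ k) = heckeSeq a k * heckeSeq b k)
    (ha : |a| ≤ Real.sqrt p + (Real.sqrt p)⁻¹) (hb : |b| ≤ Real.sqrt p + (Real.sqrt p)⁻¹)
    (hgab : g ≤ (a + b) ^ 2 / 2)
    (hsum : Summable fun n => |dTerm f s n|) :
    (1 + g * (p : ℝ) ^ (-s)) * (1 - ((p : ℝ) ^ (-s)) ^ 2) *
        Real.exp (-((pairSum a a ((p : ℝ) ^ (-s)) + pairSum b b ((p : ℝ) ^ (-s))) / 2)) ≤
      ∑' k, dTerm f s (p ^ k) := by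
  set x := (p : ℝ) ^ (-s) with hxdef
  set r := Real.sqrt p
  have hp1 : (1 : ℝ) ≤ p := by exact_mod_cast (show 1 ≤ p by omega)
  have hr : 1 ≤ r := Real.one_le_sqrt.mpr hp1
  have hx : 0 ≤ x := Real.rpow_nonneg (Nat.cast_nonneg _) _
  have hrx : r ^ 2 * x < 1 := by
    rw [Real.sq_sqrt (by linarith), hxdef]
    calc (p : ℝ) * (p : ℝ) ^ (-s) = (p : ℝ) ^ (1 - s) := by
          rw [sub_eq_add_neg, Real.rpow_add (by linarith), Real.rpow_one]
      _ < 1 := Real.rpow_lt_one_of_one_lt_of_neg (by exact_mod_cast (show 1 < p by omega))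
          (by linarith)
  obtain ⟨hab, hD⟩ := exp_neg_pairSum hr ha hb hx hrx
  obtain ⟨haa, -⟩ := exp_neg_pairSum hr ha ha hx hrx
  obtain ⟨hbb, -⟩ := exp_neg_pairSum hr hb hb hx hrx
  have hu : Summable fun k => heckeSeq a k * heckeSeq b k * x ^ k :=
    (Summable.of_abs (hsum.comp_injective (Nat.pow_right_injective hp))).congr fun k => by
      simp only [dTerm_pow, hf, hxdef]
  have hG : ∑' k, dTerm f s (p ^ k) = (1 - x ^ 2) * Real.exp (pairSum a b x) := by
    rw [← tsum_heckeSeq_mul a b x hu, hD, mul_assoc, ← Real.exp_add, neg_add_cancel, Real.exp_zero,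
      mul_one]
    exact tsum_congr fun k => by rw [dTerm_pow, hf]
  have hkey : g * x ≤ pairSum a b x + (pairSum a a x + pairSum b b x) / 2 := by
    have h := ((haa.hasSum.add hbb.hasSum).div_const 2).add hab.hasSum
    rw [add_comm (pairSum a b x)]
    have h1 := h.summable.le_tsum 1 fun k _ => by
      rw [show (powSum a k * powSum a k * x ^ k / k + powSum b k * powSum b k * x ^ k / k) / 2 +
        powSum a k * powSum b k * x ^ k / k = (powSum a k + powSum b k) ^ 2 / 2 * x ^ k / k by ring]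
      positivity
    rw [h.tsum_eq] at h1
    refine le_trans (le_trans (mul_le_mul_of_nonneg_right hgab hx) (le_of_eq ?_)) h1
    simp [powSum]
    ring
  have hx1 : x ^ 2 ≤ 1 := by nlinarith [mul_le_mul_of_nonneg_right hr hx]
  rw [hG, mul_comm (1 + g * x), mul_assoc]
  refine mul_le_mul_of_nonneg_left ?_ (by linarith)
  refine le_trans (mul_le_mul_of_nonneg_right (Real.add_one_le_exp _ |>.trans' (by rw [add_comm]))
    (Real.exp_pos _).le) ?_
  rw [← Real.exp_add]
  exact Real.exp_le_exp.mpr (by linarith)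

/-- Inert primes with `a = 2`. -/
lemma local_inert_two {f : ℕ → ℝ} {p : ℕ} {g s : ℝ} (hp : 2 ≤ p)
    (hf : ∀ k, f (p ^ k) = heckeSeq 2 k) (hg : 0 ≤ g) (hga : g ≤ 2)
    (hsum : Summable fun n => |dTerm f s n|) :
    (1 + g * (p : ℝ) ^ (-s)) * (1 - ((p : ℝ) ^ (-s)) ^ 2) ≤ ∑' k, dTerm f s (p ^ k) := by
  have hx : 0 ≤ (p : ℝ) ^ (-s) := Real.rpow_nonneg (Nat.cast_nonneg _) _
  have hu : Summable fun k => dTerm f s (p ^ k) :=
    Summable.of_abs (hsum.comp_injective (Nat.pow_right_injective hp))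
  refine le_trans ?_ (two_terms_le_tsum (fun k => ?_) hu)
  · rw [dTerm_pow, dTerm_pow, hf, hf]
    simpa [heckeSeq] using weight_mul_le hg hga hx
  · rw [dTerm_pow, hf, heckeSeq_two]
    exact mul_nonneg (by positivity) (pow_nonneg hx _)

/-- Inert primes with `a = 0`. -/
lemma local_inert_zero {f : ℕ → ℝ} {p : ℕ} {s : ℝ} (hp : 2 ≤ p)
    (hf : ∀ k, f (p ^ k) = heckeSeq 0 k)
    (hsum : Summable fun n => |dTerm f s n|) :
    1 - ((p : ℝ) ^ (-s)) ^ 2 ≤ ∑' k, dTerm f s (p ^ k) := by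
  set x := (p : ℝ) ^ (-s)
  have hu : Summable fun k => dTerm f s (p ^ k) :=
    Summable.of_abs (hsum.comp_injective (Nat.pow_right_injective hp))
  set S := ∑' k, dTerm f s (p ^ k)
  have h0 := hu.sum_add_tsum_nat_add 2
  have hshift : (∑' k, dTerm f s (p ^ (k + 2))) = -x ^ 2 * S := by
    rw [← tsum_mul_left]
    refine tsum_congr fun k => ?_
    rw [dTerm_pow, dTerm_pow, hf, hf, heckeSeq_zero_add_two, pow_add]
    ring
  rw [hshift] at h0
  have h1 : ∑ k ∈ Finset.range 2, dTerm f s (p ^ k) = 1 := by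
    simp [Finset.sum_range_succ, dTerm_pow, hf, heckeSeq]
  rw [h1] at h0
  have hS : S * (1 + x ^ 2) = 1 := by linarith
  nlinarith [mul_nonneg (mul_nonneg (sq_nonneg x) (sq_nonneg x)) (sq_nonneg x),
    mul_nonneg (sq_nonneg x) (sq_nonneg x), sq_nonneg x]

/-- Lower bound for the Asai coefficient at `p`, on the Frobenius class. -/
def classWeight (g : GL (Fin 2) (ZMod 3)) : ℝ :=
  if (g : Matrix (Fin 2) (Fin 2) (ZMod 3)).det = 1 then
    (if g = 1 ∨ g = -1 then 8 else 0)
  else (if g ^ 2 = 1 then 2 else 0)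

/-- Class weights are nonnegative. -/
lemma classWeight_nonneg (g : GL (Fin 2) (ZMod 3)) : 0 ≤ classWeight g := by
  unfold classWeight; split_ifs <;> norm_num

/-- The class weight is invariant under conjugation. -/
lemma classWeight_conj (x y : GL (Fin 2) (ZMod 3)) :
    classWeight (x * y * x⁻¹) = classWeight y := by
  have hdet : ((x * y * x⁻¹ : GL (Fin 2) (ZMod 3)) : Matrix (Fin 2) (Fin 2) (ZMod 3)).det =
      (y : Matrix (Fin 2) (Fin 2) (ZMod 3)).det := Matrix.det_units_conj x _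
  have h1 : (x * y * x⁻¹ = 1 ∨ x * y * x⁻¹ = -1) ↔ (y = 1 ∨ y = -1) := by
    rw [mul_inv_eq_one, mul_eq_left, mul_inv_eq_iff_eq_mul, neg_one_mul, ← mul_neg_one,
      mul_right_inj]
  have h2 : (x * y * x⁻¹) ^ 2 = 1 ↔ y ^ 2 = 1 := by
    rw [conj_pow, mul_inv_eq_one, mul_eq_left]
  unfold classWeight
  simp only [hdet, h1, h2]

/-- The class weight is invariant under inversion. -/
lemma classWeight_inv (y : GL (Fin 2) (ZMod 3)) : classWeight y⁻¹ = classWeight y := by
  have hne : (y : Matrix (Fin 2) (Fin 2) (ZMod 3)).det ≠ 0 :=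
    ((Matrix.isUnit_iff_isUnit_det _).mp y.isUnit).ne_zero
  have hmul : ((y⁻¹ : GL (Fin 2) (ZMod 3)) : Matrix (Fin 2) (Fin 2) (ZMod 3)).det *
      (y : Matrix (Fin 2) (Fin 2) (ZMod 3)).det = 1 := by
    rw [← Matrix.det_mul, ← Units.val_mul, inv_mul_cancel, Units.val_one, Matrix.det_one]
  have key : ∀ u v : ZMod 3, u * v = 1 → (u = 1 ↔ v = 1) := by decide
  have h1 : (y⁻¹ = 1 ∨ y⁻¹ = -1) ↔ (y = 1 ∨ y = -1) := by
    rw [inv_eq_one, inv_eq_iff_eq_inv,
      show (-1 : GL (Fin 2) (ZMod 3))⁻¹ = -1 from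
        inv_eq_of_mul_eq_one_right (by rw [neg_one_mul, neg_neg])]
  have h2 : (y⁻¹) ^ 2 = 1 ↔ y ^ 2 = 1 := by rw [inv_pow, inv_eq_one]
  unfold classWeight
  simp only [key _ _ hmul, h1, h2]

-- the linter overflows its recursion depth on this declaration
set_option linter.constructorNameAsVariable false in
/-- The mean of the class weight over `GL₂(𝔽₃)` is `5/6`. -/
lemma mean_classWeight :
    (∑ g : GL (Fin 2) (ZMod 3), classWeight g) / Fintype.card (GL (Fin 2) (ZMod 3)) = 5 / 6 := by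
  have e : ∀ (P : Matrix (Fin 2) (Fin 2) (ZMod 3) → Prop) [DecidablePred P]
      (Q : GL (Fin 2) (ZMod 3) → Prop) [DecidablePred Q] (n : ℕ),
      (univ.filter fun m => m.det ≠ 0 ∧ P m).card = n →
      (∀ g : GL (Fin 2) (ZMod 3), Q g ↔ P g.val) → (univ.filter Q).card = n := by
    intro P _ Q _ n hn hQ
    rw [← hn]
    refine Finset.card_bij (fun g _ => g.val) (fun g hg => ?_)
      (fun a _ b _ h => Units.ext h) (fun m hm => ?_)
    · simp only [mem_filter, mem_univ, true_and] at hg ⊢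
      exact ⟨((Matrix.isUnit_iff_isUnit_det _).mp g.isUnit).ne_zero, (hQ g).mp hg⟩
    · simp only [mem_filter, mem_univ, true_and] at hm
      obtain ⟨hdet, hP⟩ := hm
      exact ⟨Matrix.GeneralLinearGroup.mkOfDetNeZero m hdet,
        by simp only [mem_filter, mem_univ, true_and]; exact (hQ _).mpr hP, rfl⟩
  have h4 : (univ.filter fun g : GL (Fin 2) (ZMod 3) =>
      (g : Matrix (Fin 2) (Fin 2) (ZMod 3)).det = 1 ∧ (g = 1 ∨ g = -1)).card = 2 :=
    e (fun m => m.det = 1 ∧ (m = 1 ∨ m = -1)) _ 2 (by decide +kernel)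
      fun g => by simp only [Units.ext_iff, Units.val_neg, Units.val_one]
  have h2 : (univ.filter fun g : GL (Fin 2) (ZMod 3) =>
      ¬(g : Matrix (Fin 2) (Fin 2) (ZMod 3)).det = 1 ∧ g ^ 2 = 1).card = 12 :=
    e (fun m => ¬m.det = 1 ∧ m * m = 1) _ 12 (by decide +kernel)
      fun g => by simp only [Units.ext_iff, pow_two, Units.val_mul, Units.val_one]
  have hc : Fintype.card (GL (Fin 2) (ZMod 3)) = 48 := by
    rw [← Finset.card_univ, ← Finset.filter_true (univ : Finset (GL (Fin 2) (ZMod 3)))]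
    exact e (fun _ => True) _ 48 (by decide +kernel) fun _ => Iff.rfl
  have hsplit : ∀ g : GL (Fin 2) (ZMod 3), classWeight g =
      (if (g : Matrix (Fin 2) (Fin 2) (ZMod 3)).det = 1 ∧ (g = 1 ∨ g = -1) then (8 : ℝ) else 0) +
      (if ¬(g : Matrix (Fin 2) (Fin 2) (ZMod 3)).det = 1 ∧ g ^ 2 = 1 then (2 : ℝ) else 0) := by
    intro g
    unfold classWeight
    by_cases h : (g : Matrix (Fin 2) (Fin 2) (ZMod 3)).det = 1 <;> simp [h]
  simp_rw [hsplit]
  rw [Finset.sum_add_distrib, ← Finset.sum_filter, ← Finset.sum_filter, Finset.sum_const,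
    Finset.sum_const, h4, h2, hc]
  norm_num

end Fermat.Agent.LT.Asai
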