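import Fermat.Agent.LT.Asai.Residue
import Fermat.Agent.Petersson.Average
import Mathlib.MeasureTheory.Integral.Prod

/-!
# Rankin–Selberg unfolding with a vanishing period

If a `Γ₀(N)`-invariant function of rapid decay has period zero, the Mellin transform of its
constant term along horizontal lines stays bounded as `s → 1+`.
-/

set_option autoImplicit false

open MeasureTheory CongruenceSubgroup Matrix.SpecialLinearGroup
open scoped Modular UpperHalfPlane MatrixGroups ENNReal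

noncomputable section

namespace Fermat.Agent.LT.Asai

open Fermat.Agent.Petersson

/-- `SL₂(ℤ)` preserves the hyperbolic measure. -/
lemma measurePreserving_sl (γ : SL(2, ℤ)) :
    MeasurePreserving (fun τ : ℍ => γ • τ) volume volume :=
  measurePreserving_smul (mapGL ℝ γ) (volume : Measure ℍ)

lemma measurableEmbedding_sl (γ : SL(2, ℤ)) : MeasurableEmbedding (fun τ : ℍ => γ • τ) :=
  measurableEmbedding_const_smul (mapGL ℝ γ)

lemma measurable_sl (γ : SL(2, ℤ)) : Measurable (fun τ : ℍ => γ • τ) :=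
  (measurePreserving_sl γ).measurable

/-- Half the indicator of the fundamental domain, real valued. -/
def fdWeight (τ : ℍ) : ℝ := (baseWeight τ).toReal

lemma measurable_fdWeight : Measurable fdWeight := measurable_baseWeight.ennreal_toReal

lemma fdWeight_nonneg (τ : ℍ) : 0 ≤ fdWeight τ := ENNReal.toReal_nonneg

lemma enorm_fdWeight (τ : ℍ) : ‖fdWeight τ‖ₑ = baseWeight τ := by
  rw [Real.enorm_of_nonneg (fdWeight_nonneg τ), fdWeight, ENNReal.ofReal_toReal]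
  unfold baseWeight
  by_cases h : τ ∈ (𝒟 : Set ℍ) <;> simp [h]

/-- The weight of the fundamental domain is half its indicator. -/
lemma fdWeight_eq_indicator (τ : ℍ) :
    fdWeight τ = (𝒟 : Set ℍ).indicator (fun _ => (1 : ℝ) / 2) τ := by
  unfold fdWeight baseWeight
  by_cases h : τ ∈ (𝒟 : Set ℍ) <;> simp [h]

lemma ae_tsum_baseWeight : ∀ᵐ τ : ℍ, ∑' γ : SL(2, ℤ), baseWeight (γ • τ) = 1 := by
  filter_upwards [isTiling_baseWeight.tsum_eq] with τ hτ
  let e : SL(2, ℤ) ≃ 𝒮ℒ := (MonoidHom.ofInjective mapGL_injective).toEquiv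
  rw [← e.tsum_eq] at hτ
  exact hτ

/-- Tiling identity for integrals. -/
lemma integral_eq_tiled {F : ℍ → ℂ} (hF : Measurable F)
    (hfin : ∫⁻ τ, baseWeight τ * ∑' γ : SL(2, ℤ), ‖F (γ • τ)‖ₑ ≠ ∞) :
    Integrable F ∧ Integrable (fun τ => fdWeight τ • ∑' γ : SL(2, ℤ), F (γ • τ)) ∧
      ∫ τ, F τ = ∫ τ, fdWeight τ • ∑' γ : SL(2, ℤ), F (γ • τ) := by
  have : Countable SL(2, ℤ) := inferInstance
  set G : SL(2, ℤ) → ℍ → ℂ := fun γ τ => fdWeight (γ • τ) • F τ
  set H : SL(2, ℤ) → ℍ → ℂ := fun γ τ => fdWeight τ • F (γ • τ)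
  have hGm : ∀ γ, Measurable (G γ) := fun γ =>
    (measurable_fdWeight.comp (measurable_sl γ)).smul hF
  have hHm : ∀ γ, Measurable (H γ) := fun γ =>
    measurable_fdWeight.smul (hF.comp (measurable_sl γ))
  have hswap : ∀ γ, (fun τ => G γ (γ⁻¹ • τ)) = H γ⁻¹ := fun γ => by
    funext τ
    simp [G, H]
  have hGH : ∀ γ, ∫⁻ τ, ‖G γ τ‖ₑ = ∫⁻ τ, ‖H γ⁻¹ τ‖ₑ := fun γ => by
    rw [← (measurePreserving_sl γ⁻¹).lintegral_comp_emb (measurableEmbedding_sl γ⁻¹)
      fun τ => ‖G γ τ‖ₑ, ← hswap γ]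
  have hHsum : ∫⁻ τ, ∑' γ, ‖H γ τ‖ₑ = ∫⁻ τ, baseWeight τ * ∑' γ : SL(2, ℤ), ‖F (γ • τ)‖ₑ := by
    refine lintegral_congr fun τ => ?_
    simp only [H, enorm_smul, enorm_fdWeight]
    exact ENNReal.tsum_mul_left
  have hH' : ∑' γ, ∫⁻ τ, ‖H γ τ‖ₑ ≠ ∞ := by
    rw [← lintegral_tsum fun γ => (hHm γ).enorm.aemeasurable, hHsum]
    exact hfin
  have hG' : ∑' γ, ∫⁻ τ, ‖G γ τ‖ₑ ≠ ∞ := by
    rw [tsum_congr hGH]
    exact ((Equiv.inv SL(2, ℤ)).tsum_eq fun γ => ∫⁻ τ, ‖H γ τ‖ₑ).trans_ne hH'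
  have hsumG : ∀ᵐ τ : ℍ, ∑' γ, ‖G γ τ‖ₑ = ‖F τ‖ₑ ∧ ∑' γ, G γ τ = F τ := by
    filter_upwards [ae_tsum_baseWeight] with τ hτ
    refine ⟨?_, ?_⟩
    · simp only [G, enorm_smul, enorm_fdWeight]
      rw [ENNReal.tsum_mul_right, hτ, one_mul]
    · have h1 : HasSum (fun γ : SL(2, ℤ) => fdWeight (γ • τ)) 1 := by
        have hne : ∑' γ : SL(2, ℤ), baseWeight (γ • τ) ≠ ∞ := by rw [hτ]; exact ENNReal.one_ne_top
        have := ENNReal.hasSum_toReal hne
        rwa [← ENNReal.tsum_toReal_eq fun γ => ENNReal.ne_top_of_tsum_ne_top hne γ, hτ,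
          ENNReal.toReal_one] at this
      rw [(h1.smul_const (F τ)).tsum_eq, one_smul]
  have hFint : Integrable F := by
    refine ⟨hF.aestronglyMeasurable, ?_⟩
    rw [hasFiniteIntegral_iff_enorm, ← lintegral_congr_ae (hsumG.mono fun τ h => h.1),
      lintegral_tsum fun γ => (hGm γ).enorm.aemeasurable]
    exact hG'.lt_top
  have hHint : Integrable (fun τ => fdWeight τ • ∑' γ : SL(2, ℤ), F (γ • τ)) := by
    have hfinae : ∀ᵐ τ : ℍ, ∑' γ, ‖H γ τ‖ₑ < ∞ :=
      ae_lt_top (Measurable.tsum fun γ => (hHm γ).enorm) (by rwa [hHsum])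
    have heq : (fun τ => fdWeight τ • ∑' γ : SL(2, ℤ), F (γ • τ)) = fun τ => ∑' γ, H γ τ := by
      funext τ
      simp only [H, tsum_const_smul'']
    rw [heq]
    refine ⟨?_, ?_⟩
    · exact ((Measurable.tsum hHm).aestronglyMeasurable)
    · rw [hasFiniteIntegral_iff_enorm]
      refine lt_of_le_of_lt (lintegral_mono fun τ => enorm_tsum_le_tsum_enorm) ?_
      rw [hHsum]
      exact hfin.lt_top
  refine ⟨hFint, hHint, ?_⟩
  calc ∫ τ, F τ = ∫ τ, ∑' γ, G γ τ :=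
        integral_congr_ae (hsumG.mono fun τ h => h.2.symm)
    _ = ∑' γ, ∫ τ, G γ τ := integral_tsum (fun γ => (hGm γ).aestronglyMeasurable) hG'
    _ = ∑' γ, ∫ τ, H γ⁻¹ τ := by
        refine tsum_congr fun γ => ?_
        rw [← (measurePreserving_sl γ⁻¹).integral_comp (measurableEmbedding_sl γ⁻¹) (G γ),
          ← hswap γ]
    _ = ∑' γ, ∫ τ, H γ τ := (Equiv.inv SL(2, ℤ)).tsum_eq fun γ => ∫ τ, H γ τ
    _ = ∫ τ, ∑' γ, H γ τ := (integral_tsum (fun γ => (hHm γ).aestronglyMeasurable) hH').symm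
    _ = _ := by
        refine integral_congr_ae (Filter.Eventually.of_forall fun τ => ?_)
        simp only [H, tsum_const_smul'']

/-! ### The strip -/

/-- `T ^ n` times a matrix with given bottom row. -/
def cosetMatrix (vn : CoprimePair × ℤ) : SL(2, ℤ) := ModularGroup.T ^ vn.2 * rowMatrix vn.1

lemma cosetMatrix_row (vn : CoprimePair × ℤ) :
    cosetMatrix vn 1 0 = vn.1.1.1 ∧ cosetMatrix vn 1 1 = vn.1.1.2 := by
  obtain ⟨h0, h1⟩ := rowMatrix_spec vn.1
  constructor <;>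
  simp [cosetMatrix, h0, h1]

lemma cosetMatrix_bijective : Function.Bijective cosetMatrix := by
  refine ⟨?_, fun γ => ?_⟩
  · rintro ⟨v, n⟩ ⟨v', n'⟩ h
    obtain ⟨a0, a1⟩ := cosetMatrix_row (v, n)
    obtain ⟨b0, b1⟩ := cosetMatrix_row (v', n')
    rw [h] at a0 a1
    obtain rfl : v = v' := Subtype.ext (Prod.ext (a0.symm.trans b0) (a1.symm.trans b1))
    have h2 : ModularGroup.T ^ n = ModularGroup.T ^ n' := mul_right_cancel h
    have h3 := congrArg (fun g : SL(2, ℤ) => g 0 1) h2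
    simp [ModularGroup.coe_T_zpow] at h3
    rw [h3]
  · set v : CoprimePair := ⟨(γ 1 0, γ 1 1), by simpa using ModularGroup.bottom_row_coprime γ⟩
    obtain ⟨h0, h1⟩ := rowMatrix_spec v
    set M := rowMatrix v
    have hdγ : γ 0 0 * γ 1 1 - γ 0 1 * γ 1 0 = 1 := by
      rw [← Matrix.det_fin_two]; exact γ.det_coe
    have hdM : M 0 0 * M 1 1 - M 0 1 * M 1 0 = 1 := by
      rw [← Matrix.det_fin_two]; exact M.det_coe
    have hrow0 : (γ * M⁻¹ : SL(2, ℤ)) 1 0 = 0 := by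
      rw [Matrix.SpecialLinearGroup.coe_mul, Matrix.SpecialLinearGroup.coe_inv,
        Matrix.adjugate_fin_two, Matrix.mul_apply, Fin.sum_univ_two]
      simp [h0, h1, v, mul_comm]
    have hrow1 : (γ * M⁻¹ : SL(2, ℤ)) 1 1 = 1 := by
      rw [Matrix.SpecialLinearGroup.coe_mul, Matrix.SpecialLinearGroup.coe_inv,
        Matrix.adjugate_fin_two, Matrix.mul_apply, Fin.sum_univ_two]
      simp [v] at h0 h1 ⊢
      rw [h0, h1] at hdM
      linarith
    set A := γ * M⁻¹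
    have hdA : A 0 0 * A 1 1 - A 0 1 * A 1 0 = 1 := by
      rw [← Matrix.det_fin_two]; exact A.det_coe
    rw [hrow0, hrow1, mul_one, mul_zero, sub_zero] at hdA
    refine ⟨(v, A 0 1), ?_⟩
    have hA : ModularGroup.T ^ (A 0 1) = A := by
      ext i j
      rw [ModularGroup.coe_T_zpow]
      fin_cases i <;> fin_cases j <;> simp [hdA, hrow0, hrow1]
    show ModularGroup.T ^ (A 0 1) * M = γ
    rw [hA, inv_mul_cancel_right]

variable {N : ℕ} [NeZero N] {Φ : ℍ → ℂ}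

/-- `Im ^ s * Φ` on the strip `0 ≤ Re < 1`. -/
def stripFun (Φ : ℍ → ℂ) (s : ℝ) : ℍ → ℂ :=
  {τ : ℍ | τ.re ∈ Set.Ico (0 : ℝ) 1}.indicator fun τ => ((τ.im ^ s : ℝ) : ℂ) * Φ τ

lemma measurable_stripFun (hΦ : Measurable Φ) (s : ℝ) : Measurable (stripFun Φ s) :=
  ((Complex.measurable_ofReal.comp (UpperHalfPlane.continuous_im.measurable.pow_const s)).mul
    hΦ).indicator (measurableSet_Ico.preimage UpperHalfPlane.continuous_re.measurable)

omit [NeZero N] in
lemma stripFun_cosetMatrix (hinv : ∀ γ ∈ Gamma0 N, ∀ τ : ℍ, Φ (γ • τ) = Φ τ) (s : ℝ)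
    (vn : CoprimePair × ℤ) (τ : ℍ) :
    stripFun Φ s (cosetMatrix vn • τ) =
      if vn.2 = -⌊(rowMatrix vn.1 • τ).re⌋ then cosetTerm Φ τ s vn.1 else 0 := by
  obtain ⟨v, n⟩ := vn
  set w := rowMatrix v • τ
  have hT : ModularGroup.T ^ n ∈ Gamma0 N := by
    rw [Gamma0_mem, ModularGroup.coe_T_zpow]
    simp
  have hmem : (ModularGroup.T ^ n • w).re ∈ Set.Ico (0 : ℝ) 1 ↔ n = -⌊w.re⌋ := by
    rw [ModularGroup.re_T_zpow_smul, Set.mem_Ico]
    constructor
    · rintro ⟨h1, h2⟩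
      have : ⌊w.re⌋ = -n := Int.floor_eq_iff.mpr ⟨by push_cast; linarith, by push_cast; linarith⟩
      omega
    · intro h
      subst h
      push_cast
      constructor <;> linarith [Int.floor_le w.re, Int.lt_floor_add_one w.re]
  show stripFun Φ s ((ModularGroup.T ^ n * rowMatrix v) • τ) = _
  rw [mul_smul]
  unfold stripFun
  by_cases h : n = -⌊w.re⌋
  · rw [if_pos h, Set.indicator_of_mem (show ModularGroup.T ^ n • w ∈
        {τ : ℍ | τ.re ∈ Set.Ico (0 : ℝ) 1} from hmem.mpr h), hinv _ hT, ModularGroup.im_T_zpow_smul,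
      cosetTerm, im_rowMatrix_smul]
  · rw [if_neg h, Set.indicator_of_notMem (show ModularGroup.T ^ n • w ∉
        {τ : ℍ | τ.re ∈ Set.Ico (0 : ℝ) 1} from fun hm => h (hmem.mp hm))]

omit [NeZero N] in
/-- The inner sum at a point. -/
lemma tsum_stripFun (hinv : ∀ γ ∈ Gamma0 N, ∀ τ : ℍ, Φ (γ • τ) = Φ τ) (s : ℝ) (τ : ℍ) :
    ∑' γ : SL(2, ℤ), stripFun Φ s (γ • τ) = ∑' v, cosetTerm Φ τ s v ∧
    ∑' γ : SL(2, ℤ), ‖stripFun Φ s (γ • τ)‖ₑ = ∑' v, ‖cosetTerm Φ τ s v‖ₑ := by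
  have hinj : Function.Injective
      (fun v : CoprimePair => (v, -⌊(rowMatrix v • τ).re⌋)) := fun a b h => congrArg Prod.fst h
  constructor
  · rw [← (Equiv.ofBijective _ cosetMatrix_bijective).tsum_eq]
    simp only [Equiv.ofBijective_apply, stripFun_cosetMatrix hinv]
    rw [← hinj.tsum_eq]
    · simp
    · intro vn hvn
      by_cases h : vn.2 = -⌊(rowMatrix vn.1 • τ).re⌋
      · exact ⟨vn.1, Prod.ext rfl h.symm⟩
      · exact absurd (if_neg h) hvn
  · rw [← (Equiv.ofBijective _ cosetMatrix_bijective).tsum_eq]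
    simp only [Equiv.ofBijective_apply, stripFun_cosetMatrix hinv]
    rw [← hinj.tsum_eq]
    · simp
    · intro vn hvn
      by_cases h : vn.2 = -⌊(rowMatrix vn.1 • τ).re⌋
      · exact ⟨vn.1, Prod.ext rfl h.symm⟩
      · refine absurd ?_ hvn
        show ‖ite _ _ _‖ₑ = 0
        rw [if_neg h, enorm_zero]

omit [NeZero N] in
/-- The slots of a measurable function are measurable. -/
lemma measurable_slot (hΦ : Measurable Φ) (r : ZMod N × ZMod N) :
    Measurable (slot N Φ r) := by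
  unfold slot
  split_ifs with h
  · exact hΦ.comp (measurable_sl _)
  · exact measurable_const

/-- The period: the sum over the classes, integrated over the fundamental domain. -/
def period (N : ℕ) [NeZero N] (Φ : ℍ → ℂ) : ℂ :=
  ∫ τ in (𝒟 : Set ℍ), ∑ r : ZMod N × ZMod N, slot N Φ r τ

lemma half_le_im {τ : ℍ} (hτ : τ ∈ (𝒟 : Set ℍ)) : 1 / 2 ≤ τ.im := by
  nlinarith [ModularGroup.three_le_four_mul_im_sq_of_mem_fd hτ, τ.im_pos]

/-- **Unfolding with a vanishing period.** -/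
theorem exists_strip_bound (hΦ : Measurable Φ)
    (hinv : ∀ γ ∈ Gamma0 N, ∀ τ : ℍ, Φ (γ • τ) = Φ τ)
    {C : ℝ} (hdec : ∀ γ : SL(2, ℤ), ∀ τ ∈ (𝒟 : Set ℍ), ‖Φ (γ • τ)‖ * τ.im ^ 9 ≤ C)
    (hP : period N Φ = 0) :
    ∃ K : ℝ, ∀ s : ℝ, 1 < s → s ≤ 3 / 2 →
      Integrable (stripFun Φ s) ∧ ‖∫ τ, stripFun Φ s τ‖ ≤ K := by
  classical
  obtain ⟨CE, hCE, heis⟩ := exists_eisenstein_bound N
  set M : ℕ := Fintype.card (ZMod N × ZMod N)
  have hC0 : 0 ≤ C := le_trans (mul_nonneg (norm_nonneg _) (by positivity))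
    (hdec 1 UpperHalfPlane.I ModularGroup.I_mem_fd)
  refine ⟨(M : ℝ) * (C * CE) * (volume (𝒟 : Set ℍ)).toReal, fun s hs hs' => ?_⟩
  have hcl : ∀ τ ∈ (𝒟 : Set ℍ), ∀ r : ZMod N × ZMod N,
      |classSum N τ s r - kappa N s| ≤ CE * τ.im ^ 9 := fun τ hτ r =>
    (heis τ hτ _ _ s hs hs').2
  have hbd : ∀ τ ∈ (𝒟 : Set ℍ), ∀ γ : SL(2, ℤ), ‖Φ (γ • τ)‖ ≤ C / τ.im ^ 9 := fun τ hτ γ =>
    (le_div_iff₀ (pow_pos τ.im_pos 9)).mpr (hdec γ τ hτ)
  have hB0 : ∀ τ : ℍ, 0 ≤ C / τ.im ^ 9 := fun τ => div_nonneg hC0 (pow_pos τ.im_pos 9).le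
  have hre : ∀ τ ∈ (𝒟 : Set ℍ), _ := fun τ hτ =>
    regroup hinv hs (hB0 τ) (hbd τ hτ) fun r => (heis τ hτ _ _ s hs hs').1
  have hz1 := one_le_zetaAway N hs
  -- the absolute version
  have hnormbd : ∀ τ ∈ (𝒟 : Set ℍ),
      ∑' v, ‖cosetTerm Φ τ s v‖ₑ ≤
        ENNReal.ofReal ((M : ℝ) * (C * ((2 : ℝ) ^ 9 * |kappa N s| + CE))) := by
    intro τ hτ
    set Φ' : ℍ → ℂ := fun z => ((‖Φ z‖ : ℝ) : ℂ)
    have hinv' : ∀ γ ∈ Gamma0 N, ∀ z : ℍ, Φ' (γ • z) = Φ' z := fun γ hγ z => by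
      simp only [Φ', hinv γ hγ z]
    have hbd' : ∀ γ : SL(2, ℤ), ‖Φ' (γ • τ)‖ ≤ C / τ.im ^ 9 := fun γ => by
      simp only [Φ', Complex.norm_real, norm_norm]
      exact hbd τ hτ γ
    obtain ⟨-, heq⟩ := regroup hinv' hs (hB0 τ) hbd' fun r => (heis τ hτ _ _ s hs hs').1
    have hsum := (hre τ hτ).1
    rw [show (fun v => cosetTerm Φ' τ s v) = fun v => ((‖cosetTerm Φ τ s v‖ : ℝ) : ℂ) from funext
      fun v => by
        simp only [cosetTerm, Φ', norm_mul, Complex.norm_real, Real.norm_eq_abs,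
          abs_of_nonneg (eisTerm_nonneg τ s v.1)]
        push_cast
        rfl, ← Complex.ofReal_tsum] at heq
    simp only [← ofReal_norm]
    rw [← ENNReal.ofReal_tsum_of_nonneg (fun v => norm_nonneg _) hsum]
    refine ENNReal.ofReal_le_ofReal ?_
    have hnn : 0 ≤ ∑' v, ‖cosetTerm Φ τ s v‖ := tsum_nonneg fun v => norm_nonneg _
    have h1 : ‖∑ r, slot N Φ' r τ * (classSum N τ s r : ℂ)‖ ≤
        (M : ℝ) * (C * ((2 : ℝ) ^ 9 * |kappa N s| + CE)) := by
      refine (norm_sum_le _ _).trans ((Finset.sum_le_card_nsmul _ _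
        (C * ((2 : ℝ) ^ 9 * |kappa N s| + CE)) fun r _ => ?_).trans_eq
          (by rw [Finset.card_univ, nsmul_eq_mul]))
      rw [norm_mul, Complex.norm_real, Real.norm_eq_abs]
      have hy9 : 0 < τ.im ^ 9 := pow_pos τ.im_pos 9
      have hlow : (1 : ℝ) ≤ (2 : ℝ) ^ 9 * τ.im ^ 9 := by
        rw [← mul_pow]; exact one_le_pow₀ (by linarith [half_le_im hτ])
      have hc1 : |classSum N τ s r| ≤ ((2 : ℝ) ^ 9 * |kappa N s| + CE) * τ.im ^ 9 := by
        have := abs_sub_abs_le_abs_sub (classSum N τ s r) (kappa N s)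
        nlinarith [hcl τ hτ r, mul_nonneg (abs_nonneg (kappa N s)) (sub_nonneg.mpr hlow)]
      calc ‖slot N Φ' r τ‖ * |classSum N τ s r|
          ≤ (C / τ.im ^ 9) * (((2 : ℝ) ^ 9 * |kappa N s| + CE) * τ.im ^ 9) :=
            mul_le_mul (norm_slot_le (hB0 τ) hbd' r) hc1 (abs_nonneg _) (hB0 τ)
        _ = _ := by field_simp
    rw [heq, norm_mul, Complex.norm_real, Complex.norm_real, Real.norm_eq_abs,
      Real.norm_eq_abs, abs_of_nonneg hnn, abs_of_nonneg (zero_le_one.trans hz1)] at h1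
    exact le_trans (le_mul_of_one_le_left hnn hz1) h1
  have hfin : ∫⁻ τ, baseWeight τ * ∑' γ : SL(2, ℤ), ‖stripFun Φ s (γ • τ)‖ₑ ≠ ∞ := by
    refine ne_top_of_le_ne_top ?_ (lintegral_mono (g := fun τ =>
      baseWeight τ * ENNReal.ofReal ((M : ℝ) * (C * ((2 : ℝ) ^ 9 * |kappa N s| + CE)))) fun τ => ?_)
    · rw [lintegral_mul_const _ measurable_baseWeight]
      exact ENNReal.mul_ne_top lintegral_baseWeight_lt_top.ne ENNReal.ofReal_ne_top
    · by_cases hτ : τ ∈ (𝒟 : Set ℍ)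
      · rw [(tsum_stripFun hinv s τ).2]
        exact mul_le_mul' le_rfl (hnormbd τ hτ)
      · simp [baseWeight, hτ]
  obtain ⟨hint, hint2, heq⟩ := integral_eq_tiled (measurable_stripFun hΦ s) hfin
  refine ⟨hint, ?_⟩
  set A : ℍ → ℂ := fun τ => ∑' γ : SL(2, ℤ), stripFun Φ s (γ • τ)
  set Pf : ℍ → ℂ := fun τ => ∑ r : ZMod N × ZMod N, slot N Φ r τ
  set z : ℂ := (zetaAway N s : ℂ)
  set κ : ℂ := (kappa N s : ℂ)
  have hfdm : MeasurableSet (𝒟 : Set ℍ) := ModularGroup.isClosed_fd.measurableSet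
  have hA : IntegrableOn A (𝒟 : Set ℍ) := by
    have : (fun τ => fdWeight τ • A τ) = (𝒟 : Set ℍ).indicator (fun τ => (1 / 2 : ℝ) • A τ) := by
      funext τ
      rw [fdWeight_eq_indicator]
      by_cases h : τ ∈ (𝒟 : Set ℍ) <;> simp [h]
    rw [this, integrable_indicator_iff hfdm] at hint2
    have h2 : IntegrableOn (fun τ => (2 : ℝ) • ((1 / 2 : ℝ) • A τ)) (𝒟 : Set ℍ) :=
      Integrable.smul (2 : ℝ) hint2
    exact h2.congr_fun (fun τ _ => by simp) hfdm
  have hPint : IntegrableOn Pf (𝒟 : Set ℍ) := by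
    refine Measure.integrableOn_of_bounded (M := (M : ℝ) * (C * (2 : ℝ) ^ 9)) volume_fd_lt_top.ne
      ((Finset.measurable_sum _ fun r _ => measurable_slot hΦ r).aestronglyMeasurable) ?_
    refine (ae_restrict_mem hfdm).mono fun τ hτ => ?_
    refine (norm_sum_le _ _).trans ((Finset.sum_le_card_nsmul _ _ (C * (2 : ℝ) ^ 9)
      fun r _ => (norm_slot_le (hB0 τ) (hbd τ hτ) r).trans ?_).trans_eq
        (by rw [Finset.card_univ, nsmul_eq_mul]))
    rw [div_le_iff₀ (pow_pos τ.im_pos 9), mul_assoc, ← mul_pow]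
    exact le_mul_of_one_le_right hC0 (one_le_pow₀ (by linarith [half_le_im hτ]))
  have hkey : ∀ τ ∈ (𝒟 : Set ℍ), ‖z * A τ - κ * Pf τ‖ ≤ (M : ℝ) * (C * CE) := by
    intro τ hτ
    simp only [A, (tsum_stripFun hinv s τ).1, z, ← (hre τ hτ).2, Pf, Finset.mul_sum,
      ← Finset.sum_sub_distrib]
    refine (norm_sum_le _ _).trans ((Finset.sum_le_card_nsmul _ _ (C * CE) fun r _ => ?_).trans_eq
      (by rw [Finset.card_univ, nsmul_eq_mul]))
    rw [show slot N Φ r τ * (classSum N τ s r : ℂ) - κ * slot N Φ r τ =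
      slot N Φ r τ * ((classSum N τ s r - kappa N s : ℝ) : ℂ) by simp only [κ]; push_cast; ring,
      norm_mul, Complex.norm_real, Real.norm_eq_abs]
    calc ‖slot N Φ r τ‖ * |classSum N τ s r - kappa N s|
        ≤ (C / τ.im ^ 9) * (CE * τ.im ^ 9) :=
          mul_le_mul (norm_slot_le (hB0 τ) (hbd τ hτ) r) (hcl τ hτ r) (abs_nonneg _) (hB0 τ)
      _ = C * CE := by field_simp [pow_ne_zero 9 τ.im_ne_zero]
  have hI : ‖z * ∫ τ in (𝒟 : Set ℍ), A τ‖ ≤
      (M : ℝ) * (C * CE) * (volume (𝒟 : Set ℍ)).toReal := by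
    have h := norm_setIntegral_le_of_norm_le_const (μ := volume) volume_fd_lt_top hkey
    rw [integral_sub (hA.const_mul z) (hPint.const_mul κ), integral_const_mul, integral_const_mul,
      show ∫ τ in (𝒟 : Set ℍ), Pf τ = 0 from hP, mul_zero, sub_zero] at h
    exact h
  rw [norm_mul, Complex.norm_real, Real.norm_eq_abs, abs_of_nonneg (zero_le_one.trans hz1)] at hI
  have hhalf : ∫ τ, stripFun Φ s τ = (1 / 2 : ℝ) • ∫ τ in (𝒟 : Set ℍ), A τ := by
    rw [heq, ← integral_smul, ← integral_indicator hfdm]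
    refine integral_congr_ae (Filter.Eventually.of_forall fun τ => ?_)
    simp only [fdWeight_eq_indicator]
    by_cases h : τ ∈ (𝒟 : Set ℍ) <;> simp [h, A]
  rw [hhalf, norm_smul, Real.norm_eq_abs, abs_of_pos (by norm_num : (0 : ℝ) < 1 / 2)]
  nlinarith [norm_nonneg (∫ τ in (𝒟 : Set ℍ), A τ)]

/-- The integral over the upper half plane as an iterated integral. -/
lemma integral_eq_iterated {F : ℍ → ℂ} (hF : Integrable F) :
    ∫ τ, F τ = ∫ y in Set.Ioi (0 : ℝ), ∫ x : ℝ,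
      ((y ^ 2)⁻¹ : ℝ) • F (UpperHalfPlane.ofComplex (⟨x, y⟩ : ℂ)) := by
  set G : ℂ → ℂ := fun z => ((z.im ^ 2)⁻¹ : ℝ) • F (UpperHalfPlane.ofComplex z)
  set S : Set (ℝ × ℝ) := Set.univ ×ˢ Set.Ioi (0 : ℝ)
  have hm : Measurable fun z : ℍ => NNReal.mk z.im z.im_pos.le :=
    UpperHalfPlane.continuous_im.measurable.subtype_mk
  have hd : Measurable fun z : ℍ => (1 / NNReal.mk z.im z.im_pos.le : NNReal) ^ 2 :=
    (hm.const_div 1).pow_const 2
  have hGF : (fun τ : ℍ => ((1 / NNReal.mk τ.im τ.im_pos.le : NNReal) ^ 2) • F τ) =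
      G ∘ UpperHalfPlane.coe := by
    funext τ
    simp [G, NNReal.smul_def]
  have hcoe : MeasurePreserving UpperHalfPlane.coe (volume.comap UpperHalfPlane.coe)
      (volume.restrict (Set.range UpperHalfPlane.coe)) :=
    ⟨UpperHalfPlane.measurable_coe, UpperHalfPlane.measurableEmbedding_coe.map_comap _⟩
  have hrange : Complex.measurableEquivRealProd.symm ⁻¹' Set.range UpperHalfPlane.coe = S := by
    ext p
    simp [S, UpperHalfPlane.range_coe, Complex.measurableEquivRealProd]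
  have hprod := (Complex.volume_preserving_equiv_real_prod.symm _).restrict_preimage_emb
    Complex.measurableEquivRealProd.symm.measurableEmbedding (Set.range UpperHalfPlane.coe)
  rw [hrange] at hprod
  have hint : Integrable (G ∘ UpperHalfPlane.coe) (volume.comap UpperHalfPlane.coe) := by
    rw [UpperHalfPlane.volume_def, integrable_withDensity_iff_integrable_smul hd, hGF] at hF
    exact hF
  rw [hcoe.integrable_comp_emb UpperHalfPlane.measurableEmbedding_coe,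
    ← hprod.integrable_comp_emb Complex.measurableEquivRealProd.symm.measurableEmbedding] at hint
  rw [UpperHalfPlane.volume_def, integral_withDensity_eq_integral_smul hd, hGF]
  show ∫ x, G (UpperHalfPlane.coe x) ∂_ = _
  rw [hcoe.integral_comp UpperHalfPlane.measurableEmbedding_coe G,
    ← hprod.integral_comp Complex.measurableEquivRealProd.symm.measurableEmbedding G]
  have hS : (volume : Measure (ℝ × ℝ)).restrict S =
      (volume : Measure ℝ).prod (volume.restrict (Set.Ioi (0 : ℝ))) := by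
    rw [Measure.volume_eq_prod, ← Measure.prod_restrict, Measure.restrict_univ]
  rw [hS] at hint ⊢
  refine (integral_prod_symm _ hint).trans ?_
  rfl

end Fermat.Agent.LT.Asai
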