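import Fermat.Agent.LT.Asai.EulerBound
import Fermat.Agent.LT.Asai.Unfold
import Mathlib.MeasureTheory.Integral.DominatedConvergence

/-!
# Positivity forces a nonzero period

If the mean along horizontal lines of an invariant function of rapid decay is `∑ f(n)/n w(n y)`, the
Dirichlet series of `f` tends to infinity as `s → 1+` and the Mellin moments of `w` are bounded
below, then the period does not vanish.
-/

set_option autoImplicit false

open MeasureTheory CongruenceSubgroup Filter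
open scoped Modular UpperHalfPlane MatrixGroups Topology

noncomputable section

namespace Fermat.Agent.LT.Asai

/-- The Mellin moment of the archimedean profile. -/
def moment (w : ℝ → ℝ) (s : ℝ) : ℝ := ∫ u in Set.Ioi (0 : ℝ), u ^ (s - 2) * w u

lemma integral_moment_scale (w : ℝ → ℝ) {a : ℝ} (ha : 0 < a) (s : ℝ) :
    ∫ y in Set.Ioi (0 : ℝ), y ^ (s - 2) * w (a * y) = a ^ (1 - s) * moment w s := by
  have h := integral_comp_mul_left_Ioi (fun u => u ^ (s - 2) * w u) (0 : ℝ) ha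
  rw [mul_zero, smul_eq_mul] at h
  have h2 : ∫ y in Set.Ioi (0 : ℝ), (a * y) ^ (s - 2) * w (a * y) =
      a ^ (s - 2) * ∫ y in Set.Ioi (0 : ℝ), y ^ (s - 2) * w (a * y) := by
    rw [← integral_const_mul]
    refine setIntegral_congr_fun measurableSet_Ioi fun y hy => ?_
    rw [Real.mul_rpow ha.le (le_of_lt hy), mul_assoc]
  rw [h2] at h
  have hpow : 0 < a ^ (s - 2) := Real.rpow_pos_of_pos ha _
  apply mul_left_cancel₀ hpow.ne'
  rw [h, moment, ← mul_assoc, ← Real.rpow_add ha, show s - 2 + (1 - s) = (-1 : ℝ) by ring,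
    Real.rpow_neg_one]

lemma integrableOn_moment_scale {w : ℝ → ℝ} {a : ℝ} (ha : 0 < a) {s : ℝ}
    (hw : IntegrableOn (fun u => u ^ (s - 2) * w u) (Set.Ioi 0)) :
    IntegrableOn (fun y => y ^ (s - 2) * w (a * y)) (Set.Ioi 0) := by
  have h := (integrableOn_Ioi_comp_mul_left_iff (fun u => u ^ (s - 2) * w u) (0 : ℝ) ha).mpr
    (by rwa [mul_zero])
  refine IntegrableOn.congr_fun (Integrable.div_const h (a ^ (s - 2))) (fun y hy => ?_)
    measurableSet_Ioi
  simp only [Real.mul_rpow ha.le (le_of_lt (Set.mem_Ioi.mp hy))]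
  field_simp [(Real.rpow_pos_of_pos ha (s - 2)).ne']

lemma dTerm_eq (f : ℕ → ℝ) (hf0 : f 0 = 0) (s : ℝ) (n : ℕ) :
    f n / n * (n : ℝ) ^ (1 - s) = dTerm f s n := by
  rcases Nat.eq_zero_or_pos n with rfl | hn
  · simp [dTerm, hf0]
  · have hn' : (0 : ℝ) < n := Nat.cast_pos.mpr hn
    rw [dTerm, Real.rpow_sub hn', Real.rpow_one, Real.rpow_neg hn'.le]
    field_simp

variable {N : ℕ} [NeZero N] {Φ : ℍ → ℂ}

/-- **A nonzero period from positivity.** -/
theorem period_ne_zero (hΦ : Measurable Φ)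
    (hinv : ∀ γ ∈ Gamma0 N, ∀ τ : ℍ, Φ (γ • τ) = Φ τ)
    {C : ℝ} (hdec : ∀ γ : SL(2, ℤ), ∀ τ ∈ (𝒟 : Set ℍ), ‖Φ (γ • τ)‖ * τ.im ^ 9 ≤ C)
    {f : ℕ → ℝ} (hf0 : f 0 = 0) (hsum : ∀ s : ℝ, 1 < s → Summable fun n => |dTerm f s n|)
    (htop : Tendsto (dSum f) (𝓝[>] 1) atTop)
    {w : ℝ → ℝ}
    (hwint : ∀ s : ℝ, 1 < s → s ≤ 3 / 2 →
      IntegrableOn (fun u => u ^ (s - 2) * w u) (Set.Ioi 0))
    {m : ℝ} (hm : 0 < m) (hwlow : ∀ s : ℝ, 1 < s → s ≤ 3 / 2 → m ≤ moment w s)
    {c₀ : ℂ} (hc₀ : c₀ ≠ 0)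
    (hconst : ∀ y : ℝ, 0 < y →
      ∫ x in Set.Ico (0 : ℝ) 1, Φ (UpperHalfPlane.ofComplex (⟨x, y⟩ : ℂ)) =
        c₀ * ((∑' n : ℕ, f n / n * w (n * y) : ℝ) : ℂ)) :
    period N Φ ≠ 0 := by
  intro hP
  obtain ⟨K, hK⟩ := exists_strip_bound hΦ hinv hdec hP
  have hbound : ∀ s : ℝ, 1 < s → s ≤ 3 / 2 → ‖c₀‖ * (m * |dSum f s|) ≤ K := by
    intro s hs hs'
    obtain ⟨hint, hle⟩ := hK s hs hs'
    set F : ℕ → ℝ → ℝ := fun n y => f n / n * (y ^ (s - 2) * w (n * y)) with hF
    have hFint : ∀ n, IntegrableOn (F n) (Set.Ioi 0) := fun n => by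
      rcases Nat.eq_zero_or_pos n with rfl | hn
      · simp [hF, hf0]
      · exact (integrableOn_moment_scale (Nat.cast_pos.mpr hn) (hwint s hs hs')).const_mul _
    set A : ℝ := ∫ u in Set.Ioi (0 : ℝ), u ^ (s - 2) * |w u|
    have hFnorm : ∀ n, ∫ y in Set.Ioi (0 : ℝ), ‖F n y‖ = |dTerm f s n| * A := fun n => by
      rcases Nat.eq_zero_or_pos n with rfl | hn
      · simp [hF, hf0, dTerm]
      · have hn' : (0 : ℝ) < n := Nat.cast_pos.mpr hn
        calc ∫ y in Set.Ioi (0 : ℝ), ‖F n y‖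
            = |f n / n| * ∫ y in Set.Ioi (0 : ℝ), y ^ (s - 2) * |w (n * y)| := by
              rw [← integral_const_mul]
              refine setIntegral_congr_fun measurableSet_Ioi fun y hy => ?_
              simp only [hF, Real.norm_eq_abs, abs_mul, abs_of_nonneg
                (Real.rpow_nonneg (le_of_lt (Set.mem_Ioi.mp hy)) (s - 2))]
          _ = |f n / n| * ((n : ℝ) ^ (1 - s) * A) := by
              rw [integral_moment_scale (fun u => |w u|) hn' s]; rfl
          _ = _ := by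
              rw [← mul_assoc, ← dTerm_eq f hf0, abs_mul,
                abs_of_nonneg (Real.rpow_nonneg hn'.le (1 - s))]
    have hFsum : Summable fun n => ∫ y in Set.Ioi (0 : ℝ), ‖F n y‖ := by
      simp only [hFnorm]
      exact (hsum s hs).mul_right A
    have hswap := integral_tsum_of_summable_integral_norm hFint hFsum
    have hval : ∫ y in Set.Ioi (0 : ℝ), ∑' n, F n y = dSum f s * moment w s := by
      rw [← hswap, dSum, ← tsum_mul_right]
      refine tsum_congr fun n => ?_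
      simp only [hF, integral_const_mul]
      rcases Nat.eq_zero_or_pos n with rfl | hn
      · simp [hf0, dTerm]
      · rw [integral_moment_scale w (Nat.cast_pos.mpr hn) s, ← mul_assoc, dTerm_eq f hf0]
    have hstrip : ∫ τ, stripFun Φ s τ = c₀ * ((dSum f s * moment w s : ℝ) : ℂ) := by
      rw [integral_eq_iterated hint, ← hval, ← integral_complex_ofReal, ← integral_const_mul]
      refine setIntegral_congr_fun measurableSet_Ioi fun y hy => ?_
      have hy' : 0 < y := hy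
      have hin : ∀ x : ℝ, ((y ^ 2)⁻¹ : ℝ) • stripFun Φ s (UpperHalfPlane.ofComplex (⟨x, y⟩ : ℂ)) =
          (Set.Ico (0 : ℝ) 1).indicator (fun x => ((y ^ (s - 2) : ℝ) : ℂ) *
            Φ (UpperHalfPlane.ofComplex (⟨x, y⟩ : ℂ))) x := by
        intro x
        have hoc := UpperHalfPlane.ofComplex_apply_of_im_pos (z := (⟨x, y⟩ : ℂ)) hy'
        rw [hoc]
        set τ : ℍ := ⟨⟨x, y⟩, hy'⟩
        have hre : τ.re = x := rfl
        have him : τ.im = y := rfl
        by_cases hx : x ∈ Set.Ico (0 : ℝ) 1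
        · rw [Set.indicator_of_mem hx, hoc, stripFun, Set.indicator_of_mem
            (show τ ∈ {τ : ℍ | τ.re ∈ Set.Ico (0 : ℝ) 1} from hx), him, Complex.real_smul,
            ← mul_assoc, ← Complex.ofReal_mul, Real.rpow_sub hy', Real.rpow_two, inv_mul_eq_div]
        · rw [Set.indicator_of_notMem hx, stripFun, Set.indicator_of_notMem
            (show τ ∉ {τ : ℍ | τ.re ∈ Set.Ico (0 : ℝ) 1} from hx), smul_zero]
      simp only [hin]
      rw [integral_indicator measurableSet_Ico, integral_const_mul, hconst y hy']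
      simp only [hF]
      rw [mul_left_comm, ← Complex.ofReal_mul, ← tsum_mul_left]
      congr 2
      exact tsum_congr fun n => by ring
    rw [hstrip, norm_mul, Complex.norm_real, Real.norm_eq_abs, abs_mul,
      abs_of_pos (hm.trans_le (hwlow s hs hs'))] at hle
    refine le_trans (mul_le_mul_of_nonneg_left ?_ (norm_nonneg _)) hle
    rw [mul_comm]
    exact mul_le_mul_of_nonneg_left (hwlow s hs hs') (abs_nonneg _)
  have hev := (htop.eventually_gt_atTop (K / (‖c₀‖ * m))).and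
    (Ioc_mem_nhdsGT (show (1 : ℝ) < 3 / 2 by norm_num))
  obtain ⟨s, hlt, hs⟩ := hev.exists
  have hpos : 0 < ‖c₀‖ * m := mul_pos (norm_pos_iff.mpr hc₀) hm
  rw [div_lt_iff₀ hpos] at hlt
  nlinarith [hbound s hs.1 hs.2, le_abs_self (dSum f s)]

end Fermat.Agent.LT.Asai
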