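import Fermat.Agent.LT.Asai.Link
import Fermat.Agent.LT.Asai.UpperBound.Main

/-!
# The Asai series of the descent form, unconditionally

The upper bound supplies the square bound, so the series of the descent form converges absolutely
for `s > 1` and tends to infinity at `1`.
-/

set_option autoImplicit false

noncomputable section

open Filter NumberField Fermat.Agent.LT.Places
open scoped Topology

namespace Fermat.Agent.LT.Asai

local notation "Γℚ" => (AlgebraicClosure ℚ ≃ₐ[ℚ] AlgebraicClosure ℚ)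

/-- **The series of the descent form.** -/
theorem exists_series {ρ : Γℚ →* GL (Fin 2) (ZMod 3)} (hρ : IsSupersingularRep ρ)
    {Ψ : GL (Fin 2) (ZMod 3) →* GL (Fin 2) (ℤ√(-2))}
    (hΨ : ∀ g, Matrix.GeneralLinearGroup.map FLT.ExplicitLift.red (Ψ g) = g)
    {N : ℕ} (hN : 0 < N) (ι : ℤ√(-2) →+* ℂ) {φ : Y (Level.principal EisField N hN) → ℂ}
    {lam : Ideal (𝓞 EisField) → ℂ} (T : Finset ℕ) (hcusp : IsSphericalCuspForm φ)
    (hne : ∃ y, φ y ≠ 0) (hsys : IsHeckeEigenSystem N φ lam)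
    (hreal : ∀ 𝔭 : Ideal (𝓞 EisField), 𝔭.IsPrime → 𝔭 ≠ ⊥ → (N : 𝓞 EisField) ∉ 𝔭 →
      (lam 𝔭).im = 0)
    (hval : ∀ p : ℕ, p.Prime → p ∉ T → ¬ p ∣ 3 * N →
      ∀ A : ValuationSubring (AlgebraicClosure ℚ), A.LiesOverPrime p →
        (∀ τ ∈ A.inertiaSubgroupIn ℚ, ρ τ = 1) →
        ∀ σ : Γℚ, A.IsFrobeniusAt σ p →
          ∀ (𝔭 : Ideal (𝓞 EisField)) (f : ℕ), 𝔭.IsPrime → Ideal.absNorm 𝔭 = p ^ f →
            Final.InQuaternion (ρ σ ^ f) →
            lam 𝔭 = (Real.sqrt p : ℂ) ^ f *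
              ι ((Ψ (ρ σ ^ f) : GL (Fin 2) (ℤ√(-2))) : Matrix (Fin 2) (Fin 2) (ℤ√(-2))).trace) :
    ∃ R : ℕ, 0 < R ∧ 3 * N ∣ R ∧ ∀ M : ℕ, 0 < M → R ∣ M →
      (∀ s : ℝ, 1 < s → Summable fun n => |dTerm (asaiCoeff M lam) s n|) ∧
        Tendsto (dSum (asaiCoeff M lam)) (𝓝[>] 1) atTop := by
  obtain ⟨R, hR, h3, h⟩ := exists_modulus_series hρ hΨ hN ι T hcusp hne hsys hreal hval
  exact ⟨R, hR, h3, fun M hM hRM =>
    h M hM hRM (UpperBound.exists_square_bound hN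
    (((dvd_mul_left N 3).trans h3).trans hRM) (((dvd_mul_right 3 N).trans h3).trans hRM)
    hcusp hne hsys hreal)⟩

end Fermat.Agent.LT.Asai
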