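import Fermat.Agent.LT.Asai.Restrict.DiaBase
import Fermat.Agent.LT.Asai.Restrict.Main
import Fermat.Agent.LT.Asai.Series

/-!
# A nonzero period of a test vector of the descent form

`IsTestVector` lists what the choice of the test vector provides; the Asai series then gives a
nonzero period over the upper half plane at one of the translates.
-/

set_option autoImplicit false

noncomputable section

open NumberField Fermat.Agent.LT.Places

namespace Fermat.Agent.LT.Asai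

local notation "Γℚ" => (AlgebraicClosure ℚ ≃ₐ[ℚ] AlgebraicClosure ℚ)

/-- A cusp form of level `M` with the eigenvalues `lam` and a nonzero coefficient at `3 ^ e δ` at
the coset of `dia t`, where `t` is `1 / M` at the places dividing `M` and `1` elsewhere. -/
structure IsTestVector (N : ℕ) (P : Finset ℕ) (lam : Ideal (𝓞 EisField) → ℂ) {M : ℕ} (hM : 0 < M)
    (φ : Y (Level.principal EisField M hM) → ℂ) (t : (FinAdele EisField)ˣ) (e : ℕ) : Prop where
  level_dvd : N ∣ M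
  three_dvd : 3 ∣ M
  sq_not_dvd : ∀ q : ℕ, q.Prime → q ≠ 3 → ¬ q ^ 2 ∣ M
  primes_dvd : ∀ p ∈ P, p ∣ M
  cusp : IsSphericalCuspForm φ
  eigen : IsHeckeEigenSystem M φ lam
  toPlace_bad : ∀ v : FinPlace EisField, (M : 𝓞 EisField) ∈ v.asIdeal →
    toPlace v ((M : FinAdele EisField) * (t : FinAdele EisField)) = 1
  toPlace_good : ∀ v : FinPlace EisField, (M : 𝓞 EisField) ∉ v.asIdeal →
    toPlace v (t : FinAdele EisField) = 1
  coef_ne_zero : Whittaker.coef φ
    ((dia t : GLFin EisField) : GLFin EisField ⧸ (Level.principal EisField M hM).toSubgroup)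
    (((3 ^ e : ℕ) : EisField) * eisDelta) ≠ 0

instance neZero_period_level (M e : ℕ) [NeZero M] : NeZero ((3 ^ e * M) ^ 2) :=
  ⟨pow_ne_zero 2 (mul_ne_zero (pow_ne_zero e three_ne_zero) (NeZero.ne M))⟩

variable {ρ : Γℚ →* GL (Fin 2) (ZMod 3)} {Ψ : GL (Fin 2) (ZMod 3) →* GL (Fin 2) (ℤ√(-2))}

/-- **A nonzero period.** The test vectors may be asked for any finite set of primes in the
level. -/
theorem exists_testVector_period (hρ : IsSupersingularRep ρ)
    (hΨ : ∀ g, Matrix.GeneralLinearGroup.map FLT.ExplicitLift.red (Ψ g) = g)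
    {N : ℕ} (hN : 0 < N) (ι : ℤ√(-2) →+* ℂ) {φ : Y (Level.principal EisField N hN) → ℂ}
    {lam : Ideal (𝓞 EisField) → ℂ} (T : Finset ℕ) (hcusp : IsSphericalCuspForm φ)
    (hne : ∃ y, φ y ≠ 0) (hsys : IsHeckeEigenSystem N φ lam)
    (hreal : ∀ 𝔭 : Ideal (𝓞 EisField), 𝔭.IsPrime → 𝔭 ≠ ⊥ → (N : 𝓞 EisField) ∉ 𝔭 →
      (lam 𝔭).im = 0)
    (hval : ∀ p : ℕ, p.Prime → p ∉ T → ¬ p ∣ 3 * N →
      ∀ A : ValuationSubring (AlgebraicClosure ℚ), A.LiesOverPrime p →
        (∀ τ ∈ A.inertiaSubgroupIn ℚ, ρ τ = 1) →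
        ∀ σ : Γℚ, A.IsFrobeniusAt σ p →
          ∀ (𝔭 : Ideal (𝓞 EisField)) (f : ℕ), 𝔭.IsPrime → Ideal.absNorm 𝔭 = p ^ f →
            Final.InQuaternion (ρ σ ^ f) →
            lam 𝔭 = (Real.sqrt p : ℂ) ^ f *
              ι ((Ψ (ρ σ ^ f) : GL (Fin 2) (ℤ√(-2))) : Matrix (Fin 2) (Fin 2) (ℤ√(-2))).trace)
    (htv : ∀ P : Finset ℕ, (∀ p ∈ P, p.Prime) → ∃ (M : ℕ) (hM : 0 < M)
      (φ' : Y (Level.principal EisField M hM) → ℂ) (t : (FinAdele EisField)ˣ) (e : ℕ),
      IsTestVector N P lam hM φ' t e) :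
    ∃ (M : ℕ) (hM : 0 < M) (φ' : Y (Level.principal EisField M hM) → ℂ)
      (t : (FinAdele EisField)ˣ) (e : ℕ) (j : ℕ),
      haveI : NeZero M := ⟨hM.ne'⟩
      IsTestVector N ∅ lam hM φ' t e ∧ j < 3 ^ e * M ∧
        period ((3 ^ e * M) ^ 2) (unitSum φ'
          ((dia t : GLFin EisField) : GLFin EisField ⧸ (Level.principal EisField M hM).toSubgroup)
          (3 ^ e * M) j) ≠ 0 := by
  obtain ⟨R, hR, h3N, hser⟩ := exists_series hρ hΨ hN ι T hcusp hne hsys hreal hval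
  obtain ⟨M, hM, φ', t, e, h⟩ := htv R.primeFactors fun p hp => Nat.prime_of_mem_primeFactors hp
  have : NeZero M := ⟨hM.ne'⟩
  obtain ⟨hsum, htop⟩ := hser (M * R) (Nat.mul_pos hM hR) (dvd_mul_left R M)
  have hco : asaiCoeff (M * R) lam = asaiCoeff M lam := asaiCoeff_congr lam fun p hp =>
    ⟨fun hd => (hp.dvd_mul.mp hd).elim id fun hR' =>
      h.primes_dvd p (Nat.mem_primeFactors.mpr ⟨hp, hR', hR.ne'⟩),
      fun hd => hd.mul_right R⟩
  rw [hco] at hsum htop
  have hNv : ∀ v : FinPlace EisField, (M : 𝓞 EisField) ∉ v.asIdeal →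
      (N : 𝓞 EisField) ∉ v.asIdeal := fun v hv hd => hv (by
    obtain ⟨c, hc⟩ := h.level_dvd
    rw [hc, Nat.cast_mul]
    exact Ideal.mul_mem_right _ _ hd)
  have H : RestrictHyp φ' lam M M (3 ^ e) (dia t : GLFin EisField) :=
    { cuspEigen := h.cusp.cuspEigen
      pos := hM
      eigen := h.eigen
      real := fun v hv => hreal v.asIdeal v.isPrime v.ne_bot (hNv v hv)
      modulus_pos := hM
      three_dvd := h.three_dvd
      level_dvd := dvd_rfl
      good := fun v hv => isGoodAt_principal hM hv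
      integral := dia_mem_intGroup h.toPlace_good
      fixed := fixed_dia hM hM dvd_rfl h.toPlace_bad h.toPlace_good
      base_pos := pow_pos three_pos e
      base_dvd := ⟨e, pow_dvd_pow_of_dvd h.three_dvd e⟩
      coef_ne_zero := h.coef_ne_zero }
  obtain ⟨j, hj, hP⟩ := exists_period_ne_zero H hsum htop
  exact ⟨M, hM, φ', t, e, j, ⟨h.level_dvd, h.three_dvd, h.sq_not_dvd, by simp, h.cusp, h.eigen,
    h.toPlace_bad, h.toPlace_good, h.coef_ne_zero⟩, hj, hP⟩

end Fermat.Agent.LT.Asai
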