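import Fermat.Agent.LT.Asai.Eisenstein
import Mathlib.NumberTheory.ModularForms.CongruenceSubgroups
import Mathlib.RingTheory.Coprime.Lemmas
import Mathlib.Analysis.PSeries

/-!
# Regrouping the Eisenstein sum of a `Γ₀(N)`-invariant function

For a `Γ₀(N)`-invariant `Φ` the values `Φ (γ τ)` depend only on the bottom row of `γ` modulo `N`
up to units.  Summing `Φ` against the Eisenstein terms over all classes gives `ζ^{(N)}(2s)` times
the sum of `Φ(γ τ) Im(γ τ)^s` over `Γ∞ \ SL₂(ℤ)`.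
-/

set_option autoImplicit false

open Matrix CongruenceSubgroup
open scoped Modular UpperHalfPlane MatrixGroups

noncomputable section

namespace Fermat.Agent.LT.Asai

variable (N : ℕ) [NeZero N]

/-- A pair modulo `N` that is a unit times the bottom row of a matrix in `SL₂(ℤ)`. -/
def IsGoodRes (r : ZMod N × ZMod N) : Prop :=
  ∃ γ : SL(2, ℤ), ∃ u : (ZMod N)ˣ,
    (γ 1 0 : ZMod N) = u * r.1 ∧ (γ 1 1 : ZMod N) = u * r.2

open Classical in
/-- The value of an invariant function attached to a residue pair. -/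
def slot (Φ : ℍ → ℂ) (r : ZMod N × ZMod N) (τ : ℍ) : ℂ :=
  if h : IsGoodRes N r then Φ (h.choose • τ) else 0

variable {N} {Φ : ℍ → ℂ} (hinv : ∀ γ ∈ Gamma0 N, ∀ τ : ℍ, Φ (γ • τ) = Φ τ)

omit [NeZero N] in
include hinv in
lemma apply_smul_eq_of_rows {γ γ' : SL(2, ℤ)} (v : (ZMod N)ˣ)
    (h0 : (γ' 1 0 : ZMod N) = v * (γ 1 0 : ZMod N))
    (h1 : (γ' 1 1 : ZMod N) = v * (γ 1 1 : ZMod N)) (τ : ℍ) : Φ (γ' • τ) = Φ (γ • τ) := by
  have hmem : γ' * γ⁻¹ ∈ Gamma0 N := by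
    rw [Gamma0_mem]
    have e : (γ' * γ⁻¹ : SL(2, ℤ)) 1 0 = γ' 1 0 * γ 1 1 - γ' 1 1 * γ 1 0 := by
      rw [Matrix.SpecialLinearGroup.coe_mul, Matrix.SpecialLinearGroup.coe_inv,
        Matrix.adjugate_fin_two, Matrix.mul_apply, Fin.sum_univ_two]
      simp [sub_eq_add_neg]
    rw [e]
    push_cast
    rw [h0, h1]
    ring
  have := hinv _ hmem (γ • τ)
  rwa [smul_smul, inv_mul_cancel_right] at this

omit [NeZero N] in
include hinv in
/-- The slot of `r` is `Φ (γ • τ)` for any `γ` whose bottom row is a unit multiple of `r`. -/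
lemma slot_eq {r : ZMod N × ZMod N} (γ : SL(2, ℤ)) (u : (ZMod N)ˣ)
    (h0 : (γ 1 0 : ZMod N) = u * r.1) (h1 : (γ 1 1 : ZMod N) = u * r.2) (τ : ℍ) :
    slot N Φ r τ = Φ (γ • τ) := by
  have h : IsGoodRes N r := ⟨γ, u, h0, h1⟩
  rw [slot, dif_pos h]
  obtain ⟨u', e0, e1⟩ := h.choose_spec
  refine apply_smul_eq_of_rows hinv (u' * u⁻¹) ?_ ?_ τ
  · rw [e0, h0, Units.val_mul, mul_assoc, Units.inv_mul_cancel_left]
  · rw [e1, h1, Units.val_mul, mul_assoc, Units.inv_mul_cancel_left]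

omit [NeZero N] in
/-- A bound on the translates of `Φ` bounds every slot. -/
lemma norm_slot_le {τ : ℍ} {B : ℝ} (hB0 : 0 ≤ B) (hB : ∀ γ : SL(2, ℤ), ‖Φ (γ • τ)‖ ≤ B)
    (r : ZMod N × ZMod N) : ‖slot N Φ r τ‖ ≤ B := by
  unfold slot
  split_ifs
  · exact hB _
  · rwa [norm_zero]

/-- A coprime pair of integers. -/
abbrev CoprimePair : Type := {v : ℤ × ℤ // IsCoprime v.1 v.2}

/-- A matrix with given bottom row. -/
def rowMatrix (v : CoprimePair) : SL(2, ℤ) :=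
  (ModularGroup.bottom_row_surj (R := ℤ) (a := ![v.1.1, v.1.2]) (by simpa using v.2)).choose

/-- The bottom row of `rowMatrix v` is `v`. -/
lemma rowMatrix_spec (v : CoprimePair) :
    rowMatrix v 1 0 = v.1.1 ∧ rowMatrix v 1 1 = v.1.2 := by
  have h := (ModularGroup.bottom_row_surj (R := ℤ) (a := ![v.1.1, v.1.2])
    (by simpa using v.2)).choose_spec.2
  exact ⟨congrFun h 0, congrFun h 1⟩

/-- `Im (rowMatrix v • τ) ^ s` is the Eisenstein term at `v`. -/
lemma im_rowMatrix_smul (v : CoprimePair) (τ : ℍ) (s : ℝ) :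
    (rowMatrix v • τ).im ^ s = eisTerm τ s v.1 := by
  obtain ⟨h0, h1⟩ := rowMatrix_spec v
  rw [eisTerm, ModularGroup.im_smul_eq_div_normSq, Complex.normSq_eq_norm_sq]
  congr 3
  simp [UpperHalfPlane.denom, h0, h1]

lemma eisTerm_zero (τ : ℍ) {s : ℝ} (hs : 0 < s) : eisTerm τ s 0 = 0 := by
  simp [eisTerm, Real.zero_rpow hs.ne']

lemma eisTerm_mul (τ : ℍ) (s : ℝ) {m : ℕ} (v : ℤ × ℤ) :
    eisTerm τ s ((m : ℤ) * v.1, (m : ℤ) * v.2) = (m : ℝ) ^ (-(2 * s)) * eisTerm τ s v := by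
  simp only [eisTerm]
  have e : (((m : ℤ) * v.1 : ℤ) : ℂ) * τ + (((m : ℤ) * v.2 : ℤ) : ℂ) =
      (m : ℂ) * ((v.1 : ℂ) * τ + (v.2 : ℂ)) := by push_cast; ring
  rw [e, norm_mul, Complex.norm_natCast, mul_pow, div_mul_eq_div_div,
    div_right_comm, Real.div_rpow (div_nonneg τ.im_pos.le (sq_nonneg _)) (sq_nonneg _),
    show ((m : ℝ) ^ 2) ^ s = (m : ℝ) ^ (2 * s) by
      rw [← Real.rpow_natCast_mul (Nat.cast_nonneg m)]; norm_num,
    Real.rpow_neg (Nat.cast_nonneg m), div_eq_mul_inv, mul_comm]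

/-- A nonzero pair is a positive multiple of a coprime pair. -/
def mulPair : ℕ+ × CoprimePair → ℤ × ℤ :=
  fun mv => (((mv.1 : ℕ) : ℤ) * mv.2.1.1, ((mv.1 : ℕ) : ℤ) * mv.2.1.2)

lemma mulPair_injective : Function.Injective mulPair := by
  rintro ⟨m, v⟩ ⟨m', v'⟩ h
  have h1 : ((m : ℕ) : ℤ) * v.1.1 = ((m' : ℕ) : ℤ) * v'.1.1 := congrArg Prod.fst h
  have h2 : ((m : ℕ) : ℤ) * v.1.2 = ((m' : ℕ) : ℤ) * v'.1.2 := congrArg Prod.snd h
  have hm : (m : ℕ) = (m' : ℕ) := by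
    have g1 : Int.gcd v.1.1 v.1.2 = 1 := Int.isCoprime_iff_gcd_eq_one.mp v.2
    have g2 : Int.gcd v'.1.1 v'.1.2 = 1 := Int.isCoprime_iff_gcd_eq_one.mp v'.2
    have e := congrArg₂ Int.gcd h1 h2
    rwa [Int.gcd_mul_left, Int.gcd_mul_left, g1, g2, mul_one, mul_one, Int.natAbs_natCast,
      Int.natAbs_natCast] at e
  obtain rfl : m = m' := PNat.coe_injective hm
  have hne : ((m : ℕ) : ℤ) ≠ 0 := Int.natCast_ne_zero.mpr m.pos.ne'
  exact Prod.ext rfl (Subtype.ext (Prod.ext (mul_left_cancel₀ hne h1) (mul_left_cancel₀ hne h2)))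

lemma mem_range_mulPair {p : ℤ × ℤ} (hp : p ≠ 0) : p ∈ Set.range mulPair := by
  have hg : 0 < Int.gcd p.1 p.2 := Nat.pos_of_ne_zero fun h =>
    hp (Prod.ext (Int.gcd_eq_zero_iff.mp h).1 (Int.gcd_eq_zero_iff.mp h).2)
  obtain ⟨m, n, hmn, h1, h2⟩ := Int.exists_gcd_one hg
  refine ⟨(⟨Int.gcd p.1 p.2, hg⟩, ⟨(m, n), Int.isCoprime_iff_gcd_eq_one.mpr hmn⟩), ?_⟩
  exact Prod.ext ((mul_comm _ _).trans h1.symm) ((mul_comm _ _).trans h2.symm)

variable (N) in
/-- The residue pair of a pair of integers. -/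
def res (p : ℤ × ℤ) : ZMod N × ZMod N := ((p.1 : ZMod N), (p.2 : ZMod N))

omit [NeZero N] in
include hinv in
lemma slot_res_mulPair (mv : ℕ+ × CoprimePair) (τ : ℍ) :
    slot N Φ (res N (mulPair mv)) τ =
      if Nat.Coprime mv.1 N then Φ (rowMatrix mv.2 • τ) else 0 := by
  obtain ⟨m, v⟩ := mv
  obtain ⟨e0, e1⟩ := rowMatrix_spec v
  split_ifs with h
  · set u := ZMod.unitOfCoprime (m : ℕ) h
    refine slot_eq hinv (rowMatrix v) u⁻¹ ?_ ?_ τ
    · show ((rowMatrix v 1 0 : ℤ) : ZMod N) =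
        (u⁻¹ : (ZMod N)ˣ) * ((((m : ℕ) : ℤ) * v.1.1 : ℤ) : ZMod N)
      rw [e0]; push_cast
      rw [← ZMod.coe_unitOfCoprime (m : ℕ) h, Units.inv_mul_cancel_left]
    · show ((rowMatrix v 1 1 : ℤ) : ZMod N) =
        (u⁻¹ : (ZMod N)ˣ) * ((((m : ℕ) : ℤ) * v.1.2 : ℤ) : ZMod N)
      rw [e1]; push_cast
      rw [← ZMod.coe_unitOfCoprime (m : ℕ) h, Units.inv_mul_cancel_left]
  · rw [slot, dif_neg]
    rintro ⟨γ, u, h0, h1⟩
    obtain ⟨l, hl, hlm, hlN⟩ := Nat.Prime.not_coprime_iff_dvd.mp h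
    have : Fact l.Prime := ⟨hl⟩
    let π : ZMod N →+* ZMod l := ZMod.castHom hlN (ZMod l)
    have hm0 : ((m : ℕ) : ZMod l) = 0 := (ZMod.natCast_eq_zero_iff _ _).mpr hlm
    have c0 := congrArg π h0
    have c1 := congrArg π h1
    simp only [res, mulPair, map_mul, map_intCast, Int.cast_mul, Int.cast_natCast, map_natCast,
      hm0, zero_mul, mul_zero] at c0 c1
    have hdet := congrArg (fun z : ℤ => (z : ZMod l))
      (show γ 0 0 * γ 1 1 - γ 0 1 * γ 1 0 = 1 by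
        rw [← Matrix.det_fin_two]; exact γ.det_coe)
    push_cast at hdet
    rw [c0, c1, mul_zero, mul_zero, sub_zero] at hdet
    exact zero_ne_one hdet

/-- The sum of `Φ (γ τ) Im (γ τ) ^ s` over cosets of `Γ∞`. -/
def cosetTerm (Φ : ℍ → ℂ) (τ : ℍ) (s : ℝ) (v : CoprimePair) : ℂ :=
  (eisTerm τ s v.1 : ℂ) * Φ (rowMatrix v • τ)

variable (N) in
/-- `ζ^{(N)}(2s)`. -/
def zetaAway (s : ℝ) : ℝ :=
  ∑' m : ℕ+, if Nat.Coprime m N then ((m : ℕ) : ℝ) ^ (-(2 * s)) else 0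

variable (N) in
omit [NeZero N] in
lemma summable_zetaAway {s : ℝ} (hs : 1 < s) :
    Summable fun m : ℕ+ => if Nat.Coprime m N then ((m : ℕ) : ℝ) ^ (-(2 * s)) else 0 := by
  refine Summable.of_nonneg_of_le (fun m => ?_) (fun m => ?_)
    ((Real.summable_nat_rpow.mpr (show -(2 * s) < -1 by linarith)).comp_injective
      PNat.coe_injective)
  · split_ifs <;> positivity
  · simp only [Function.comp_apply]
    split_ifs
    · exact le_rfl
    · positivity

variable (N) in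
omit [NeZero N] in
/-- The zeta function away from `N` is at least `1` for real `s > 1`. -/
lemma one_le_zetaAway {s : ℝ} (hs : 1 < s) : 1 ≤ zetaAway N s := by
  have h := (summable_zetaAway N hs).sum_le_tsum {1} fun m _ => by split_ifs <;> positivity
  simpa [zetaAway] using h

variable (N) in
/-- Residue classes times lattice translates are all pairs of integers. -/
def resEquiv : (ZMod N × ZMod N) × (ℤ × ℤ) ≃ ℤ × ℤ :=
  Equiv.ofBijective
    (fun rj => ((rj.1.1.val : ℤ) + (N : ℤ) * rj.2.1, (rj.1.2.val : ℤ) + (N : ℤ) * rj.2.2)) <| by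
    have hN : (0 : ℤ) < N := Int.natCast_pos.mpr (Nat.pos_of_ne_zero (NeZero.ne N))
    have key : ∀ (r r' : ZMod N) (j j' : ℤ),
        (r.val : ℤ) + (N : ℤ) * j = (r'.val : ℤ) + (N : ℤ) * j' → r = r' ∧ j = j' := by
      intro r r' j j' h
      have hr : r = r' := by
        have := congrArg (fun z : ℤ => (z : ZMod N)) h
        simpa [ZMod.natCast_zmod_val] using this
      subst hr
      exact ⟨rfl, mul_left_cancel₀ hN.ne' (add_left_cancel h)⟩
    refine ⟨fun a b h => ?_, fun p => ?_⟩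
    · obtain ⟨a1, a2⟩ := key _ _ _ _ (congrArg Prod.fst h)
      obtain ⟨b1, b2⟩ := key _ _ _ _ (congrArg Prod.snd h)
      exact Prod.ext (Prod.ext a1 b1) (Prod.ext a2 b2)
    · refine ⟨(res N p, (p.1 / N, p.2 / N)), Prod.ext ?_ ?_⟩
      · show (((p.1 : ZMod N)).val : ℤ) + (N : ℤ) * (p.1 / N) = p.1
        rw [ZMod.val_intCast, Int.emod_add_mul_ediv]
      · show (((p.2 : ZMod N)).val : ℤ) + (N : ℤ) * (p.2 / N) = p.2
        rw [ZMod.val_intCast, Int.emod_add_mul_ediv]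

lemma res_resEquiv (rj : (ZMod N × ZMod N) × (ℤ × ℤ)) : res N (resEquiv N rj) = rj.1 := by
  obtain ⟨⟨r1, r2⟩, j⟩ := rj
  simp [resEquiv, res]

variable (N) in
/-- The Eisenstein sum of a residue class. -/
def classSum (τ : ℍ) (s : ℝ) (r : ZMod N × ZMod N) : ℝ :=
  ∑' j : ℤ × ℤ, eisTerm τ s ((r.1.val : ℤ) + (N : ℤ) * j.1, (r.2.val : ℤ) + (N : ℤ) * j.2)

include hinv in
/-- **Regrouping.** -/
theorem regroup {τ : ℍ} {s : ℝ} (hs : 1 < s) {B : ℝ} (hB0 : 0 ≤ B)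
    (hB : ∀ γ : SL(2, ℤ), ‖Φ (γ • τ)‖ ≤ B)
    (hsum : ∀ r : ZMod N × ZMod N, Summable fun j : ℤ × ℤ =>
      eisTerm τ s ((r.1.val : ℤ) + (N : ℤ) * j.1, (r.2.val : ℤ) + (N : ℤ) * j.2)) :
    Summable (fun v : CoprimePair => ‖cosetTerm Φ τ s v‖) ∧
      ∑ r, slot N Φ r τ * (classSum N τ s r : ℂ) =
        (zetaAway N s : ℂ) * ∑' v, cosetTerm Φ τ s v := by
  classical
  have hs0 : 0 < s := by linarith
  have heis : Summable fun p : ℤ × ℤ => eisTerm τ s p := by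
    rw [← (resEquiv N).summable_iff]
    refine (summable_prod_of_nonneg fun rj => eisTerm_nonneg _ _ _).mpr
      ⟨fun r => hsum r, Summable.of_finite⟩
  have hcn : Summable fun v : CoprimePair => ‖cosetTerm Φ τ s v‖ := by
    refine Summable.of_nonneg_of_le (fun v => norm_nonneg _) (fun v => ?_)
      ((heis.comp_injective Subtype.val_injective).mul_left B)
    rw [cosetTerm, norm_mul, Complex.norm_real, Real.norm_eq_abs,
      abs_of_nonneg (eisTerm_nonneg _ _ _), mul_comm]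
    exact mul_le_mul_of_nonneg_right (hB _) (eisTerm_nonneg _ _ _)
  refine ⟨hcn, ?_⟩
  set G : ℤ × ℤ → ℂ := fun p => slot N Φ (res N p) τ * (eisTerm τ s p : ℂ) with hG
  have hGs : Summable G := by
    refine Summable.of_norm_bounded (heis.mul_left B) fun p => ?_
    rw [hG, norm_mul, Complex.norm_real, Real.norm_eq_abs, abs_of_nonneg (eisTerm_nonneg _ _ _)]
    exact mul_le_mul_of_nonneg_right (norm_slot_le hB0 hB _) (eisTerm_nonneg _ _ _)
  have hL : ∑ r, slot N Φ r τ * (classSum N τ s r : ℂ) = ∑' p, G p := by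
    rw [← (resEquiv N).tsum_eq,
      Summable.tsum_prod (f := fun x => G (resEquiv N x)) ((resEquiv N).summable_iff.mpr hGs),
      tsum_fintype]
    refine Finset.sum_congr rfl fun r _ => ?_
    rw [classSum, Complex.ofReal_tsum, ← tsum_mul_left]
    refine tsum_congr fun j => ?_
    simp only [hG, res_resEquiv]
    rfl
  have hR : ∑' p, G p = ∑' mv : ℕ+ × CoprimePair, G (mulPair mv) :=
    (mulPair_injective.tsum_eq fun p hp => mem_range_mulPair fun h0 => hp (by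
      simp [hG, h0, eisTerm_zero τ hs0])).symm
  have hterm : ∀ mv : ℕ+ × CoprimePair, G (mulPair mv) =
      ((if Nat.Coprime mv.1 N then ((mv.1 : ℕ) : ℝ) ^ (-(2 * s)) else 0 : ℝ) : ℂ) *
        cosetTerm Φ τ s mv.2 := by
    intro mv
    show slot N Φ (res N (mulPair mv)) τ * (eisTerm τ s (mulPair mv) : ℂ) = _
    rw [slot_res_mulPair hinv, show eisTerm τ s (mulPair mv) =
      ((mv.1 : ℕ) : ℝ) ^ (-(2 * s)) * eisTerm τ s mv.2.1 from eisTerm_mul τ s _]
    split_ifs <;> simp [cosetTerm]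
    ring
  rw [hL, hR, tsum_congr hterm, zetaAway, Complex.ofReal_tsum]
  refine (tsum_mul_tsum_of_summable_norm (f := fun m : ℕ+ =>
    ((if Nat.Coprime m N then ((m : ℕ) : ℝ) ^ (-(2 * s)) else 0 : ℝ) : ℂ)) ?_ hcn).symm
  exact (summable_zetaAway N hs).norm.congr fun m => by rw [Complex.norm_real]

end Fermat.Agent.LT.Asai
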