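import Fermat.Agent.LT.Asai.Coeff

/-!
# Absolute convergence of the Euler series for `s > 1`

The trivial bound and the square bound at the split primes bound the finite Euler products of the
absolute values.
-/

set_option autoImplicit false

open Filter Finset
open scoped Topology

noncomputable section

namespace Fermat.Agent.LT.Asai

lemma abs_heckeSeq_le {a r : ℝ} (hr : 1 ≤ r) (ha : |a| ≤ r + r⁻¹) (k : ℕ) :
    |heckeSeq a k| ≤ ((k : ℝ) + 1) * r ^ k := by
  obtain ⟨z, hz, hza, hzr, hzr'⟩ := exists_root hr ha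
  have key : ∀ k : ℕ, (heckeSeq a k : ℂ) = ∑ i ∈ Finset.range (k + 1), z ^ i * z⁻¹ ^ (k - i) := by
    intro k
    induction k using Nat.twoStepInduction with
    | zero => simp [heckeSeq]
    | one => simp [heckeSeq, Finset.sum_range_succ, hza.symm, add_comm]
    | more k ih1 ih2 =>
      have h1 : ∀ m : ℕ, ∑ i ∈ Finset.range (m + 2), z ^ i * z⁻¹ ^ (m + 1 - i) =
          z ^ (m + 1) + z⁻¹ * ∑ i ∈ Finset.range (m + 1), z ^ i * z⁻¹ ^ (m - i) := fun m => by
        rw [Finset.sum_range_succ, Nat.sub_self, pow_zero, mul_one, add_comm, Finset.mul_sum]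
        congr 1
        refine Finset.sum_congr rfl fun i hi => ?_
        rw [Nat.succ_sub (Nat.lt_succ_iff.mp (Finset.mem_range.mp hi)), pow_succ]
        ring
      simp only [heckeSeq, Complex.ofReal_sub, Complex.ofReal_mul, ih1, ih2, ← hza]
      rw [h1 (k + 1), h1 k]
      set S := ∑ i ∈ Finset.range (k + 1), z ^ i * z⁻¹ ^ (k - i)
      have h : z * z⁻¹ = 1 := mul_inv_cancel₀ hz
      linear_combination S * h
  rw [← Real.norm_eq_abs, ← Complex.norm_real, key]
  refine (norm_sum_le _ _).trans ((Finset.sum_le_card_nsmul _ _ (r ^ k) fun i hi => ?_).trans_eq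
    (by rw [Finset.card_range, nsmul_eq_mul]; push_cast; ring))
  rw [norm_mul, norm_pow, norm_pow]
  have hik : i ≤ k := Nat.lt_succ_iff.mp (Finset.mem_range.mp hi)
  calc ‖z‖ ^ i * ‖z⁻¹‖ ^ (k - i) ≤ r ^ i * r ^ (k - i) :=
        mul_le_mul (pow_le_pow_left₀ (norm_nonneg _) hzr i)
          (pow_le_pow_left₀ (norm_nonneg _) hzr' _) (by positivity) (by positivity)
    _ = r ^ k := by rw [← pow_add, Nat.add_sub_cancel' hik]

/-- The square series of a place. -/
lemma heckeSeq_sq_series {a r x : ℝ} (hr : 1 ≤ r) (ha : |a| ≤ r + r⁻¹) (hx : 0 ≤ x)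
    (hrx : r ^ 2 * x < 1) :
    Summable (fun k : ℕ => heckeSeq a k * heckeSeq a k * x ^ k) ∧
      ∑' k : ℕ, heckeSeq a k * heckeSeq a k * x ^ k ≤ Real.exp (pairSum a a x) ∧
      0 ≤ pairSum a a x := by
  have hq : 0 ≤ r ^ 2 * x := by positivity
  have hgeo : Summable fun k : ℕ => ((k : ℝ) + 1) ^ 2 * (r ^ 2 * x) ^ k := by
    have h2 := summable_pow_mul_geometric_of_norm_lt_one 2 (r := r ^ 2 * x)
      (by rw [Real.norm_eq_abs, abs_of_nonneg hq]; exact hrx)
    have h1 := summable_pow_mul_geometric_of_norm_lt_one 1 (r := r ^ 2 * x)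
      (by rw [Real.norm_eq_abs, abs_of_nonneg hq]; exact hrx)
    have h0 := summable_geometric_of_lt_one hq hrx
    exact ((h2.add (h1.mul_left 2)).add h0).congr fun k => by ring
  have hs : Summable fun k : ℕ => heckeSeq a k * heckeSeq a k * x ^ k := by
    refine Summable.of_nonneg_of_le (fun k => mul_nonneg (mul_self_nonneg _) (pow_nonneg hx k))
      (fun k => ?_) hgeo
    rw [mul_pow, ← pow_mul, ← mul_assoc, mul_comm 2 k, pow_mul, ← mul_pow, ← sq]
    refine mul_le_mul_of_nonneg_right ?_ (pow_nonneg hx k)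
    rw [← sq_abs]
    exact pow_le_pow_left₀ (abs_nonneg _) (abs_heckeSeq_le hr ha k) 2
  obtain ⟨hP, hD⟩ := exp_neg_pairSum hr ha ha hx hrx
  refine ⟨hs, ?_, tsum_nonneg fun k =>
    div_nonneg (mul_nonneg (mul_self_nonneg _) (pow_nonneg hx k)) (Nat.cast_nonneg k)⟩
  have h := tsum_heckeSeq_mul a a x hs
  rw [hD, Real.exp_neg] at h
  have he := Real.exp_pos (pairSum a a x)
  rw [← div_eq_mul_inv, div_eq_iff he.ne'] at h
  rw [h]
  nlinarith [sq_nonneg x]

lemma rpow_neg_bounds {p : ℕ} (hp : p.Prime) {s : ℝ} (hs : 1 < s) :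
    0 ≤ (p : ℝ) ^ (-s) ∧ (p : ℝ) ^ (-s) ≤ 1 / 2 ∧
      Real.sqrt p ^ 2 * (p : ℝ) ^ (-s) < 1 := by
  refine ⟨Real.rpow_nonneg (Nat.cast_nonneg _) _, ?_, ?_⟩
  · refine (rpow_neg_le_inv hp.two_le hs.le).trans ?_
    rw [one_div]
    exact inv_anti₀ two_pos (by exact_mod_cast hp.two_le)
  · have hp0 : (0 : ℝ) < p := by exact_mod_cast hp.pos
    rw [Real.sq_sqrt hp0.le, ← Real.rpow_one_add' hp0.le (by linarith)]
    exact Real.rpow_lt_one_of_one_lt_of_neg (by exact_mod_cast hp.one_lt) (by linarith)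

variable {M : ℕ} {ev ev' : ℕ → ℝ}

/-- The absolute Euler factor at `p`. -/
lemma local_abs_le (hinert : ∀ p : ℕ, p.Prime → ¬ p ∣ M → p % 3 ≠ 1 → ev p = 0 ∨ ev p = 2)
    (htriv : IsTrivialBound M ev) (htriv' : IsTrivialBound M ev') {p : ℕ} (hp : p.Prime) {s : ℝ}
    (hs : 1 < s) :
    Summable (fun k => |dTerm (eulerCoeff M ev ev') s (p ^ k)|) ∧
      ∑' k, |dTerm (eulerCoeff M ev ev') s (p ^ k)| ≤
        Real.exp (4 * (p : ℝ) ^ (-s) + 2 * asaiLoss M ev ev' s p) := by
  obtain ⟨hx, hxh, hrx⟩ := rpow_neg_bounds hp hs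
  set x := (p : ℝ) ^ (-s) with hxdef
  have hterm : ∀ k, |dTerm (eulerCoeff M ev ev') s (p ^ k)| = |asaiLocal M ev ev' p k| * x ^ k :=
    fun k => by rw [dTerm_pow, eulerCoeff_prime_pow hp, abs_mul, abs_of_nonneg (pow_nonneg hx k)]
  simp only [hterm]
  by_cases hsplit : ¬ p ∣ M ∧ p % 3 = 1
  · obtain ⟨hM, h3⟩ := hsplit
    have hr : 1 ≤ Real.sqrt p := Real.one_le_sqrt.mpr (by exact_mod_cast hp.one_lt.le)
    obtain ⟨sa, la, pa⟩ := heckeSeq_sq_series hr (htriv p hp hM h3) hx hrx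
    obtain ⟨sb, lb, pb⟩ := heckeSeq_sq_series hr (htriv' p hp hM h3) hx hrx
    have hle : ∀ k, |asaiLocal M ev ev' p k| * x ^ k ≤
        (heckeSeq (ev p) k * heckeSeq (ev p) k * x ^ k +
          heckeSeq (ev' p) k * heckeSeq (ev' p) k * x ^ k) / 2 := fun k => by
      rw [asaiLocal, if_neg hM, if_pos h3, ← add_mul, mul_div_right_comm]
      refine mul_le_mul_of_nonneg_right ?_ (pow_nonneg hx k)
      rw [abs_mul]
      nlinarith [sq_nonneg (|heckeSeq (ev p) k| - |heckeSeq (ev' p) k|),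
        sq_abs (heckeSeq (ev p) k), sq_abs (heckeSeq (ev' p) k)]
    have hs1 : Summable fun k => |asaiLocal M ev ev' p k| * x ^ k :=
      Summable.of_nonneg_of_le (fun k => mul_nonneg (abs_nonneg _) (pow_nonneg hx k)) hle
        ((sa.add sb).div_const 2)
    refine ⟨hs1, ?_⟩
    refine (hs1.tsum_le_tsum hle ((sa.add sb).div_const 2)).trans ?_
    rw [tsum_div_const, sa.tsum_add sb, asaiLoss, if_pos ⟨hM, h3⟩, ← hxdef]
    have h1 : Real.exp (pairSum (ev p) (ev p) x) ≤ Real.exp (4 * x +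
        2 * ((pairSum (ev p) (ev p) x + pairSum (ev' p) (ev' p) x) / 2)) :=
      Real.exp_le_exp.mpr (by linarith)
    have h2 : Real.exp (pairSum (ev' p) (ev' p) x) ≤ Real.exp (4 * x +
        2 * ((pairSum (ev p) (ev p) x + pairSum (ev' p) (ev' p) x) / 2)) :=
      Real.exp_le_exp.mpr (by linarith)
    linarith
  rw [asaiLoss, if_neg hsplit, mul_zero, add_zero]
  have hle : ∀ k, |asaiLocal M ev ev' p k| * x ^ k ≤ ((k + 1).choose 1 : ℕ) * x ^ k := fun k => by
    refine mul_le_mul_of_nonneg_right ?_ (pow_nonneg hx k)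
    rw [Nat.choose_one_right]
    by_cases hM : p ∣ M
    · rw [asaiLocal, if_pos hM]
      split_ifs with h <;> simp
      positivity
    · have h3 : ¬ p % 3 = 1 := fun h => hsplit ⟨hM, h⟩
      rw [asaiLocal, if_neg hM, if_neg h3]
      have h2 : |ev p| ≤ 1 + (1 : ℝ)⁻¹ := by
        rcases hinert p hp hM h3 with h | h <;> rw [h] <;> norm_num
      have := abs_heckeSeq_le le_rfl h2 k
      simpa using this
  have hx1 : ‖x‖ < 1 := by rw [Real.norm_eq_abs, abs_of_nonneg hx]; linarith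
  have hg := hasSum_choose_mul_geometric_of_norm_lt_one 1 hx1
  have hs1 : Summable fun k => |asaiLocal M ev ev' p k| * x ^ k :=
    Summable.of_nonneg_of_le (fun k => mul_nonneg (abs_nonneg _) (pow_nonneg hx k)) hle hg.summable
  refine ⟨hs1, (hs1.tsum_le_tsum hle hg.summable).trans ?_⟩
  rw [hg.tsum_eq, show 4 * x = 2 * x + 2 * x by ring, Real.exp_add, one_div, ← sq, ← inv_pow]
  refine pow_le_pow_left₀ (inv_nonneg.mpr (by linarith)) ?_ 2
  rw [inv_le_iff_one_le_mul₀ (by linarith)]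
  calc (1 : ℝ) ≤ (2 * x + 1) * (1 - x) := by nlinarith
    _ ≤ Real.exp (2 * x) * (1 - x) :=
        mul_le_mul_of_nonneg_right (Real.add_one_le_exp _) (by linarith)

/-- **Absolute convergence.** -/
theorem summable_eulerCoeff (hinert : ∀ p : ℕ, p.Prime → ¬ p ∣ M → p % 3 ≠ 1 → ev p = 0 ∨ ev p = 2)
    (htriv : IsTrivialBound M ev) (htriv' : IsTrivialBound M ev')
    (hsq : HasSquareBound M ev ev') (s : ℝ) (hs : 1 < s) :
    Summable fun n => |dTerm (eulerCoeff M ev ev') s n| := by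
  classical
  suffices h : ∀ t : ℝ, 1 < t → t ≤ 2 → Summable fun n => |dTerm (eulerCoeff M ev ev') t n| by
    rcases le_or_gt s 2 with hs2 | hs2
    · exact h s hs hs2
    · refine Summable.of_nonneg_of_le (fun n => abs_nonneg _) (fun n => ?_) (h 2 one_lt_two le_rfl)
      rcases Nat.eq_zero_or_pos n with rfl | hn
      · simp [dTerm]
      · simp only [dTerm, abs_mul, abs_of_nonneg (Real.rpow_nonneg (Nat.cast_nonneg n) _)]
        refine mul_le_mul_of_nonneg_left ?_ (abs_nonneg _)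
        exact Real.rpow_le_rpow_of_exponent_le (by exact_mod_cast hn) (by linarith)
  intro t ht ht2
  obtain ⟨C, hC⟩ := hsq
  set h : ℕ → ℝ := fun n => |dTerm (eulerCoeff M ev ev') t n| with hh
  have h1 : h 1 = 1 := by simp [hh, dTerm]
  have hmul : ∀ {m n : ℕ}, m.Coprime n → h (m * n) = h m * h n := fun {m n} hmn => by
    simp only [hh, dTerm, eulerCoeff_mul m n hmn, Nat.cast_mul,
      Real.mul_rpow (Nat.cast_nonneg _) (Nat.cast_nonneg _), ← abs_mul]
    ring_nf
  have hloc : ∀ {p : ℕ}, p.Prime → Summable fun k : ℕ => ‖h (p ^ k)‖ := fun {p} hp =>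
    (local_abs_le hinert htriv htriv' hp ht).1.congr fun k => by simp [hh]
  have hZsum : Summable fun n : ℕ => (n : ℝ) ^ (-t) :=
    Real.summable_nat_rpow.mpr (by linarith)
  set Z := ∑' n : ℕ, (n : ℝ) ^ (-t)
  refine summable_of_sum_range_le (c := Real.exp (4 * Z + (Real.log (1 / (t - 1)) + C)))
    (fun n => abs_nonneg _) fun N => ?_
  obtain ⟨hs1, hs2⟩ :=
    EulerProduct.summable_and_hasSum_smoothNumbers_prod_primesBelow_tsum h1 hmul hloc N
  calc ∑ n ∈ Finset.range N, h n = ∑ n ∈ (Finset.range N).filter (0 < ·), h n := by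
        refine (Finset.sum_filter_of_ne fun n _ hn => ?_).symm
        exact Nat.pos_of_ne_zero fun h0 => hn (by simp [hh, h0, dTerm])
    _ = ∑ m ∈ ((Finset.range N).filter (0 < ·)).subtype (· ∈ N.smoothNumbers), h m := by
        have hsm : ∀ n ∈ (Finset.range N).filter (0 < ·), n ∈ N.smoothNumbers := fun n hn => by
          obtain ⟨h1', h2'⟩ := Finset.mem_filter.mp hn
          exact Nat.mem_smoothNumbers_of_lt h2' (Finset.mem_range.mp h1')
        rw [Finset.sum_subtype_eq_sum_filter, Finset.filter_true_of_mem hsm]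
    _ ≤ ∏ p ∈ N.primesBelow, ∑' k, h (p ^ k) := by
        rw [← hs2.tsum_eq]
        exact hs2.summable.sum_le_tsum _ fun m _ => abs_nonneg _
    _ ≤ ∏ p ∈ N.primesBelow, Real.exp (4 * (p : ℝ) ^ (-t) + 2 * asaiLoss M ev ev' t p) :=
        Finset.prod_le_prod (fun p _ => tsum_nonneg fun k => abs_nonneg _) fun p hp =>
          (local_abs_le hinert htriv htriv' (Nat.prime_of_mem_primesBelow hp) ht).2
    _ ≤ _ := by
        rw [← Real.exp_sum]
        refine Real.exp_le_exp.mpr ?_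
        rw [Finset.sum_add_distrib, ← Finset.mul_sum, ← Finset.mul_sum]
        refine add_le_add (mul_le_mul_of_nonneg_left
          (hZsum.sum_le_tsum _ fun n _ => Real.rpow_nonneg (Nat.cast_nonneg n) _) (by norm_num)) ?_
        simp only [asaiLoss]
        rw [← Finset.sum_filter, ← Finset.sum_div, mul_div_cancel₀ _ (two_ne_zero (α := ℝ))]
        set P := N.primesBelow.filter fun p => ¬ p ∣ M ∧ p % 3 = 1
        have hP : ∀ p ∈ P, p.Prime := fun p hp =>
          Nat.prime_of_mem_primesBelow (Finset.mem_filter.mp hp).1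
        have hS := hC t ⟨ht, ht2⟩ (P.subtype Nat.Prime) fun p hp =>
          (Finset.mem_filter.mp (Finset.mem_subtype.mp hp)).2
        refine le_trans (le_of_eq ?_) hS
        exact (Finset.sum_subtype_eq_sum_filter (s := P) (p := Nat.Prime) (fun q : ℕ =>
          pairSum (ev q) (ev q) ((q : ℝ) ^ (-t)) + pairSum (ev' q) (ev' q) ((q : ℝ) ^ (-t)))
          |>.trans (by rw [Finset.filter_true_of_mem hP])).symm

end Fermat.Agent.LT.Asai
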